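import Fermat.Agent.Lifting.Deform.Closure
import Fermat.Agent.RT.Glue.FlatDescent
import Mathlib.LinearAlgebra.TensorProduct.Quotient

/-!
# Flatness is a deformation condition

Over a finite coefficient ring flatness is the existence of a Galois order on the module; Galois
orders restrict, descend to quotients and multiply.
-/

set_option autoImplicit false
set_option linter.style.haveILetI false

noncomputable section

namespace Fermat.Agent.Lifting

open IsLocalRing Module
open scoped TensorProduct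
open Fermat.Agent.FiniteFlat (GalOrder)
open Fermat.Agent.Arith (GQ)

variable {A : Type} [CommRing A] [IsLocalRing A] {p : ℕ}

/-- The Galois action on the module of a representation. -/
@[reducible] def repAction (ρ : GaloisRepAdic A) : DistribMulAction GQ ρ.V where
  smul σ v := ρ.ρ σ v
  one_smul v := by show ρ.ρ 1 v = v; rw [map_one]; rfl
  mul_smul σ τ v := by show ρ.ρ (σ * τ) v = ρ.ρ σ (ρ.ρ τ v); rw [map_mul]; rfl
  smul_zero σ := map_zero (ρ.ρ σ)
  smul_add σ v w := map_add (ρ.ρ σ) v w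

/-- A Galois order on the module of the representation. -/
def HasOrder (ρ : GaloisRepAdic A) (p : ℕ) : Prop :=
  letI := repAction ρ
  Nonempty (GalOrder p ρ.V)

theorem finite_of_isArtinian [IsArtinianRing A] (h : Finite (ResidueField A)) : Finite A := by
  obtain ⟨N, hN⟩ := (isArtinianRing_iff_isNilpotent_maximalIdeal A).mp inferInstance
  have : Finite (A ⧸ maximalIdeal A) := h
  have h1 := Ideal.finite_quotient_pow (IsNoetherian.noetherian (maximalIdeal A)) N
  rw [hN] at h1
  exact Finite.of_equiv _ (RingEquiv.quotientBot A).toEquiv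

theorem hasOrder_of_isFlatAt [Finite A] {ρ : GaloisRepAdic A} (h : ρ.IsFlatAt p) :
    HasOrder ρ p := by
  letI := repAction ρ
  obtain ⟨H, _, _, _, _, _, e, he, heσ⟩ := h.2 ⊥ (Finite.of_surjective _ Ideal.Quotient.mk_surjective)
  letI := EC.Rep.levelDistribMulAction ρ (⊥ : Ideal A)
  obtain ⟨O⟩ := RT.Glue.nonempty_galOrder_of_hopf e he heσ
  let i : ρ.V →+ ρ.V ⧸ ((⊥ : Ideal A) • (⊤ : Submodule A ρ.V)) := (Submodule.mkQ _).toAddMonoidHom
  refine ⟨O.restrict i ((injective_iff_map_eq_zero i).mpr fun v hv => ?_) fun σ v => rfl⟩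
  have h0 : v ∈ (⊥ : Ideal A) • (⊤ : Submodule A ρ.V) := (Submodule.Quotient.mk_eq_zero _).mp hv
  rwa [Submodule.bot_smul, Submodule.mem_bot] at h0

theorem isFlatAt_of_hasOrder [Finite A] {ρ : GaloisRepAdic A} (h : HasOrder ρ p) :
    ρ.IsFlatAt p := by
  haveI : Finite ρ.V := Module.finite_of_finite A
  letI := repAction ρ
  obtain ⟨O⟩ := h
  refine EC.Rep.isFlatAt_of_galOrder ρ p (Finite.of_surjective _ residue_surjective) fun I _ =>
    ⟨ρ.V, inferInstance, inferInstance, inferInstance, O, (Submodule.mkQ _).toAddMonoidHom,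
      Submodule.mkQ_surjective _, fun σ v => rfl⟩

theorem nonempty_galOrder_pi {M : Type} [AddCommGroup M] [DistribMulAction GQ M] [Finite M]
    (O : GalOrder p M) : ∀ n : ℕ, Nonempty (GalOrder p (Fin n → M))
  | 0 => ⟨O.quotient (0 : M →+ (Fin 0 → M)) (fun _ => ⟨0, Subsingleton.elim _ _⟩)
      fun _ _ => Subsingleton.elim _ _⟩
  | n + 1 => by
    obtain ⟨O'⟩ := nonempty_galOrder_pi O n
    let π : M × (Fin n → M) →+ (Fin (n + 1) → M) :=
      { toFun := fun x => Fin.cons x.1 x.2
        map_zero' := funext fun i => by cases i using Fin.cases <;> simp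
        map_add' := fun x y => funext fun i => by cases i using Fin.cases <;> simp }
    exact ⟨(O.prod O').quotient π (fun f => ⟨(f 0, fun i => f i.succ), Fin.cons_self_tail f⟩)
      fun σ x => funext fun i => by cases i using Fin.cases <;> simp [π]⟩

theorem hasOrder_baseChange [Finite A] {B : Type} [CommRing B] [IsLocalRing B] [Finite B]
    (φ : A →+* B) (hφ : IsLocalHom φ) {ρ : GaloisRepAdic A} (h : HasOrder ρ p) :
    HasOrder (ρ.baseChangeAlong φ hφ) p := by
  haveI : Finite ρ.V := Module.finite_of_finite A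
  letI := φ.toAlgebra
  letI := repAction ρ
  obtain ⟨O⟩ := h
  let g : Fin (Nat.card B) ≃ B := (Finite.equivFin B).symm
  obtain ⟨O'⟩ := nonempty_galOrder_pi O (Nat.card B)
  let π : (Fin (Nat.card B) → ρ.V) →+ B ⊗[A] ρ.V :=
    { toFun := fun f => ∑ i, g i ⊗ₜ[A] f i
      map_zero' := by simp
      map_add' := fun f f' => by simp [TensorProduct.tmul_add, Finset.sum_add_distrib] }
  letI := repAction (ρ.baseChangeAlong φ hφ)
  haveI : Finite (Fin (Nat.card B) → ρ.V) := inferInstance
  refine ⟨O'.quotient (M' := (ρ.baseChangeAlong φ hφ).V) π (fun y => ?_) fun σ f => ?_⟩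
  · show ∃ f, π f = (y : B ⊗[A] ρ.V)
    generalize (y : B ⊗[A] ρ.V) = w
    induction w using TensorProduct.induction_on with
    | zero => exact ⟨0, map_zero π⟩
    | tmul c v =>
      classical
      refine ⟨Pi.single (g.symm c) v, ?_⟩
      show ∑ i, g i ⊗ₜ[A] Pi.single (M := fun _ => ρ.V) (g.symm c) v i = _
      rw [Finset.sum_eq_single (g.symm c)]
      · simp
      · intro i _ hi; rw [Pi.single_eq_of_ne hi, TensorProduct.tmul_zero]
      · simp
    | add x y hx hy =>
      obtain ⟨a, rfl⟩ := hx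
      obtain ⟨b, rfl⟩ := hy
      exact ⟨a + b, map_add π a b⟩
  · show ∑ i, g i ⊗ₜ[A] ρ.ρ σ (f i) = (ρ.ρ σ).baseChange B (∑ i, g i ⊗ₜ[A] f i)
    simp [LinearMap.baseChange_tmul]

theorem hasOrder_equiv [Finite A] {ρ ρ' : GaloisRepAdic A} (e : ρ.Equiv ρ') (h : HasOrder ρ p) :
    HasOrder ρ' p := by
  haveI : Finite ρ.V := Module.finite_of_finite A
  letI := repAction ρ
  letI := repAction ρ'
  obtain ⟨O⟩ := h
  exact ⟨O.quotient e.toLinearEquiv.toAddMonoidHom e.toLinearEquiv.surjective e.map_apply⟩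

/-- The map into the base change. -/
def toBaseChange {B : Type} [CommRing B] [IsLocalRing B] (φ : A →+* B) (hφ : IsLocalHom φ)
    (ρ : GaloisRepAdic A) : ρ.V →+ (ρ.baseChangeAlong φ hφ).V :=
  letI := φ.toAlgebra
  (TensorProduct.mk A B ρ.V 1).toAddMonoidHom

theorem toBaseChange_repr {B : Type} [CommRing B] [IsLocalRing B] (φ : A →+* B)
    (hφ : IsLocalHom φ) {ρ : GaloisRepAdic A} (b : Basis (Fin 2) A ρ.V) (v : ρ.V) (i : Fin 2) :
    (bcBasis φ hφ b).repr (toBaseChange φ hφ ρ v) i = φ (b.repr v i) := by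
  letI := φ.toAlgebra
  show (Algebra.TensorProduct.basis B b).repr ((1 : B) ⊗ₜ[A] v) i = _
  rw [Algebra.TensorProduct.basis_repr_tmul]
  simp [Finsupp.smul_apply]
  rfl

theorem toBaseChange_smul {B : Type} [CommRing B] [IsLocalRing B] (φ : A →+* B)
    (hφ : IsLocalHom φ) (ρ : GaloisRepAdic A) (σ : GQ) (v : ρ.V) :
    toBaseChange φ hφ ρ (ρ.ρ σ v) = (ρ.baseChangeAlong φ hφ).ρ σ (toBaseChange φ hφ ρ v) := by
  letI := φ.toAlgebra
  exact ((ρ.ρ σ).baseChange_tmul (1 : B) v).symm

variable {O : Type} [CommRing O] [IsLocalRing O] [Finite (ResidueField O)]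

theorem finite_of_test [Algebra O A] (hA : GaloisRep.IsArtinianTestAlgebra O A) : Finite A := by
  haveI := hA.isArtinian
  haveI := hA.isLocalHom
  refine finite_of_isArtinian (Finite.of_surjective
    (ResidueField.map (algebraMap O A)) fun z => ?_)
  obtain ⟨o, rfl⟩ := hA.residue_surjective z
  exact ⟨residue O o, rfl⟩

/-- Flatness is a deformation condition. -/
theorem isDeformationCondition_flat :
    GaloisRep.IsDeformationCondition O (fun _A _ _ _ ρ => ρ.IsFlatAt p : Cond O) where
  of_isEquiv A _ _ _ hA _ _ he hρ := by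
    haveI := finite_of_test hA
    obtain ⟨e⟩ := he
    exact isFlatAt_of_hasOrder (hasOrder_equiv e (hasOrder_of_isFlatAt hρ))
  baseChangeAlong A B _ _ _ _ _ _ hA hB φ hφ ρ hρ := by
    haveI := finite_of_test hA
    haveI := finite_of_test hB
    exact isFlatAt_of_hasOrder (hasOrder_baseChange _ hφ (hasOrder_of_isFlatAt hρ))
  of_baseChangeAlong_injective A B _ _ _ _ _ _ hA hB φ hφ hinj ρ hρ := by
    haveI := finite_of_test hA
    haveI := finite_of_test hB
    letI := repAction ρ
    letI := repAction (ρ.baseChangeAlong (φ : A →+* B) hφ)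
    obtain ⟨Ord⟩ := hasOrder_of_isFlatAt hρ
    let b := Module.finBasisOfFinrankEq A ρ.V ρ.finrank_eq
    refine isFlatAt_of_hasOrder ⟨Ord.restrict (toBaseChange _ hφ ρ)
      ((injective_iff_map_eq_zero _).mpr fun v hv => b.ext_elem fun i => hinj ?_)
      fun σ v => toBaseChange_smul _ hφ ρ σ v⟩
    have := toBaseChange_repr _ hφ b v i
    rw [hv, map_zero, Finsupp.zero_apply] at this
    rw [map_zero, Finsupp.zero_apply, map_zero]
    exact this.symm
  of_fibreProduct A B C P _ _ _ _ _ _ _ _ _ _ _ _ hA hB _ hP f g pA pB hpA hpB _ hinj _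
      ρ h₁ h₂ := by
    haveI := finite_of_test hA
    haveI := finite_of_test hB
    haveI := finite_of_test hP
    letI := repAction ρ
    letI := repAction (ρ.baseChangeAlong (pA : P →+* A) hpA)
    letI := repAction (ρ.baseChangeAlong (pB : P →+* B) hpB)
    obtain ⟨O₁⟩ := hasOrder_of_isFlatAt h₁
    obtain ⟨O₂⟩ := hasOrder_of_isFlatAt h₂
    let b := Module.finBasisOfFinrankEq P ρ.V ρ.finrank_eq
    refine isFlatAt_of_hasOrder ⟨(O₁.prod O₂).restrict
      ((toBaseChange _ hpA ρ).prod (toBaseChange _ hpB ρ))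
      ((injective_iff_map_eq_zero _).mpr fun v hv => b.ext_elem fun i => hinj ?_)
      fun σ v => Prod.ext (toBaseChange_smul _ hpA ρ σ v) (toBaseChange_smul _ hpB ρ σ v)⟩
    obtain ⟨hv₁, hv₂⟩ := Prod.mk.inj hv
    have e₁ := toBaseChange_repr _ hpA b v i
    have e₂ := toBaseChange_repr _ hpB b v i
    rw [hv₁, map_zero, Finsupp.zero_apply] at e₁
    rw [hv₂, map_zero, Finsupp.zero_apply] at e₂
    simp only [map_zero, Finsupp.zero_apply]
    exact Prod.ext (e₁.symm.trans rfl) (e₂.symm.trans rfl)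
  iff_forall_surjective A _ _ _ _ _ hloc hres ρ := by
    refine ⟨fun H B _ _ _ _ q hq hqs => CFT.Tangent.IsFlatAt.baseChange _ hq hqs H, fun H => ?_⟩
    have hkA : Finite (ResidueField A) := by
      haveI := hloc
      refine Finite.of_surjective (ResidueField.map (algebraMap O A)) fun z => ?_
      obtain ⟨o, rfl⟩ := hres z
      exact ⟨residue O o, rfl⟩
    refine EC.Rep.isFlatAt_of_galOrder ρ p hkA fun I hI => ?_
    classical
    obtain ⟨J, hJ, hJI, hJfin⟩ : ∃ J : Ideal A, J ≠ ⊤ ∧ J ≤ I ∧ Finite (A ⧸ J) := by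
      by_cases hI' : I = ⊤
      · exact ⟨maximalIdeal A, (maximalIdeal.isMaximal A).ne_top, hI' ▸ le_top, hkA⟩
      · exact ⟨I, hI', le_rfl, hI⟩
    haveI : Nontrivial (A ⧸ J) := Ideal.Quotient.nontrivial_iff.mpr hJ
    haveI : IsLocalRing (A ⧸ J) :=
      IsLocalRing.of_surjective' (Ideal.Quotient.mk J) Ideal.Quotient.mk_surjective
    have hq : IsLocalHom (Ideal.Quotient.mkₐ O J : A →+* A ⧸ J) :=
      IsLocalHom.of_surjective _ Ideal.Quotient.mk_surjective
    have hB : GaloisRep.IsArtinianTestAlgebra O (A ⧸ J) :=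
      { isLocalHom := ⟨fun o ho => hloc.map_nonunit o (hq.map_nonunit _ ho)⟩
        residue_surjective := fun z => by
          obtain ⟨y, rfl⟩ := residue_surjective z
          obtain ⟨a, rfl⟩ := Ideal.Quotient.mk_surjective y
          obtain ⟨o, ho⟩ := hres (residue A a)
          refine ⟨o, Ideal.Quotient.eq.mpr ?_⟩
          have h1 : algebraMap O A o - a ∈ maximalIdeal A := Ideal.Quotient.eq.mp ho
          have h2 : Ideal.Quotient.mk J (algebraMap O A o - a) ∈ maximalIdeal (A ⧸ J) :=
            fun hu => h1 (hq.map_nonunit _ hu)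
          rwa [map_sub] at h2
        isArtinian := inferInstance }
    obtain ⟨Ord⟩ := hasOrder_of_isFlatAt (H hB (Ideal.Quotient.mkₐ O J) hq Ideal.Quotient.mk_surjective)
    let e : (A ⧸ J) ⊗[A] ρ.V ≃ₗ[A] ρ.V ⧸ (J • (⊤ : Submodule A ρ.V)) :=
      TensorProduct.quotTensorEquivQuotSMul ρ.V J
    have hle : J • (⊤ : Submodule A ρ.V) ≤ I • (⊤ : Submodule A ρ.V) := Submodule.smul_mono_left hJI
    let π : (ρ.baseChangeAlong (Ideal.Quotient.mkₐ O J : A →+* A ⧸ J) hq).V →+
        ρ.V ⧸ (I • (⊤ : Submodule A ρ.V)) :=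
      { toFun := fun m => Submodule.factor hle (e m)
        map_zero' := (congrArg (Submodule.factor hle) (map_zero e)).trans (map_zero _)
        map_add' := fun x y => (congrArg (Submodule.factor hle) (map_add e x y)).trans (map_add _ _ _) }
    refine ⟨(ρ.baseChangeAlong (Ideal.Quotient.mkₐ O J : A →+* A ⧸ J) hq).V, inferInstance,
      repAction _, Module.finite_of_finite (A ⧸ J), Ord,
      π, fun y => ?_, fun σ m => ?_⟩
    · obtain ⟨x, rfl⟩ := Submodule.factor_surjective hle y
      obtain ⟨w, rfl⟩ := e.surjective x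
      exact ⟨w, rfl⟩
    have key : ∀ w : (A ⧸ J) ⊗[A] ρ.V, Submodule.factor hle (e ((ρ.ρ σ).baseChange (A ⧸ J) w)) =
        ρ.levelAction I σ (Submodule.factor hle (e w)) := by
      intro w
      induction w using TensorProduct.induction_on with
      | zero => simp
      | tmul c v =>
        obtain ⟨a, rfl⟩ := Ideal.Quotient.mk_surjective c
        simp [e, LinearMap.baseChange_tmul, GaloisRepAdic.levelAction]
      | add x y hx hy => simp [map_add, hx, hy]
    exact key m

end Fermat.Agent.Lifting
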