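import Fermat.Agent.Lifting.Deform.Ordinary
import Fermat.Agent.Lifting.Deform.Flat
import Fermat.Agent.EC.FrobTrace.LinearAlgebra

/-!
# The deformation conditions of the lifting theorem

`liftCondition O p K N T s`: cyclotomic determinant, the condition `K` at `p`, unramified outside
`insert p (N ∪ T)`, unipotent inertia at `N`, and at the primes of `T` not congruent to `1` modulo
`p` unipotent inertia with the Steinberg relations of sign `s`. It is a deformation condition.
-/

set_option autoImplicit false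
set_option linter.style.haveILetI false

noncomputable section

namespace Fermat.Agent.Lifting

open IsLocalRing Module
open Deform (Gal)

/-- The conditions at `p`. -/
inductive PKind : Type
  | flat
  | ord
  | strict

/-- The condition at `p` of a kind. -/
def PKind.Holds {A : Type} [CommRing A] [IsLocalRing A] :
    PKind → GaloisRepAdic A → ℕ → Prop
  | .flat, ρ, p => ρ.IsFlatAt p
  | .ord, ρ, p => ρ.IsOrdinaryAt p
  | .strict, ρ, p => ρ.IsStrictOrdinaryAt p

/-- Inertia at `q` is unipotent and satisfies the Steinberg relations of sign `s` with every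
Frobenius element. -/
def IsSignedAt {A : Type} [CommRing A] [IsLocalRing A] (ρ : GaloisRepAdic A) (q : ℕ) (s : ℤ) :
    Prop :=
  ρ.IsUnipotentOnInertiaAt q ∧
    ∀ P : ValuationSubring (AlgebraicClosure ℚ), P.LiesOverPrime q →
      ∀ F : Gal, P.IsFrobeniusAt F q → ∀ τ ∈ P.inertiaSubgroupIn ℚ,
        (ρ.ρ F - ((s * q : ℤ) : A) • 1) * (ρ.ρ τ - 1) = 0 ∧
          (ρ.ρ τ - 1) * (ρ.ρ F - (s : A) • 1) = 0

/-- The deformation condition of the lifting theorem. -/
def liftCondition (O : Type) [CommRing O] (p : ℕ) (K : PKind) (N T : Finset ℕ) (s : ℕ → ℤ) :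
    Cond O := fun _A _ _ _ ρ =>
  ρ.DetIsCyclotomic p ∧ K.Holds ρ p ∧
    (∀ q : ℕ, q.Prime → q ∉ insert p (N ∪ T) → ρ.IsUnramifiedAt q) ∧
    (∀ q ∈ N, q.Prime → q ≠ p → ρ.IsUnipotentOnInertiaAt q) ∧
    ∀ q ∈ T, q.Prime → q ≠ p → q % p ≠ 1 → IsSignedAt ρ q (s q)

variable {O : Type} [CommRing O] [IsLocalRing O] [Finite (ResidueField O)]
variable {A : Type} [CommRing A] [IsLocalRing A] [Algebra O A] {ρ : GaloisRepAdic A}

/-- Unramifiedness as equations. -/
def unramifiedEq (q : ℕ) : Cond O :=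
  eqCond fun x : {x : ValuationSubring (AlgebraicClosure ℚ) × Gal //
      x.1.LiesOverPrime q ∧ x.2 ∈ x.1.inertiaSubgroupIn ℚ} => NatEnd.gal x.1.2 - 1

omit [IsLocalRing O] [Finite (ResidueField O)] in
theorem isUnramifiedAt_iff (q : ℕ) : ρ.IsUnramifiedAt q ↔ unramifiedEq (O := O) q ρ := by
  refine ⟨fun h x => ?_, fun h P hP σ hσ => ?_⟩
  · simp [h _ x.2.1 _ x.2.2]
  · simpa [sub_eq_zero] using h ⟨⟨P, σ⟩, hP, hσ⟩

/-- Unipotence as equations. -/
def unipotentEq (q : ℕ) : Cond O :=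
  condAnd
    (eqCond fun x : {x : ValuationSubring (AlgebraicClosure ℚ) × Gal //
      x.1.LiesOverPrime q ∧ x.2 ∈ x.1.inertiaSubgroupIn ℚ} =>
        (NatScalar.det x.1.2 - NatScalar.int 1) • 1)
    (eqCond fun x : {x : ValuationSubring (AlgebraicClosure ℚ) × Gal //
      x.1.LiesOverPrime q ∧ x.2 ∈ x.1.inertiaSubgroupIn ℚ} =>
        (NatScalar.trace (NatEnd.gal x.1.2) - NatScalar.int 2) • 1)

omit [IsLocalRing O] [Finite (ResidueField O)] in
theorem charpoly_eq_sq_iff (f : Module.End A ρ.V) :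
    LinearMap.charpoly f = (Polynomial.X - 1) ^ 2 ↔
      LinearMap.trace A ρ.V f = 2 ∧ LinearMap.det f = 1 := by
  let b := Module.finBasisOfFinrankEq A ρ.V ρ.finrank_eq
  rw [← LinearMap.charpoly_toMatrix f b, Matrix.charpoly_fin_two,
    LinearMap.trace_eq_matrix_trace A b, ← LinearMap.det_toMatrix b]
  refine ⟨fun h => ?_, fun h => by rw [h.1, h.2, Polynomial.C_1, map_ofNat]; ring⟩
  have h1 := congrArg (fun P => Polynomial.coeff P 1) h
  have h0 := congrArg (fun P => Polynomial.coeff P 0) h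
  rw [show (Polynomial.X - 1 : Polynomial A) ^ 2 =
    Polynomial.X ^ 2 - Polynomial.C 2 * Polynomial.X + Polynomial.C 1 by
      rw [Polynomial.C_1, map_ofNat]; ring] at h1 h0
  simp [Polynomial.coeff_X_pow, Polynomial.coeff_C, Polynomial.coeff_one] at h1 h0
  exact ⟨h1, (LinearMap.det_toMatrix b f).trans h0⟩

omit [IsLocalRing O] [Finite (ResidueField O)] in
theorem isUnipotentOnInertiaAt_iff (q : ℕ) :
    ρ.IsUnipotentOnInertiaAt q ↔ unipotentEq (O := O) q ρ := by
  refine ⟨fun h => ⟨fun x => ?_, fun x => ?_⟩, fun h P hP σ hσ => ?_⟩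
  · obtain ⟨h1, h2⟩ := (charpoly_eq_sq_iff _).mp (h _ x.2.1 _ x.2.2)
    simp [h2]
  · obtain ⟨h1, h2⟩ := (charpoly_eq_sq_iff _).mp (h _ x.2.1 _ x.2.2)
    simp [h1]
  · obtain ⟨hd, ht⟩ := h
    have h2 := hd ⟨⟨P, σ⟩, hP, hσ⟩
    have h1 := ht ⟨⟨P, σ⟩, hP, hσ⟩
    simp only [NatEnd.smul_val, NatEnd.one_val, smul_one_eq_zero_iff, NatScalar.sub_val,
      NatScalar.trace_val, NatEnd.gal_val, NatScalar.det_val, NatScalar.int_val, sub_eq_zero,
      Int.cast_one, Int.cast_ofNat] at h1 h2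
    exact (charpoly_eq_sq_iff _).mpr ⟨h1, h2⟩

/-- The Steinberg relations as equations. -/
def signedEq (q : ℕ) (s : ℤ) : Cond O :=
  condAnd (unipotentEq q)
    (condAnd
      (eqCond fun x : {x : ValuationSubring (AlgebraicClosure ℚ) × Gal × Gal //
        x.1.LiesOverPrime q ∧ x.1.IsFrobeniusAt x.2.1 q ∧ x.2.2 ∈ x.1.inertiaSubgroupIn ℚ} =>
          (NatEnd.gal x.1.2.1 - NatScalar.int (s * q) • 1) * (NatEnd.gal x.1.2.2 - 1))
      (eqCond fun x : {x : ValuationSubring (AlgebraicClosure ℚ) × Gal × Gal //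
        x.1.LiesOverPrime q ∧ x.1.IsFrobeniusAt x.2.1 q ∧ x.2.2 ∈ x.1.inertiaSubgroupIn ℚ} =>
          (NatEnd.gal x.1.2.2 - 1) * (NatEnd.gal x.1.2.1 - NatScalar.int s • 1)))

omit [IsLocalRing O] [Finite (ResidueField O)] in
theorem isSignedAt_iff (q : ℕ) (s : ℤ) : IsSignedAt ρ q s ↔ signedEq (O := O) q s ρ := by
  refine ⟨fun h => ⟨(isUnipotentOnInertiaAt_iff q).mp h.1,
    fun x => (h.2 _ x.2.1 _ x.2.2.1 _ x.2.2.2).1, fun x => (h.2 _ x.2.1 _ x.2.2.1 _ x.2.2.2).2⟩,
    fun h => ⟨(isUnipotentOnInertiaAt_iff q).mpr h.1, fun P hP F hF τ hτ => ?_⟩⟩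
  exact ⟨h.2.1 ⟨⟨P, F, τ⟩, hP, hF, hτ⟩, h.2.2 ⟨⟨P, F, τ⟩, hP, hF, hτ⟩⟩

/-- The cyclotomic determinant as congruences. -/
def detEq (p : ℕ) : Cond O :=
  cycCond p (fun σ : Gal => σ) (fun σ => NatScalar.det σ • 1) (fun _ => 1)

omit [Finite (ResidueField O)] in
theorem detIsCyclotomic_iff {p : ℕ} (hp : (p : O) ∈ maximalIdeal O)
    (hA : IsLocalHom (algebraMap O A)) : ρ.DetIsCyclotomic p ↔ detEq (O := O) p ρ := by
  refine ⟨fun h σ n a ha => ?_, fun h => ⟨natCast_mem_of_isLocalHom hp hA, fun n σ a ha => ?_⟩⟩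
  · simp only [NatEnd.sub_val, NatEnd.smul_val, NatEnd.one_val, NatScalar.det_val,
      NatScalar.int_val, ← sub_smul, inSpan_smul_one_iff, Int.cast_natCast]
    exact h.2 n σ a ha
  · have h1 := h σ n a ha
    simp only [NatEnd.sub_val, NatEnd.smul_val, NatEnd.one_val, NatScalar.det_val,
      NatScalar.int_val, ← sub_smul, inSpan_smul_one_iff, Int.cast_natCast] at h1
    exact h1

variable {p : ℕ} [Fact p.Prime]

theorem isDeformationCondition_det (hp : (p : O) ∈ maximalIdeal O) :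
    GaloisRep.IsDeformationCondition O (fun _A _ _ _ ρ => ρ.DetIsCyclotomic p : Cond O) :=
  isDeformationCondition_congr (C := detEq p)
    (fun _A _ _ _ hA _ρ => (detIsCyclotomic_iff hp hA).symm) (isDeformationCondition_cycCond hp _ _ _)

theorem isDeformationCondition_pKind (hp2 : p ≠ 2) (hp : (p : O) ∈ maximalIdeal O) (K : PKind) :
    GaloisRep.IsDeformationCondition O
      (fun _A _ _ _ ρ => ρ.DetIsCyclotomic p ∧ K.Holds ρ p : Cond O) := by
  have hord : GaloisRep.IsDeformationCondition O (ordEq p : Cond O) :=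
    isDeformationCondition_forall fun P => isDeformationCondition_and
      (isDeformationCondition_eqCond _)
      (isDeformationCondition_and (isDeformationCondition_eqCond _) (isDeformationCondition_eqCond _))
  cases K with
  | flat => exact isDeformationCondition_and (isDeformationCondition_det hp) isDeformationCondition_flat
  | ord =>
    exact isDeformationCondition_congr
      (C := condAnd (fun _A _ _ _ ρ => ρ.DetIsCyclotomic p : Cond O) (ordEq p))
      (fun _A _ _ _ _ _ρ => ⟨fun h => ⟨h.1, (isOrdinaryAt_iff_ordEq hp2 h.1).mpr h.2⟩,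
        fun h => ⟨h.1, (isOrdinaryAt_iff_ordEq hp2 h.1).mp h.2⟩⟩)
      (isDeformationCondition_and (isDeformationCondition_det hp) hord)
  | strict =>
    exact isDeformationCondition_congr
      (C := condAnd (fun _A _ _ _ ρ => ρ.DetIsCyclotomic p : Cond O)
        (condAnd (ordEq p) (strictEq p)))
      (fun _A _ _ _ _ _ρ => ⟨fun h => ⟨h.1, (isStrictOrdinaryAt_iff_strictEq hp2 h.1).mpr h.2⟩,
        fun h => ⟨h.1, (isStrictOrdinaryAt_iff_strictEq hp2 h.1).mp h.2⟩⟩)
      (isDeformationCondition_and (isDeformationCondition_det hp)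
        (isDeformationCondition_and hord
          (isDeformationCondition_forall fun P => isDeformationCondition_cycCond hp _ _ _)))

/-- The conditions away from `p`. -/
def awayEq (p : ℕ) (N T : Finset ℕ) (s : ℕ → ℤ) : Cond O :=
  condAnd (condForall fun q : {q : ℕ // q.Prime ∧ q ∉ insert p (N ∪ T)} => unramifiedEq q.1)
    (condAnd (condForall fun q : {q : ℕ // q ∈ N ∧ q.Prime ∧ q ≠ p} => unipotentEq q.1)
      (condForall fun q : {q : ℕ // q ∈ T ∧ q.Prime ∧ q ≠ p ∧ q % p ≠ 1} => signedEq q.1 (s q.1)))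

/-- **The lifting conditions are deformation conditions.** -/
theorem isDeformationCondition_lift (hp2 : p ≠ 2) (hp : (p : O) ∈ maximalIdeal O) (K : PKind)
    (N T : Finset ℕ) (s : ℕ → ℤ) :
    GaloisRep.IsDeformationCondition O (liftCondition O p K N T s) := by
  refine isDeformationCondition_congr
    (C := condAnd (fun _A _ _ _ ρ => ρ.DetIsCyclotomic p ∧ K.Holds ρ p : Cond O) (awayEq p N T s))
    (fun A _ _ _ _ ρ => ⟨fun h => ⟨h.1.1, h.1.2, fun q hq hq' =>
        (isUnramifiedAt_iff q).mpr (h.2.1 ⟨q, hq, hq'⟩),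
      fun q hq hq' hqp => (isUnipotentOnInertiaAt_iff q).mpr (h.2.2.1 ⟨q, hq, hq', hqp⟩),
      fun q hq hq' hqp h1 => (isSignedAt_iff q _).mpr (h.2.2.2 ⟨q, hq, hq', hqp, h1⟩)⟩,
      fun h => ⟨⟨h.1, h.2.1⟩, fun q => (isUnramifiedAt_iff q.1).mp (h.2.2.1 q.1 q.2.1 q.2.2),
        fun q => (isUnipotentOnInertiaAt_iff q.1).mp (h.2.2.2.1 q.1 q.2.1 q.2.2.1 q.2.2.2),
        fun q => (isSignedAt_iff q.1 _).mp
          (h.2.2.2.2 q.1 q.2.1 q.2.2.1 q.2.2.2.1 q.2.2.2.2)⟩⟩)
    (isDeformationCondition_and (isDeformationCondition_pKind hp2 hp K)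
      (isDeformationCondition_and
        (isDeformationCondition_forall fun q => isDeformationCondition_eqCond _)
        (isDeformationCondition_and
          (isDeformationCondition_forall fun q => isDeformationCondition_and
            (isDeformationCondition_eqCond _) (isDeformationCondition_eqCond _))
          (isDeformationCondition_forall fun q => isDeformationCondition_and
            (isDeformationCondition_and (isDeformationCondition_eqCond _)
              (isDeformationCondition_eqCond _))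
            (isDeformationCondition_and (isDeformationCondition_eqCond _)
              (isDeformationCondition_eqCond _))))))

omit [IsLocalRing O] [Finite (ResidueField O)] [Fact p.Prime] in
/-- With no prime needing signs the condition is minimal flatness at the level `insert p (N ∪ T)`
with unipotence at `N`. -/
theorem liftCondition_flat_iff {N T : Finset ℕ} {s : ℕ → ℤ}
    (hT : ∀ q ∈ T, q.Prime → q % p = 1) :
    liftCondition O p .flat N T s ρ ↔
      GaloisRep.flatCondition O p (insert p N ∪ T) ρ ∧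
        ∀ q ∈ insert p N, q.Prime → q ≠ p → ρ.IsUnipotentOnInertiaAt q := by
  have e : insert p (N ∪ T) = insert p N ∪ T := (Finset.insert_union p N T).symm
  refine ⟨fun h => ⟨⟨h.1, h.2.1, e ▸ h.2.2.1⟩, fun q hq hq' hqp => ?_⟩,
    fun h => ⟨h.1.1, h.1.2.1, e.symm ▸ h.1.2.2, fun q hq => h.2 q (Finset.mem_insert_of_mem hq),
      fun q hq hq' _ h1 => absurd (hT q hq hq') h1⟩⟩
  exact h.2.2.2.1 q ((Finset.mem_insert.mp hq).resolve_left hqp) hq' hqp

omit [IsLocalRing O] [Finite (ResidueField O)] [Fact p.Prime] in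
/-- The strict variant. -/
theorem liftCondition_strict_iff {N T : Finset ℕ} {s : ℕ → ℤ}
    (hT : ∀ q ∈ T, q.Prime → q % p = 1) :
    liftCondition O p .strict N T s ρ ↔
      GaloisRep.strictOrdinaryCondition O p (insert p N ∪ T) ρ ∧
        ∀ q ∈ insert p N, q.Prime → q ≠ p → ρ.IsUnipotentOnInertiaAt q := by
  have e : insert p (N ∪ T) = insert p N ∪ T := (Finset.insert_union p N T).symm
  refine ⟨fun h => ⟨⟨h.1, h.2.1, e ▸ h.2.2.1⟩, fun q hq hq' hqp => ?_⟩,
    fun h => ⟨h.1.1, h.1.2.1, e.symm ▸ h.1.2.2, fun q hq => h.2 q (Finset.mem_insert_of_mem hq),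
      fun q hq hq' _ h1 => absurd (hT q hq hq') h1⟩⟩
  exact h.2.2.2.1 q ((Finset.mem_insert.mp hq).resolve_left hqp) hq' hqp

end Fermat.Agent.Lifting
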