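import Fermat.Agent.CFT.Flat.Tame
import Mathlib.FieldTheory.Galois.Profinite

/-!
# Kummer elements of inertia

A Kummer element fixes all `p`-power roots of units fixed by inertia and moves the `p`-th roots of
`p`. Cocycles of inertia with values in `p`-power roots of unity are coboundaries of a radical; the
valuation of the radical is read off at a Kummer element, so a cocycle trivial there is the
coboundary of a unit. For odd `p` Kummer elements exist.
-/

set_option autoImplicit false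
set_option linter.style.haveILetI false
set_option linter.unusedSectionVars false

noncomputable section

open Fermat.Agent.Arith Fermat.Agent.CFT.Flat

namespace Fermat.Agent.Lifting.Deform

variable (p : ℕ) [hp : Fact p.Prime]

/-- The element fixes all `p`-power roots of units fixed by inertia. -/
def FixesUnitRoots (σ : GQ) : Prop :=
  ∀ (n : ℕ) (α : QBar), (∀ g ∈ inG p, g (α ^ p ^ n) = α ^ p ^ n) → nrm p α = 1 → σ α = α

/-- An inertia element seeing the valuation in Kummer theory. -/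
structure IsKummerElt (σ : GQ) : Prop where
  mem : σ ∈ inG p
  fixes : FixesUnitRoots p σ
  moves : ∀ α : QBar, α ^ p = (p : QBar) → σ α ≠ α

variable {p}

/-- Absolute values of the elements fixed by inertia. -/
theorem exists_nrm_eq_zpow {x : QBar} (hx : x ≠ 0) (hfix : ∀ g ∈ inG p, g x = x) :
    ∃ k : ℤ, nrm p x = nrm p (p : QBar) ^ k := by
  obtain ⟨k, hk⟩ := (isLevel_inG (p := p)).nrm_pow_relIndex hx hfix
  rw [Subgroup.relIndex_self, pow_one] at hk
  exact ⟨k, by rw [hk, nrm_natCast_self]⟩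

/-- Hilbert 90 for inertia: a cocycle of finite level with values in roots of unity is the
coboundary of a radical. -/
theorem exists_cocycle_radical {m : ℕ} (hm : 0 < m) {c : GQ → QBar}
    (hc1 : ∀ g ∈ inG p, c g ^ m = 1) (hmul : ∀ g ∈ inG p, ∀ h ∈ inG p, c (g * h) = c g * g (c h))
    {K : IntermediateField ℚ QBar} [FiniteDimensional ℚ K]
    (htriv : ∀ g ∈ inG p, g ∈ K.fixingSubgroup → c g = 1) :
    ∃ u : QBar, u ≠ 0 ∧ ∀ g ∈ inG p, g u = c g * u := by
  classical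
  haveI : NeZero m := ⟨hm.ne'⟩
  haveI : NeZero (m : QBar) := ⟨Nat.cast_ne_zero.mpr hm.ne'⟩
  obtain ⟨w, hw⟩ := HasEnoughRootsOfUnity.exists_primitiveRoot QBar m
  obtain ⟨L, hLf, hLn, hwL, hle⟩ :=
    (IsLevel.exists_field (p := p) (H := inG p ⊓ K.fixingSubgroup)
      ⟨inf_le_left, K, inferInstance, le_rfl⟩ w)
  haveI := hLf
  haveI := hLn
  have hcw : ∀ g ∈ inG p, ∃ i : ℕ, w ^ i = c g := fun g hg =>
    (hw.eq_pow_of_pow_eq_one (hc1 g hg)).imp fun i hi => hi.2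
  set G := (inG p).map (AlgEquiv.restrictNormalHom L)
  choose pre hpre hpre' using fun x : G => Subgroup.mem_map.mp x.2
  have hker : ∀ g ∈ inG p, AlgEquiv.restrictNormalHom L g = 1 → c g = 1 := by
    intro g hg h1
    refine htriv g hg (hle ⟨hg, (IntermediateField.mem_fixingSubgroup_iff _ _).mpr fun x hx => ?_⟩).2
    have := AlgEquiv.restrictNormal_commutes g L ⟨x, hx⟩
    rw [show g.restrictNormal L = AlgEquiv.restrictNormalHom L g from rfl, h1] at this
    exact this.symm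
  have hwell : ∀ (x : G) (g : GQ), g ∈ inG p → AlgEquiv.restrictNormalHom L g = x →
      c g = c (pre x) := by
    intro x g hg hgx
    have h1 : (pre x)⁻¹ * g ∈ inG p := (inG p).mul_mem ((inG p).inv_mem (hpre x)) hg
    have h2 := hmul _ (hpre x) _ h1
    rw [mul_inv_cancel_left] at h2
    rw [h2, hker _ h1 (by rw [map_mul, map_inv, hpre' x, hgx, inv_mul_cancel]), map_one, mul_one]
  have hcL : ∀ x : G, c (pre x) ∈ L := fun x => by
    obtain ⟨i, hi⟩ := hcw _ (hpre x)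
    exact hi ▸ pow_mem hwL i
  set f : G → L := fun x => ⟨c (pre x), hcL x⟩ with hf
  have hf0 : ∀ x, f x ≠ 0 := fun x h => by
    have := hc1 _ (hpre x)
    rw [show c (pre x) = 0 from congrArg Subtype.val h, zero_pow hm.ne'] at this
    exact zero_ne_one this
  have hfmul : ∀ x y : G, f (x * y) = f x * (x : L ≃ₐ[ℚ] L) (f y) := by
    intro x y
    refine Subtype.ext ?_
    show c (pre (x * y)) = c (pre x) * (((x : L ≃ₐ[ℚ] L) (f y) : L) : QBar)
    rw [← hwell (x * y) (pre x * pre y) ((inG p).mul_mem (hpre x) (hpre y))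
      (by rw [map_mul, hpre', hpre']; rfl), hmul _ (hpre x) _ (hpre y)]
    congr 1
    conv_rhs => rw [← hpre' x]
    exact (AlgEquiv.restrictNormal_commutes (pre x) L (f y)).symm
  haveI : Fintype G := Fintype.ofFinite G
  obtain ⟨z, hz⟩ : ∃ z : L, ∑ x : G, f x * (x : L ≃ₐ[ℚ] L) z ≠ 0 := by
    by_contra hall
    simp only [not_exists, not_not] at hall
    have hli := (linearIndependent_monoidHom L L).comp
      (fun x : G => ((x : L ≃ₐ[ℚ] L).toAlgHom.toRingHom.toMonoidHom))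
      (fun x y e => Subtype.ext (AlgEquiv.ext fun t => DFunLike.congr_fun e t))
    have := Fintype.linearIndependent_iff.mp hli f (by
      funext t
      simpa [Finset.sum_apply] using hall t) 1
    exact hf0 1 this
  set β := ∑ x : G, f x * (x : L ≃ₐ[ℚ] L) z with hβ
  refine ⟨(β : QBar)⁻¹, inv_ne_zero fun h0 => hz (Subtype.ext h0), fun g hg => ?_⟩
  set y : G := ⟨_, Subgroup.mem_map_of_mem _ hg⟩
  have key : f y * (y : L ≃ₐ[ℚ] L) β = β := by
    rw [hβ, map_sum, Finset.mul_sum]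
    refine Fintype.sum_equiv (Equiv.mulLeft y) _ _ fun x => ?_
    rw [map_mul, ← mul_assoc, show Equiv.mulLeft y x = y * x from rfl, hfmul y x]
    rfl
  have key' : c g * g (β : QBar) = β := by
    have := congrArg Subtype.val key
    rw [MulMemClass.coe_mul] at this
    rw [hwell y g hg rfl]
    refine Eq.trans ?_ this
    congr 1
    exact (AlgEquiv.restrictNormal_commutes g L β).symm
  rw [map_inv₀]
  have hg0 : g (β : QBar) ≠ 0 := (_root_.map_ne_zero g).mpr fun h0 => hz (Subtype.ext h0)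
  have hβ0 : (β : QBar) ≠ 0 := fun h0 => hz (Subtype.ext h0)
  field_simp
  linear_combination -key'

theorem nrm_eq_one_of_pow {x : QBar} {k : ℕ} (hk : k ≠ 0) (h : nrm p (x ^ k) = 1) : nrm p x = 1 := by
  rw [nrm_pow] at h
  exact (pow_eq_one_iff_of_nonneg (nrm_nonneg p x) hk).mp h

theorem nrm_zpow' (x : QBar) (k : ℤ) : nrm p (x ^ k) = nrm p x ^ k := by
  simp [nrm, map_zpow₀]

theorem natCast_p_ne_zero : (p : QBar) ≠ 0 := Nat.cast_ne_zero.mpr hp.out.ne_zero

theorem inG_map_pow_eq {u : QBar} {m : ℕ} {c : GQ → QBar} (hc1 : ∀ g ∈ inG p, c g ^ m = 1)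
    (hu : ∀ g ∈ inG p, g u = c g * u) : ∀ g ∈ inG p, g (u ^ m) = u ^ m := fun g hg => by
  rw [map_pow, hu g hg, mul_pow, hc1 g hg, one_mul]

/-- A radical over inertia is a unit times a power of a root of `p`, seen by elements fixing the
roots of units. -/
theorem exists_exponent {n : ℕ} {u : QBar} (hu0 : u ≠ 0)
    (hfix : ∀ g ∈ inG p, g (u ^ p ^ n) = u ^ p ^ n) {r : QBar} (hr : r ^ p ^ n = (p : QBar)) :
    ∃ k : ℤ, nrm p (u ^ p ^ n) = nrm p (p : QBar) ^ k ∧
      ∀ τ : GQ, FixesUnitRoots p τ → τ u * r ^ k = τ r ^ k * u := by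
  obtain ⟨k, hk⟩ := exists_nrm_eq_zpow (pow_ne_zero _ hu0) hfix
  refine ⟨k, hk, fun τ hτ => ?_⟩
  have hr0 : r ≠ 0 := fun h => natCast_p_ne_zero (p := p)
    (by rw [← hr, h, zero_pow (pow_ne_zero _ hp.out.ne_zero)])
  have hrk : r ^ k ≠ 0 := zpow_ne_zero k hr0
  have hpw : (u / r ^ k) ^ p ^ n = u ^ p ^ n / (p : QBar) ^ k := by
    rw [div_pow, ← hr, ← zpow_natCast (r ^ k), ← zpow_mul, ← zpow_natCast r, ← zpow_mul, mul_comm]
  have h1 := hτ n (u / r ^ k) (fun g hg => by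
    rw [hpw, map_div₀, hfix g hg, map_zpow₀, map_natCast]) (nrm_eq_one_of_pow
      (pow_ne_zero n hp.out.ne_zero) (by
        rw [hpw, nrm_div, hk, nrm_zpow',
          div_self (zpow_ne_zero _ (nrm_pos p natCast_p_ne_zero).ne')]))
  rw [map_div₀, map_zpow₀, div_eq_div_iff (zpow_ne_zero k ((_root_.map_ne_zero τ).mpr hr0)) hrk]
    at h1
  rw [h1, mul_comm]

theorem isPrimitiveRoot_moves {σ : GQ} (hσ : IsKummerElt p σ) {n : ℕ} {r : QBar}
    (hr : r ^ p ^ (n + 1) = (p : QBar)) : IsPrimitiveRoot (σ r / r) (p ^ (n + 1)) := by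
  have hr0 : r ≠ 0 := fun h => natCast_p_ne_zero (p := p)
    (by rw [← hr, h, zero_pow (pow_ne_zero _ hp.out.ne_zero)])
  have h1 : (σ r / r) ^ p ^ (n + 1) = 1 := by
    rw [div_pow, ← map_pow, hr, map_natCast, div_self natCast_p_ne_zero]
  have h2 : (σ r / r) ^ p ^ n ≠ 1 := by
    rw [div_pow, ← map_pow, Ne, div_eq_one_iff_eq (pow_ne_zero _ hr0)]
    exact hσ.moves _ (by rw [← pow_mul, ← pow_succ, hr])
  rw [← orderOf_eq_prime_pow h2 h1]
  exact IsPrimitiveRoot.orderOf _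

/-- A radical cocycle trivial at a Kummer element is the coboundary of a unit. -/
theorem exists_unit_radical {σ : GQ} (hσ : IsKummerElt p σ) {n : ℕ} {c : GQ → QBar}
    (hc1 : ∀ g ∈ inG p, c g ^ p ^ n = 1) {u : QBar} (hu0 : u ≠ 0)
    (hu : ∀ g ∈ inG p, g u = c g * u) (hσ1 : c σ = 1) :
    ∃ v : QBar, nrm p v = 1 ∧ ∀ g ∈ inG p, g v = c g * v := by
  have hfix := inG_map_pow_eq hc1 hu
  obtain ⟨r, hr⟩ := IsAlgClosed.exists_pow_nat_eq (p : QBar) (pow_pos hp.out.pos n)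
  obtain ⟨k, hk, hτ⟩ := exists_exponent hu0 hfix hr
  obtain ⟨j, hj⟩ : ((p ^ n : ℕ) : ℤ) ∣ k := by
    rcases n with _ | n
    · simp
    have h1 := hτ σ hσ.fixes
    rw [hu σ hσ.mem, hσ1, one_mul, mul_comm] at h1
    have hr0 : r ≠ 0 := fun h => natCast_p_ne_zero (p := p)
      (by rw [← hr, h, zero_pow (pow_ne_zero _ hp.out.ne_zero)])
    have h2 : (σ r / r) ^ k = 1 := by
      rw [div_zpow, ← mul_right_cancel₀ hu0 h1, div_self (zpow_ne_zero k hr0)]
    exact ((isPrimitiveRoot_moves hσ hr).zpow_eq_one_iff_dvd k).mp h2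
  refine ⟨u / (p : QBar) ^ j, nrm_eq_one_of_pow (pow_ne_zero n hp.out.ne_zero) ?_, fun g hg => ?_⟩
  · rw [div_pow, nrm_div, hk, hj, ← zpow_natCast ((p : QBar) ^ j), ← zpow_mul, mul_comm j,
      nrm_zpow', div_self (zpow_ne_zero _ (nrm_pos p natCast_p_ne_zero).ne')]
  · rw [map_div₀, map_zpow₀, map_natCast, hu g hg, mul_div_assoc]

/-- Elements fixing the roots of units take values on a cocycle as on the roots of `p`. -/
theorem cocycle_eq_pow {σ τ : GQ} (hσ : σ ∈ inG p) (hσf : FixesUnitRoots p σ) (hτ : τ ∈ inG p)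
    (hτf : FixesUnitRoots p τ) {n a : ℕ} {c : GQ → QBar} (hc1 : ∀ g ∈ inG p, c g ^ p ^ n = 1)
    {u : QBar} (hu0 : u ≠ 0) (hu : ∀ g ∈ inG p, g u = c g * u)
    {r : QBar} (hr : r ^ p ^ n = (p : QBar)) (ha : τ r = (σ r / r) ^ a * r) :
    c τ = c σ ^ a := by
  obtain ⟨k, -, h⟩ := exists_exponent hu0 (inG_map_pow_eq hc1 hu) hr
  have hr0 : r ≠ 0 := fun h => natCast_p_ne_zero (p := p)
    (by rw [← hr, h, zero_pow (pow_ne_zero _ hp.out.ne_zero)])
  have hval : ∀ g, g ∈ inG p → FixesUnitRoots p g → c g = (g r / r) ^ k := fun g hg hgf => by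
    have h1 := h g hgf
    rw [hu g hg, mul_right_comm] at h1
    rw [div_zpow, ← mul_right_cancel₀ hu0 h1, mul_div_assoc, div_self (zpow_ne_zero k hr0), mul_one]
  rw [hval τ hτ hτf, hval σ hσ hσf, ha, mul_div_assoc, div_self hr0, mul_one,
    ← zpow_natCast, ← zpow_natCast, ← zpow_mul, ← zpow_mul, mul_comm]

/-- A radical whose stabiliser contains that of finitely many radicals differs from a monomial in
them by an element fixed by the elements fixing the roots of unity. -/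
theorem exists_monomial {N : ℕ} {ζ : QBar} (hζ : IsPrimitiveRoot ζ (p ^ N)) (S : Finset QBar)
    (hS : ∀ α ∈ S, α ≠ 0 ∧ nrm p α = 1 ∧ ∀ g ∈ inG p, g (α ^ p ^ N) = α ^ p ^ N) :
    ∀ y : QBar, y ≠ 0 → (∀ g ∈ inG p, g (y ^ p ^ N) = y ^ p ^ N) →
      (∀ g ∈ inG p, g ζ = ζ → (∀ α ∈ S, g α = α) → g y = y) →
      ∃ b : QBar, b ≠ 0 ∧ nrm p b = 1 ∧ (∀ g ∈ inG p, g (b ^ p ^ N) = b ^ p ^ N) ∧
        ∀ g ∈ inG p, g ζ = ζ → g (y / b) = y / b := by
  classical
  induction S using Finset.induction_on with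
  | empty =>
    exact fun y _ _ h => ⟨1, one_ne_zero, nrm_root p one_pos (pow_one 1), fun g _ => by simp,
      fun g hg hgζ => by rw [div_one]; exact h g hg hgζ (by simp)⟩
  | insert α S hα ih =>
    intro y hy0 hyN hy
    obtain ⟨hα0, hα1, hαN⟩ := hS α (Finset.mem_insert_self α S)
    let T : Subgroup GQ := inG p ⊓ (MulAction.stabilizer GQ ζ ⊓
      ⨅ β ∈ S, MulAction.stabilizer GQ β)
    have hTmem : ∀ {g : GQ}, g ∈ T ↔ g ∈ inG p ∧ g ζ = ζ ∧ ∀ β ∈ S, g β = β := by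
      intro g
      simp only [T, Subgroup.mem_inf, Subgroup.mem_iInf, MulAction.mem_stabilizer_iff]
      rfl
    have hpN : 0 < p ^ N := pow_pos hp.out.pos N
    have hroot : ∀ (x : QBar), x ≠ 0 → (∀ g ∈ inG p, g (x ^ p ^ N) = x ^ p ^ N) →
        ∀ g ∈ T, ∃ i : ℕ, g x / x = ζ ^ i := fun x hx hxN g hg => by
      obtain ⟨i, -, hi⟩ := hζ.eq_pow_of_pow_eq_one (ξ := g x / x) (by
        rw [div_pow, ← map_pow, hxN g (hTmem.mp hg).1, div_self (pow_ne_zero _ hx)])
      exact ⟨i, hi.symm⟩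
    -- the two characters of `T`
    have hchar : ∀ (x : QBar), x ≠ 0 → (∀ g ∈ inG p, g (x ^ p ^ N) = x ^ p ^ N) →
        ∀ g ∈ T, ∀ h ∈ T, (g * h) x / x = g x / x * (h x / x) := fun x hx hxN g hg h hh => by
      obtain ⟨i, hi⟩ := hroot x hx hxN h hh
      rw [div_eq_iff hx] at hi
      rw [AlgEquiv.mul_apply, hi, map_mul, map_pow, (hTmem.mp hg).2.1]
      field_simp
    have hpow : ∀ (x : QBar), x ≠ 0 → (∀ g ∈ inG p, g (x ^ p ^ N) = x ^ p ^ N) →
        ∀ g ∈ T, ∀ i : ℕ, (g ^ i) x / x = (g x / x) ^ i := fun x hx hxN g hg i => by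
      induction i with
      | zero => simp [hx]
      | succ i ih =>
        rw [pow_succ, hchar x hx hxN _ (T.pow_mem hg i) g hg, ih, pow_succ]
    let R : Finset QBar := (Finset.range (p ^ N)).image fun i => ζ ^ i
    have hval : ∀ g ∈ T, g α / α ∈ R := fun g hg => by
      obtain ⟨i, hi⟩ := hroot α hα0 hαN g hg
      refine Finset.mem_image.mpr ⟨i % p ^ N, Finset.mem_range.mpr (Nat.mod_lt _ hpN), ?_⟩
      rw [hi, hζ.eq_orderOf, pow_mod_orderOf]
    obtain ⟨v, hv, hmax⟩ := (R.filter fun v => ∃ g ∈ T, g α / α = v).exists_max_image orderOf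
      ⟨1, Finset.mem_filter.mpr ⟨by simpa [hα0] using hval 1 T.one_mem, 1, T.one_mem,
        by simp [hα0]⟩⟩
    obtain ⟨g₀, hg₀, rfl⟩ := (Finset.mem_filter.mp hv).2
    set v := g₀ α / α
    set d := orderOf v
    have hv1 : v ^ p ^ N = 1 := by
      rw [div_pow, ← map_pow, hαN g₀ (hTmem.mp hg₀).1, div_self (pow_ne_zero _ hα0)]
    have hd0 : d ≠ 0 := fun h => by
      rw [show d = orderOf v from rfl, orderOf_eq_zero_iff'] at h
      exact h _ hpN hv1
    have hprim : IsPrimitiveRoot v d := IsPrimitiveRoot.orderOf v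
    haveI : NeZero d := ⟨hd0⟩
    have hgen : ∀ g ∈ T, ∃ i : ℕ, g α / α = v ^ i := fun g hg => by
      have hg1 : (g α / α) ^ p ^ N = 1 := by
        rw [div_pow, ← map_pow, hαN g (hTmem.mp hg).1, div_self (pow_ne_zero _ hα0)]
      have hdvd : orderOf (g α / α) ∣ d := by
        obtain ⟨a, -, ha⟩ := (Nat.dvd_prime_pow hp.out).mp (orderOf_dvd_of_pow_eq_one hg1)
        obtain ⟨b, -, hb⟩ := (Nat.dvd_prime_pow hp.out).mp (orderOf_dvd_of_pow_eq_one hv1)
        have h := hmax _ (Finset.mem_filter.mpr ⟨hval g hg, g, hg, rfl⟩)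
        rw [ha, show d = p ^ b from hb] at h ⊢
        exact pow_dvd_pow p ((Nat.pow_le_pow_iff_right hp.out.one_lt).mp h)
      obtain ⟨i, -, hi⟩ := hprim.eq_pow_of_pow_eq_one (orderOf_dvd_iff_pow_eq_one.mp hdvd)
      exact ⟨i, hi.symm⟩
    have hkill : ∀ g ∈ T, g α = α → g y = y := fun g hg hgα => by
      obtain ⟨hI, hgζ, hgS⟩ := hTmem.mp hg
      exact hy g hI hgζ fun β hβ => by
        rcases Finset.mem_insert.mp hβ with rfl | hβ
        exacts [hgα, hgS β hβ]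
    obtain ⟨e, -, he⟩ := hprim.eq_pow_of_pow_eq_one (ξ := g₀ y / y) (by
      rw [← hpow y hy0 hyN g₀ hg₀ d, hkill _ (T.pow_mem hg₀ d), div_self hy0]
      rw [← div_eq_one_iff_eq hα0, hpow α hα0 hαN g₀ hg₀ d]
      exact pow_orderOf_eq_one v)
    have hαe : α ^ e ≠ 0 := pow_ne_zero _ hα0
    obtain ⟨b, hb0, hb1, hbN, hb⟩ := ih (fun β hβ => hS β (Finset.mem_insert_of_mem hβ))
      (y / α ^ e) (div_ne_zero hy0 hαe) (fun g hg => by
        rw [div_pow, map_div₀, hyN g hg, ← pow_mul, mul_comm e, pow_mul, map_pow, hαN g hg])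
      (fun g hg hgζ hgS => by
        have hgT : g ∈ T := hTmem.mpr ⟨hg, hgζ, hgS⟩
        obtain ⟨i, hi⟩ := hgen g hgT
        have h1 : g₀ ^ i ∈ T := T.pow_mem hg₀ i
        have h2 : ((g₀ ^ i)⁻¹ * g) α = α := by
          have h3 : g α = (g₀ ^ i) α := by
            rw [← div_left_inj' hα0, hi, hpow α hα0 hαN g₀ hg₀ i]
          rw [AlgEquiv.mul_apply, h3, ← AlgEquiv.mul_apply, inv_mul_cancel, AlgEquiv.one_apply]
        have h4 := hkill _ (T.mul_mem (T.inv_mem h1) hgT) h2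
        rw [AlgEquiv.mul_apply] at h4
        have h5 : g y = (g₀ ^ i) y := by
          have := congrArg (g₀ ^ i) h4
          rwa [← AlgEquiv.mul_apply, mul_inv_cancel, AlgEquiv.one_apply] at this
        have h6 : g y / y = (g α / α) ^ e := by
          rw [h5, hpow y hy0 hyN g₀ hg₀ i, ← he, hi, ← pow_mul, ← pow_mul, mul_comm]
        rw [div_pow, div_eq_div_iff hy0 hαe] at h6
        rw [map_div₀, map_pow,
          div_eq_div_iff (pow_ne_zero _ ((_root_.map_ne_zero g).mpr hα0)) hαe, h6, mul_comm])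
    refine ⟨b * α ^ e, mul_ne_zero hb0 hαe, by rw [nrm_mul, hb1, nrm_pow, hα1, one_pow, one_mul],
      fun g hg => ?_, fun g hg hgζ => ?_⟩
    · rw [mul_pow, map_mul, hbN g hg, ← pow_mul, mul_comm e, pow_mul, map_pow, hαN g hg]
    · rw [show y / (b * α ^ e) = y / α ^ e / b by rw [div_div, mul_comm]]
      exact hb g hg hgζ

/-- An inertia element moving the `p`-th roots of unity. -/
theorem exists_moves_zeta (hp2 : p ≠ 2) {ε : QBar} (hε : IsPrimitiveRoot ε p) :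
    ∃ g ∈ inG p, g ε ≠ ε := by
  by_contra! hfix
  have hlam : nrm p (ε - 1) < 1 := by
    rw [nrm_root_sub_one p hε]
    exact pow_lt_one₀ (nrm_nonneg p _) (isUnif_rad p).lt_one (by omega)
  have h1 := nrm_le_inv_of_fixed (x := ε - 1)
    (fun g hg => by rw [map_sub, map_one, hfix g hg]) hlam
  rw [nrm_root_sub_one p hε, ← nrm_rad_pow p] at h1
  have h2 := (pow_le_pow_iff_right_of_lt_one₀ (nrm_pos p (rad_ne_zero p)) (isUnif_rad p).lt_one).mp h1
  have h3 : 3 ≤ p := by have := hp.out.two_le; omega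
  have h4 : (p + 1) * 2 ≤ (p + 1) * (p - 1) := Nat.mul_le_mul_left _ (by omega)
  rw [← e₀_eq] at h4
  omega

/-- No radical of a unit accounts for a `p`-th root of `p`. -/
theorem exists_moves_root (hp2 : p ≠ 2) {N : ℕ} (hN : 1 ≤ N) {ζ : QBar}
    (hζ : IsPrimitiveRoot ζ (p ^ N)) (S : Finset QBar)
    (hS : ∀ α ∈ S, α ≠ 0 ∧ nrm p α = 1 ∧ ∀ g ∈ inG p, g (α ^ p ^ N) = α ^ p ^ N) {π : QBar}
    (hπ : π ^ p = (p : QBar)) :
    ∃ g ∈ inG p, g ζ = ζ ∧ (∀ α ∈ S, g α = α) ∧ g π ≠ π := by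
  by_contra! hcon
  obtain ⟨M, rfl⟩ : ∃ M, N = M + 1 := ⟨N - 1, by omega⟩
  have hπ0 : π ≠ 0 := fun h => natCast_p_ne_zero (p := p)
    (by rw [← hπ, h, zero_pow hp.out.ne_zero])
  have hπN : ∀ g ∈ inG p, g (π ^ p ^ (M + 1)) = π ^ p ^ (M + 1) := fun g _ => by
    rw [pow_succ', pow_mul, hπ, map_pow, map_natCast]
  obtain ⟨b, hb0, hb1, hbN, hb⟩ := exists_monomial hζ S hS π hπ0 hπN hcon
  set y := π / b
  have hy0 : y ≠ 0 := div_ne_zero hπ0 hb0
  haveI : NeZero (p ^ (M + 1)) := ⟨pow_ne_zero _ hp.out.ne_zero⟩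
  have hε : IsPrimitiveRoot (ζ ^ p ^ M) p := hζ.pow (pow_pos hp.out.pos _) (pow_succ p M)
  obtain ⟨g₀, hg₀, hg₀ε⟩ := exists_moves_zeta hp2 hε
  have hzpow : ∀ g ∈ inG p, ∃ a : ℕ, g ζ = ζ ^ a := fun g _ => by
    obtain ⟨a, -, ha⟩ := hζ.eq_pow_of_pow_eq_one (ξ := g ζ)
      (by rw [← map_pow, hζ.pow_eq_one, map_one])
    exact ⟨a, ha.symm⟩
  obtain ⟨a, ha⟩ := hzpow g₀ hg₀
  have hy : ∀ g ∈ inG p, ∃ i : ℕ, g y = ζ ^ i * y := fun g hg => by
    obtain ⟨i, -, hi⟩ := hζ.eq_pow_of_pow_eq_one (ξ := g y / y) (by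
      rw [div_pow, ← map_pow, div_pow π b, map_div₀, hπN g hg, hbN g hg,
        div_self (div_ne_zero (pow_ne_zero _ hπ0) (pow_ne_zero _ hb0))])
    exact ⟨i, by rw [hi, div_mul_cancel₀ _ hy0]⟩
  have hu : IsUnit ((a : ZMod (p ^ (M + 1))) - 1) := by
    have hne : ¬ p ∣ ((a : ℤ) - 1).natAbs := by
      intro hd
      have hd' : (p : ℤ) ∣ (a : ℤ) - 1 := Int.natCast_dvd.mpr hd
      refine hg₀ε ?_
      rw [map_pow, ha, pow_right_comm]
      have := (hε.zpow_eq_one_iff_dvd ((a : ℤ) - 1)).mpr hd'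
      rw [zpow_sub_one₀ (hε.ne_zero hp.out.ne_zero), zpow_natCast] at this
      exact (mul_inv_eq_one₀ (hε.ne_zero hp.out.ne_zero)).mp this
    rw [← Int.cast_natCast a, ← Int.cast_one, ← Int.cast_sub, ZMod.coe_int_isUnit_iff_isCoprime,
      Int.isCoprime_iff_gcd_eq_one, Int.gcd_comm, Int.gcd_def, Int.natAbs_natCast]
    exact ((Nat.Prime.coprime_iff_not_dvd hp.out).mpr hne).symm.pow_right _
  have hcast : ∀ i j : ℕ, (i : ZMod (p ^ (M + 1))) = j → ζ ^ i = ζ ^ j := fun i j h => by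
    rw [ZMod.natCast_eq_natCast_iff] at h
    rw [← pow_mod_orderOf ζ i, ← pow_mod_orderOf ζ j, ← hζ.eq_orderOf, h]
  obtain ⟨i₀, hi₀⟩ := hy g₀ hg₀
  -- a multiple fixed by `g₀`
  set e : ℕ := (-(i₀ : ZMod (p ^ (M + 1))) * ↑(hu.unit⁻¹)).val with hedef
  set y' := ζ ^ e * y
  have hg₀y : g₀ y' = y' := by
    show g₀ (ζ ^ e * y) = ζ ^ e * y
    rw [map_mul, map_pow, ha, hi₀, ← pow_mul, ← mul_assoc, ← pow_add]
    congr 1
    refine hcast _ _ ?_
    have h := hu.mul_val_inv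
    push_cast
    rw [hedef, ZMod.natCast_zmod_val]
    linear_combination (-(i₀ : ZMod (p ^ (M + 1)))) * h
  have hfix : ∀ h ∈ inG p, h y' = y' := by
    intro h hh
    obtain ⟨i, hi⟩ := hy h hh
    obtain ⟨b', hb'⟩ := hzpow h hh
    have hhy : ∃ j : ℕ, h y' = ζ ^ j * y' := by
      refine ⟨(b' * e + i) + (p ^ (M + 1) - 1) * e, ?_⟩
      show h (ζ ^ e * y) = _ * (ζ ^ e * y)
      rw [map_mul, map_pow, hb', hi, ← pow_mul, ← mul_assoc, ← mul_assoc, ← pow_add, ← pow_add]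
      congr 1
      refine hcast _ _ ?_
      have h0 : ((p ^ (M + 1) - 1 : ℕ) : ZMod (p ^ (M + 1))) = -1 := by
        rw [Nat.cast_sub (Nat.one_le_pow _ _ hp.out.pos), ZMod.natCast_self, Nat.cast_one, zero_sub]
      push_cast [h0]
      ring
    obtain ⟨j, hj⟩ := hhy
    -- commutators fix `ζ`, hence `y'`
    have hcomm : (g₀ * h) y' = (h * g₀) y' := by
      have ht : (g₀ * h)⁻¹ * (h * g₀) ∈ inG p :=
        (inG p).mul_mem ((inG p).inv_mem ((inG p).mul_mem hg₀ hh)) ((inG p).mul_mem hh hg₀)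
      have htζ : ((g₀ * h)⁻¹ * (h * g₀)) ζ = ζ := by
        have e1 : (g₀ * h) ζ = (h * g₀) ζ := by
          rw [AlgEquiv.mul_apply, AlgEquiv.mul_apply, hb', ha, map_pow, map_pow, ha, hb', ← pow_mul,
            ← pow_mul, mul_comm]
        rw [AlgEquiv.mul_apply, ← e1, ← AlgEquiv.mul_apply, inv_mul_cancel, AlgEquiv.one_apply]
      have h1 : ((g₀ * h)⁻¹ * (h * g₀)) y' = y' := by
        show ((g₀ * h)⁻¹ * (h * g₀)) (ζ ^ e * y) = _
        rw [map_mul, map_pow, htζ, hb _ ht htζ]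
      have := congrArg (g₀ * h) h1
      rw [← AlgEquiv.mul_apply, mul_inv_cancel_left] at this
      exact this.symm
    rw [AlgEquiv.mul_apply, AlgEquiv.mul_apply, hg₀y, hj, map_mul, map_pow, ha, hg₀y, ← pow_mul]
      at hcomm
    have hy'0 : y' ≠ 0 := mul_ne_zero (pow_ne_zero _ (hζ.ne_zero (pow_ne_zero _ hp.out.ne_zero))) hy0
    have h2 := mul_right_cancel₀ hy'0 hcomm
    rw [← pow_mod_orderOf ζ (_ * _), ← pow_mod_orderOf ζ j, ← hζ.eq_orderOf] at h2
    have h2' := hζ.pow_inj (Nat.mod_lt _ (pow_pos hp.out.pos _)) (Nat.mod_lt _ (pow_pos hp.out.pos _)) h2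
    replace h2 := congrArg (fun t : ℕ => (t : ZMod (p ^ (M + 1)))) h2'
    simp only [ZMod.natCast_mod, Nat.cast_mul] at h2
    have hj0 : (j : ZMod (p ^ (M + 1))) = ((0 : ℕ) : ZMod (p ^ (M + 1))) := by
      rw [Nat.cast_zero]
      exact hu.mul_right_eq_zero.mp (by linear_combination h2)
    rw [hj, hcast j 0 hj0, pow_zero, one_mul]
  have hy'0 : y' ≠ 0 := mul_ne_zero (pow_ne_zero _ (hζ.ne_zero (pow_ne_zero _ hp.out.ne_zero))) hy0
  obtain ⟨k, hk⟩ := exists_nrm_eq_zpow hy'0 hfix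
  have hny : nrm p y' = nrm p π := by
    show nrm p (ζ ^ e * (π / b)) = _
    rw [nrm_mul, nrm_pow, nrm_root p (pow_pos hp.out.pos _) hζ.pow_eq_one, one_pow, one_mul,
      nrm_div, hb1, div_one]
  have h3 : (nrm p (p : QBar) ^ k) ^ p = nrm p (p : QBar) := by
    rw [← hk, hny, ← nrm_pow, hπ]
  have hpos := nrm_pos p (natCast_p_ne_zero (p := p))
  have hlt : nrm p (p : QBar) < 1 := by rw [nrm_natCast_self]; exact inv_cast_lt_one p
  rw [← zpow_natCast, ← zpow_mul] at h3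
  nth_rewrite 2 [← zpow_one (nrm p (p : QBar))] at h3
  have h4 : k * (p : ℤ) = 1 := zpow_right_injective₀ hpos hlt.ne h3
  have h5 : (p : ℤ) = 1 := Int.eq_one_of_mul_eq_one_left (Int.natCast_nonneg p) h4
  exact hp.out.ne_one (by exact_mod_cast h5)

theorem isClopen_setOf_apply (x : QBar) (P : QBar → Prop) :
    IsClopen {σ : GQ | P (σ x)} := by
  have hstab : IsOpen ((IntermediateField.adjoin ℚ {x}).fixingSubgroup : Set GQ) := by
    haveI := IntermediateField.adjoin.finiteDimensional (K := ℚ)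
      (Algebra.IsIntegral.isIntegral (R := ℚ) x)
    exact IntermediateField.fixingSubgroup_isOpen _
  have hopen : ∀ Q : QBar → Prop, IsOpen {σ : GQ | Q (σ x)} := fun Q => by
    refine isOpen_iff_forall_mem_open.mpr fun σ hσ => ⟨(σ * ·) '' ((IntermediateField.adjoin ℚ
      {x}).fixingSubgroup : Set GQ), ?_, (Homeomorph.mulLeft σ).isOpenMap _ hstab, 1, one_mem _,
      mul_one σ⟩
    rintro _ ⟨g, hg, rfl⟩
    show Q ((σ * g) x)
    rw [AlgEquiv.mul_apply, (IntermediateField.mem_fixingSubgroup_iff _ _).mp hg x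
      (IntermediateField.mem_adjoin_simple_self ℚ x)]
    exact hσ
  exact ⟨⟨hopen fun y => ¬ P y⟩, hopen P⟩

theorem isClosed_inG : IsClosed (inG p : Set GQ) := by
  have h : (inG p : Set GQ) = ⋂ x : QBar, ({σ : GQ | x ∈ padicPlace p ↔ σ x ∈ padicPlace p} ∩
      {σ : GQ | x ∈ padicPlace p → σ x - x ∈ (padicPlace p).nonunits}) := by
    ext σ
    simp only [Set.mem_iInter, Set.mem_inter_iff, Set.mem_setOf_eq, SetLike.mem_coe]
    constructor
    · intro hσ x
      refine ⟨?_, fun hx => (mem_inertia_iff_forall_mem.mp hσ).2 x hx⟩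
      rw [mem_place_iff, mem_place_iff, nrm_map_of_mem_inG p hσ]
    · intro h
      refine mem_inertia_iff_forall_mem.mpr ⟨?_, fun x hx => (h x).2 hx⟩
      ext y
      rw [ValuationSubring.mem_pointwise_smul_iff_inv_smul_mem]
      have h1 := (h (σ⁻¹ • y)).1
      rwa [AlgEquiv.smul_def, ← AlgEquiv.mul_apply, mul_inv_cancel, AlgEquiv.one_apply] at h1
  rw [h]
  exact isClosed_iInter fun x => (isClopen_setOf_apply x (fun y => x ∈ padicPlace p ↔ y ∈ padicPlace p)).1.inter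
    (isClopen_setOf_apply x (fun y => x ∈ padicPlace p → y - x ∈ (padicPlace p).nonunits)).1

/-- Kummer elements exist. -/
theorem exists_isKummerElt (hp2 : p ≠ 2) : ∃ σ : GQ, IsKummerElt p σ := by
  classical
  obtain ⟨π, hπ⟩ := IsAlgClosed.exists_pow_nat_eq (p : QBar) hp.out.pos
  let I := {i : ℕ × QBar // nrm p i.2 = 1 ∧ ∀ g ∈ inG p, g (i.2 ^ p ^ i.1) = i.2 ^ p ^ i.1}
  have hne : ((inG p : Set GQ) ∩ {σ : GQ | σ π ≠ π} ∩ ⋂ i : I, {σ : GQ | σ i.1.2 = i.1.2}).Nonempty := by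
    refine ((isClosed_inG.inter (isClopen_setOf_apply π (fun y => y ≠ π)).1).isCompact
      ).inter_iInter_nonempty _ (fun i => (isClopen_setOf_apply i.1.2 (fun y => y = i.1.2)).1)
      fun u => ?_
    let N := (u.sup fun i => i.1.1) + 1
    obtain ⟨ζ, hζ⟩ : ∃ ζ : QBar, IsPrimitiveRoot ζ (p ^ N) := by
      haveI : NeZero (p ^ N) := ⟨pow_ne_zero _ hp.out.ne_zero⟩
      haveI : NeZero ((p ^ N : ℕ) : QBar) := ⟨Nat.cast_ne_zero.mpr (pow_ne_zero _ hp.out.ne_zero)⟩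
      exact HasEnoughRootsOfUnity.exists_primitiveRoot QBar (p ^ N)
    obtain ⟨g, hg, -, hgS, hgπ⟩ := exists_moves_root hp2 (show 1 ≤ N by omega) hζ
      (u.image fun i => i.1.2) (fun α hα => by
        obtain ⟨i, hi, rfl⟩ := Finset.mem_image.mp hα
        obtain ⟨d, hd⟩ : ∃ d, N = i.1.1 + d :=
          ⟨N - i.1.1, by have := Finset.le_sup (f := fun i : I => i.1.1) hi; omega⟩
        exact ⟨fun h => by simpa [h] using i.2.1, i.2.1, fun g hg => by
          rw [hd, pow_add, pow_mul, map_pow, i.2.2 g hg]⟩) hπ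
    exact ⟨g, ⟨hg, hgπ⟩, Set.mem_iInter₂.mpr fun i hi => hgS _ (Finset.mem_image_of_mem _ hi)⟩
  obtain ⟨σ, ⟨hσI, hσπ⟩, hσfix⟩ := hne
  have hfixes : FixesUnitRoots p σ := fun n α h h1 => Set.mem_iInter.mp hσfix ⟨(n, α), h1, h⟩
  refine ⟨σ, hσI, hfixes, fun α hα hσα => hσπ ?_⟩
  have hα0 : α ≠ 0 := fun h => natCast_p_ne_zero (p := p)
    (by rw [← hα, h, zero_pow hp.out.ne_zero])
  have hq : (π / α) ^ p ^ 1 = 1 := by
    rw [pow_one, div_pow, hπ, hα, div_self natCast_p_ne_zero]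
  have h2 := hfixes 1 (π / α) (fun g _ => by rw [hq, map_one])
    (nrm_eq_one_of_pow (pow_ne_zero 1 hp.out.ne_zero)
      (by rw [hq]; exact nrm_root p one_pos (pow_one 1)))
  rw [map_div₀, hσα, div_left_inj' hα0] at h2
  exact h2

end Fermat.Agent.Lifting.Deform

end
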