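import Fermat.Agent.Lifting.Deform.UnitOrder
import Fermat.Agent.Lifting.Deform.KummerElt
import Fermat.Agent.EC.Rep.Local.Flat
import Fermat.Prelude.Def_GaloisRep_LocalConditions
import Mathlib.RingTheory.LocalRing.Quotient

/-!
# Ordinary representations trivial at a Kummer element are flat

For an ordinary representation with cyclotomic determinant the extension class on each finite level
is a Kummer class over inertia; it is the class of units as soon as a Kummer element acts trivially,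
and then the level carries a Galois order. The value at a conjugate of a Kummer element is the
cyclotomic multiple of the value at the element.
-/

set_option autoImplicit false
set_option linter.style.haveILetI false
set_option linter.unusedSectionVars false

noncomputable section

open scoped Pointwise
open Fermat.Agent.Arith Fermat.Agent.CFT.Flat Fermat.Agent.FiniteFlat

namespace Fermat.Agent.Lifting.Deform

variable {p : ℕ} [hp : Fact p.Prime]

theorem inG_conj_mem {F g : GQ} (hF : F ∈ decG p) (hg : g ∈ inG p) : F * g * F⁻¹ ∈ inG p := by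
  refine mem_inertia_iff_forall_mem.mpr ⟨?_, fun x hx => ?_⟩
  · exact MulAction.mem_stabilizer_iff.mp ((decG p).mul_mem ((decG p).mul_mem hF
      (inG_le_decG p hg)) ((decG p).inv_mem hF))
  · rw [mem_place_iff] at hx
    have hy : nrm p (F⁻¹ x) ≤ 1 := by rwa [nrm_map p ((decG p).inv_mem hF)]
    rw [mem_nonunits_iff, show (F * g * F⁻¹) x - x = F (g (F⁻¹ x) - F⁻¹ x) by
      rw [map_sub, AlgEquiv.mul_apply, AlgEquiv.mul_apply, ← AlgEquiv.mul_apply F F⁻¹ x,
        mul_inv_cancel, AlgEquiv.one_apply], nrm_map p hF]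
    exact nrm_sub_lt_one_of_mem_inG p hg hy

theorem fixesUnitRoots_conj {F σ : GQ} (hF : F ∈ decG p) (hσ : FixesUnitRoots p σ) :
    FixesUnitRoots p (F * σ * F⁻¹) := by
  intro n α h h1
  have h2 := hσ n (F⁻¹ α) (fun g hg => by
    have h3 := congrArg (F⁻¹ : GQ) (h _ (inG_conj_mem hF hg))
    rw [← AlgEquiv.mul_apply, show F⁻¹ * (F * g * F⁻¹) = g * F⁻¹ by group, AlgEquiv.mul_apply]
      at h3
    rwa [← map_pow]) (by rw [nrm_map p ((decG p).inv_mem hF), h1])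
  rw [AlgEquiv.mul_apply, AlgEquiv.mul_apply, h2, ← AlgEquiv.mul_apply, mul_inv_cancel,
    AlgEquiv.one_apply]

theorem conj_apply_root {F σ : GQ} (hσ : FixesUnitRoots p σ) {n a : ℕ}
    (ha : ∀ μ : QBar, μ ^ p ^ n = 1 → F μ = μ ^ a) {r : QBar} (hr : r ^ p ^ n = (p : QBar)) :
    (F * σ * F⁻¹) r = (σ r / r) ^ a * r := by
  have hr0 : r ≠ 0 := fun h => natCast_p_ne_zero (p := p)
    (by rw [← hr, h, zero_pow (pow_ne_zero _ hp.out.ne_zero)])
  have hdiv : ∀ g : GQ, (g r / r) ^ p ^ n = 1 := fun g => by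
    rw [div_pow, ← map_pow, hr, map_natCast, div_self natCast_p_ne_zero]
  set ω := (F⁻¹ : GQ) r / r
  have hω : σ ω = ω := hσ n ω (fun g _ => by rw [hdiv, map_one])
    (nrm_root p (pow_pos hp.out.pos n) (hdiv _))
  have h1 : (F⁻¹ : GQ) r = ω * r := (div_mul_cancel₀ _ hr0).symm
  have h2 : σ ((F⁻¹ : GQ) r) = σ r / r * (F⁻¹ : GQ) r := by
    rw [h1, map_mul, hω]
    field_simp
  rw [AlgEquiv.mul_apply, AlgEquiv.mul_apply, h2, map_mul, ha _ (hdiv σ), ← AlgEquiv.mul_apply,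
    mul_inv_cancel, AlgEquiv.one_apply]

variable {A : Type} [CommRing A] [IsLocalRing A]

theorem natCast_pow_mem_smul (ρ : GaloisRepAdic A) {I : Ideal A} {d : ℕ} (hd : (d : A) ∈ I)
    (v : ρ.V ⧸ (I • (⊤ : Submodule A ρ.V))) : d • v = 0 := by
  obtain ⟨v, rfl⟩ := Submodule.Quotient.mk_surjective _ v
  rw [← Submodule.Quotient.mk_smul, Submodule.Quotient.mk_eq_zero, ← Nat.cast_smul_eq_nsmul A]
  exact Submodule.smul_mem_smul hd Submodule.mem_top

theorem exists_fixing_level (ρ : GaloisRepAdic A) (I : Ideal A) [Finite (A ⧸ I)] :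
    ∃ E : IntermediateField ℚ QBar, FiniteDimensional ℚ E ∧ ∀ σ ∈ E.fixingSubgroup,
      ∀ v : ρ.V ⧸ (I • (⊤ : Submodule A ρ.V)), ρ.levelAction I σ v = v := by
  obtain ⟨N, hN⟩ := IsLocalRing.exists_maximalIdeal_pow_le_of_isArtinianRing_quotient I
  obtain ⟨E, hE, hEfix⟩ := ρ.isAdicContinuous N
  refine ⟨E, hE, fun σ hσ v => ?_⟩
  obtain ⟨v, rfl⟩ := Submodule.Quotient.mk_surjective _ v
  rw [GaloisRepAdic.levelAction, Submodule.mapQ_apply, Submodule.Quotient.eq]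
  exact Submodule.smul_mono hN le_rfl
    (hEfix σ ((IntermediateField.mem_fixingSubgroup_iff _ _).mp hσ) v)

/-- On the line, inertia acts by the cyclotomic character modulo the level. -/
theorem inertia_on_line (ρ : GaloisRepAdic A) (hdet : ρ.DetIsCyclotomic p) {Ln : Submodule A ρ.V}
    (b : Module.Basis (Fin 2) A ρ.V) (hb : Ln = A ∙ b 0) {g : GQ}
    (hg : ∀ v : ρ.V, ρ.ρ g v - v ∈ Ln) {n a : ℕ} (ha : ∀ μ : QBar, μ ^ p ^ n = 1 → g μ = μ ^ a)
    {I : Ideal A} (hn : ((p ^ n : ℕ) : A) ∈ I) {w : ρ.V} (hw : w ∈ Ln) :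
    ρ.ρ g w - a • w ∈ I • (⊤ : Submodule A ρ.V) := by
  subst hb
  obtain ⟨s, hs⟩ := Submodule.mem_span_singleton.mp (hg (b 0))
  obtain ⟨t, ht⟩ := Submodule.mem_span_singleton.mp (hg (b 1))
  have h0 : ρ.ρ g (b 0) = (1 + s) • b 0 := by rw [add_smul, one_smul, hs]; abel
  have h1 : ρ.ρ g (b 1) = t • b 0 + b 1 := by rw [ht]; abel
  have hdet' : LinearMap.det (ρ.ρ g) = 1 + s := by
    rw [← LinearMap.det_toMatrix b, Matrix.det_fin_two]
    simp [LinearMap.toMatrix_apply, h0, h1]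
  have h2 := hdet.2 n g a ha
  rw [hdet'] at h2
  obtain ⟨r, rfl⟩ := Submodule.mem_span_singleton.mp hw
  rw [map_smul, h0, smul_smul, ← Nat.cast_smul_eq_nsmul A, smul_smul, ← sub_smul,
    show r * (1 + s) - (a : A) * r = r * (1 + s - (a : A)) by ring]
  exact Submodule.smul_mem_smul (Ideal.mul_mem_left _ _
    (Ideal.span_le.mpr (Set.singleton_subset_iff.mpr hn) h2)) Submodule.mem_top

/-- The structure of a level of an ordinary representation at `padicPlace p`. -/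
theorem exists_levelData (ρ : GaloisRepAdic A) (hdet : ρ.DetIsCyclotomic p)
    (hord : ρ.IsOrdinaryAt p) (I : Ideal A) [Finite (A ⧸ I)] {n : ℕ}
    (hn : ((p ^ n : ℕ) : A) ∈ I) :
    letI := EC.Rep.levelDistribMulAction ρ I
    ∃ L : AddSubgroup (ρ.V ⧸ (I • (⊤ : Submodule A ρ.V))),
      (∀ d : GQ, d • padicPlace p = padicPlace p → ∀ x ∈ L, d • x ∈ L) ∧
      (∀ g ∈ inG p, ∀ m : ρ.V ⧸ (I • (⊤ : Submodule A ρ.V)), g • m - m ∈ L) ∧
      ∀ g ∈ inG p, ∀ (ψ : AddChar L QBar) (x : L)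
        (hx : g • (x : ρ.V ⧸ (I • (⊤ : Submodule A ρ.V))) ∈ L),
        g (ψ x) = ψ ⟨g • (x : ρ.V ⧸ (I • (⊤ : Submodule A ρ.V))), hx⟩ := by
  letI := EC.Rep.levelDistribMulAction ρ I
  obtain ⟨Ln, ⟨b, hb⟩, hD, hI⟩ := hord (padicPlace p) (CFT.Local.padicPlace_liesOverPrime p)
  refine ⟨(Ln.map (I • (⊤ : Submodule A ρ.V)).mkQ).toAddSubgroup, fun d hd => ?_, fun g hg m => ?_,
    fun g hg ψ x hx => ?_⟩
  · rintro _ ⟨w, hw, rfl⟩
    exact ⟨ρ.ρ d w, hD d (MulAction.mem_stabilizer_iff.mpr hd) w hw, rfl⟩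
  · obtain ⟨v, rfl⟩ := Submodule.Quotient.mk_surjective _ m
    exact ⟨ρ.ρ g v - v, hI g hg v, Submodule.Quotient.mk_sub _⟩
  · obtain ⟨w, hw, hwx⟩ := x.2
    haveI : NeZero (p ^ n) := ⟨pow_ne_zero _ hp.out.ne_zero⟩
    haveI : NeZero ((p ^ n : ℕ) : QBar) := ⟨Nat.cast_ne_zero.mpr (pow_ne_zero _ hp.out.ne_zero)⟩
    obtain ⟨ζ, hζ⟩ := HasEnoughRootsOfUnity.exists_primitiveRoot QBar (p ^ n)
    obtain ⟨a, -, ha⟩ := hζ.eq_pow_of_pow_eq_one (ξ := g ζ)
      (by rw [← map_pow, hζ.pow_eq_one, map_one])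
    have haμ : ∀ μ : QBar, μ ^ p ^ n = 1 → g μ = μ ^ a := fun μ hμ => by
      obtain ⟨i, -, rfl⟩ := hζ.eq_pow_of_pow_eq_one hμ
      rw [map_pow, ← ha, pow_right_comm]
    have hψ1 : ψ x ^ p ^ n = 1 := by
      rw [← AddChar.map_nsmul_eq_pow,
        show p ^ n • x = 0 from Subtype.ext (natCast_pow_mem_smul ρ hn _), AddChar.map_zero_eq_one]
    rw [haμ _ hψ1, ← AddChar.map_nsmul_eq_pow]
    congr 1
    refine Subtype.ext ?_
    show a • (x : ρ.V ⧸ (I • (⊤ : Submodule A ρ.V))) = g • (x : ρ.V ⧸ (I • (⊤ : Submodule A ρ.V)))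
    rw [← hwx, ← map_nsmul]
    exact (((Submodule.Quotient.eq _).mpr (inertia_on_line ρ hdet b hb (hI g hg) haμ hn hw))).symm

theorem exists_kummer_radical {M : Type} [AddCommGroup M] [DistribMulAction GQ M] {n : ℕ}
    (hkill : ∀ m : M, p ^ n • m = 0) {E : IntermediateField ℚ QBar} [FiniteDimensional ℚ E]
    (hE : ∀ σ ∈ E.fixingSubgroup, ∀ m : M, σ • m = m) {L : AddSubgroup M}
    (hL : ∀ g ∈ inG p, ∀ x ∈ L, g • x ∈ L) (hquot : ∀ g ∈ inG p, ∀ m : M, g • m - m ∈ L)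
    (hchar : ∀ g ∈ inG p, ∀ (ψ : AddChar L QBar) (x : L) (hx : g • (x : M) ∈ L),
      g (ψ x) = ψ ⟨g • (x : M), hx⟩) (m : M) (ψ : AddChar L QBar) :
    ∃ (c : GQ → QBar) (u : QBar), u ≠ 0 ∧ (∀ g ∈ inG p, c g ^ p ^ n = 1) ∧
      (∀ g (hg : g ∈ inG p), c g = ψ ⟨g • m - m, hquot g hg m⟩) ∧
      ∀ g ∈ inG p, g u = c g * u := by
  classical
  let c : GQ → QBar := fun g =>
    if hg : g ∈ inG p then ψ ⟨g • m - m, hquot g hg m⟩ else 1
  have hc : ∀ g (hg : g ∈ inG p), c g = ψ ⟨g • m - m, hquot g hg m⟩ := fun g hg => dif_pos hg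
  have hc1 : ∀ g ∈ inG p, c g ^ p ^ n = 1 := fun g hg => by
    rw [hc g hg, ← AddChar.map_nsmul_eq_pow,
      show p ^ n • (⟨g • m - m, hquot g hg m⟩ : L) = 0 from Subtype.ext (hkill _),
      AddChar.map_zero_eq_one]
  obtain ⟨u, hu0, hu⟩ := exists_cocycle_radical (p := p) (pow_pos hp.out.pos n) hc1
    (fun g hg h hh => by
      rw [hc g hg, hc h hh, hc _ ((inG p).mul_mem hg hh), hchar g hg ψ _ (hL g hg _ (hquot h hh m)),
        ← AddChar.map_add_eq_mul]
      congr 1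
      refine Subtype.ext ?_
      show (g * h) • m - m = g • m - m + g • (h • m - m)
      rw [mul_smul, smul_sub]
      abel) (K := E) (fun g hg hgE => by
      rw [hc g hg, show (⟨g • m - m, hquot g hg m⟩ : L) = 0 from
        Subtype.ext (sub_eq_zero.mpr (hE g hgE m)), AddChar.map_zero_eq_one])
  exact ⟨c, u, hu0, hc1, hc, hu⟩

/-- An ordinary representation trivial at a Kummer element is flat. -/
theorem isFlatAt_of_kummerElt (ρ : GaloisRepAdic A) [Finite (IsLocalRing.ResidueField A)]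
    (hdet : ρ.DetIsCyclotomic p) (hord : ρ.IsOrdinaryAt p) {σ : GQ} (hσ : IsKummerElt p σ)
    (h1 : ρ.ρ σ = 1) : ρ.IsFlatAt p := by
  refine EC.Rep.isFlatAt_of_galOrder ρ p inferInstance fun I hI => ?_
  obtain ⟨n, hn⟩ := IsLocalRing.exists_maximalIdeal_pow_le_of_isArtinianRing_quotient I
  have hpn : ((p ^ n : ℕ) : A) ∈ I := hn (by rw [Nat.cast_pow]; exact Ideal.pow_mem_pow hdet.1 n)
  letI := EC.Rep.levelDistribMulAction ρ I
  have : Finite (ρ.V ⧸ (I • (⊤ : Submodule A ρ.V))) := Module.finite_of_finite (A ⧸ I)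
  obtain ⟨L, hL, hquot, hchar⟩ := exists_levelData ρ hdet hord I hpn
  obtain ⟨E, hEf, hE⟩ := exists_fixing_level ρ I
  have hLI : ∀ g ∈ inG p, ∀ x ∈ L, g • x ∈ L := fun g hg =>
    hL g (MulAction.mem_stabilizer_iff.mp (inG_le_decG p hg))
  obtain ⟨O⟩ := exists_galOrder_of_unitCoboundary L (CFT.Local.padicPlace_liesOverPrime p) hp.out
    ⟨E.fixingSubgroup, IntermediateField.fixingSubgroup_isOpen E, hE⟩ hL hquot hchar fun m ψ => by
      obtain ⟨c, u, hu0, hc1, hc, hu⟩ :=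
        exists_kummer_radical (natCast_pow_mem_smul ρ hpn) hE hLI hquot hchar m ψ
      have hσ1 : c σ = 1 := by
        rw [hc σ hσ.mem, show (⟨σ • m - m, hquot σ hσ.mem m⟩ : L) = 0 from Subtype.ext ?_,
          AddChar.map_zero_eq_one]
        obtain ⟨v, rfl⟩ := Submodule.Quotient.mk_surjective _ m
        exact sub_eq_zero.mpr (congrArg Submodule.Quotient.mk (by rw [h1, Module.End.one_apply]))
      obtain ⟨v, hv1, hv⟩ := exists_unit_radical hσ hc1 hu0 hu hσ1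
      refine ⟨v, fun h => ?_, (mem_place_iff p).mpr hv1.le,
        (mem_place_iff p).mpr (by rw [nrm_inv, hv1, inv_one]), fun g hg => ?_⟩
      · rw [h, nrm_zero] at hv1
        exact zero_ne_one hv1
      · rw [hv g hg, hc g hg]
  exact ⟨_, inferInstance, inferInstance, inferInstance, O, AddMonoidHom.id _,
    Function.surjective_id, fun _ _ => rfl⟩

/-- The value at a conjugate of an element fixing the roots of units. -/
theorem rho_conj_kummerElt (ρ : GaloisRepAdic A) (hdet : ρ.DetIsCyclotomic p)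
    (hord : ρ.IsOrdinaryAt p) {σ : GQ} (hσ : σ ∈ inG p) (hσf : FixesUnitRoots p σ) {F : GQ}
    (hF : F ∈ decG p) (I : Ideal A) [Finite (A ⧸ I)] {n : ℕ} (hn : ((p ^ n : ℕ) : A) ∈ I) {a : ℕ}
    (ha : ∀ μ : QBar, μ ^ p ^ n = 1 → F μ = μ ^ a) (v : ρ.V) :
    ρ.ρ (F * σ * F⁻¹) v - v - a • (ρ.ρ σ v - v) ∈ I • (⊤ : Submodule A ρ.V) := by
  letI := EC.Rep.levelDistribMulAction ρ I
  have : Finite (ρ.V ⧸ (I • (⊤ : Submodule A ρ.V))) := Module.finite_of_finite (A ⧸ I)
  obtain ⟨L, hL, hquot, hchar⟩ := exists_levelData ρ hdet hord I hn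
  obtain ⟨E, hEf, hE⟩ := exists_fixing_level ρ I
  have hLI : ∀ g ∈ inG p, ∀ x ∈ L, g • x ∈ L := fun g hg =>
    hL g (MulAction.mem_stabilizer_iff.mp (inG_le_decG p hg))
  set τ := F * σ * F⁻¹
  have hτ : τ ∈ inG p := inG_conj_mem hF hσ
  set m : ρ.V ⧸ (I • (⊤ : Submodule A ρ.V)) := Submodule.Quotient.mk v
  obtain ⟨r, hr⟩ := IsAlgClosed.exists_pow_nat_eq (p : QBar) (pow_pos hp.out.pos n)
  set x : L := ⟨τ • m - m, hquot τ hτ m⟩
  set y : L := ⟨σ • m - m, hquot σ hσ m⟩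
  have hψ : ∀ ψ : AddChar L QBar, ψ x = ψ (a • y) := fun ψ => by
    obtain ⟨c, u, hu0, hc1, hc, hu⟩ :=
      exists_kummer_radical (natCast_pow_mem_smul ρ hn) hE hLI hquot hchar m ψ
    rw [AddChar.map_nsmul_eq_pow, ← hc τ hτ, ← hc σ hσ]
    exact cocycle_eq_pow hσ hσf hτ (fixesUnitRoots_conj hF hσf) hc1 hu0 hu hr
      (conj_apply_root hσf ha hr)
  have hxy : x = a • y := by
    by_contra hne
    haveI : Finite (Multiplicative L) := inferInstanceAs (Finite L)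
    haveI : NeZero (Monoid.exponent (Multiplicative L) : QBar) :=
      ⟨Nat.cast_ne_zero.mpr Monoid.exponent_ne_zero_of_finite⟩
    obtain ⟨φ, hφ⟩ := CommGroup.exists_apply_ne_one_of_hasEnoughRootsOfUnity (Multiplicative L) QBar
      (a := Multiplicative.ofAdd (x - a • y)) fun e => hne (sub_eq_zero.mp (ofAdd_eq_one.mp e))
    let ψ : AddChar L QBar := AddChar.toMonoidHomEquiv.symm ((Units.coeHom QBar).comp φ)
    have h2 : ψ (x - a • y) = 1 := by
      have h3 : ψ (x - a • y) * ψ (a • y) = ψ (a • y) := by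
        rw [← AddChar.map_add_eq_mul, sub_add_cancel, hψ]
      exact mul_eq_right₀ (AddChar.val_isUnit ψ _).ne_zero |>.mp h3
    exact hφ (Units.ext h2)
  have h := congrArg Subtype.val hxy
  rw [AddSubmonoidClass.coe_nsmul] at h
  rw [← Submodule.Quotient.mk_eq_zero, Submodule.Quotient.mk_sub, Submodule.Quotient.mk_smul,
    sub_eq_zero]
  exact h

/-- The value at a Kummer element of a complete ordinary representation is killed by `z ^ 2 - 1`,
`z` the value of a decomposition element on the unramified quotient. -/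
theorem kummer_value_killed [IsNoetherianRing A]
    [IsAdicComplete (IsLocalRing.maximalIdeal A) A] [Finite (IsLocalRing.ResidueField A)]
    (ρ : GaloisRepAdic A) (hdet : ρ.DetIsCyclotomic p) (hord : ρ.IsOrdinaryAt p) {σ : GQ}
    (hσ : σ ∈ inG p) (hσf : FixesUnitRoots p σ) {F : GQ} (hF : F ∈ decG p)
    (b : Module.Basis (Fin 2) A ρ.V) {x z c v : A} (hF0 : ρ.ρ F (b 0) = x • b 0)
    (hF1 : ρ.ρ F (b 1) = c • b 0 + z • b 1) (hσ0 : ρ.ρ σ (b 0) = b 0)
    (hσ1 : ρ.ρ σ (b 1) = v • b 0 + b 1) : (z ^ 2 - 1) * v = 0 := by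
  classical
  set m := IsLocalRing.maximalIdeal A
  refine IsHausdorff.haus (I := m) inferInstance _ fun k => ?_
  rw [SModEq.zero, smul_eq_mul, Ideal.mul_top]
  haveI : Finite (A ⧸ m) := ‹Finite (IsLocalRing.ResidueField A)›
  haveI : Finite (A ⧸ m ^ k) := Ideal.finite_quotient_pow (IsNoetherian.noetherian _) k
  have hk : ((p ^ k : ℕ) : A) ∈ m ^ k := by rw [Nat.cast_pow]; exact Ideal.pow_mem_pow hdet.1 k
  haveI : NeZero (p ^ k) := ⟨pow_ne_zero _ hp.out.ne_zero⟩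
  haveI : NeZero ((p ^ k : ℕ) : QBar) := ⟨Nat.cast_ne_zero.mpr (pow_ne_zero _ hp.out.ne_zero)⟩
  obtain ⟨ζ, hζ⟩ := HasEnoughRootsOfUnity.exists_primitiveRoot QBar (p ^ k)
  obtain ⟨a, -, ha⟩ := hζ.eq_pow_of_pow_eq_one (ξ := F ζ)
    (by rw [← map_pow, hζ.pow_eq_one, map_one])
  have haμ : ∀ μ : QBar, μ ^ p ^ k = 1 → F μ = μ ^ a := fun μ hμ => by
    obtain ⟨i, -, rfl⟩ := hζ.eq_pow_of_pow_eq_one hμ
    rw [map_pow, ← ha, pow_right_comm]
  have hdetF : LinearMap.det (ρ.ρ F) = x * z := by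
    rw [← LinearMap.det_toMatrix b, Matrix.det_fin_two]
    simp [LinearMap.toMatrix_apply, hF0, hF1]
  have h1 : x * z - (a : A) ∈ m ^ k := by
    have := hdet.2 k F a haμ
    rw [hdetF] at this
    exact Ideal.span_le.mpr (Set.singleton_subset_iff.mpr hk) this
  have h2 := rho_conj_kummerElt ρ hdet hord hσ hσf hF (m ^ k) hk haμ (ρ.ρ F (b 1))
  have e1 : ρ.ρ (F * σ * F⁻¹) (ρ.ρ F (b 1)) - ρ.ρ F (b 1) = (v * x) • b 0 := by
    rw [← Module.End.mul_apply, ← map_mul, inv_mul_cancel_right, map_mul, Module.End.mul_apply,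
      hσ1, map_add, map_smul, hF0, smul_smul, add_sub_cancel_right]
  have e2 : ρ.ρ σ (ρ.ρ F (b 1)) - ρ.ρ F (b 1) = (z * v) • b 0 := by
    rw [hF1, map_add, map_smul, map_smul, hσ0, hσ1, smul_add, smul_smul]
    abel
  rw [e1, e2, ← Nat.cast_smul_eq_nsmul A, smul_smul, ← sub_smul] at h2
  have h3 : v * x - (a : A) * (z * v) ∈ m ^ k := by
    have h : b.coord 0 ((v * x - (a : A) * (z * v)) • b 0) ∈ m ^ k := by
      refine Submodule.smul_induction_on h2 (fun r hr y _ => ?_) fun y y' hy hy' => ?_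
      · rw [map_smul, smul_eq_mul]
        exact Ideal.mul_mem_right _ _ hr
      · rw [map_add]
        exact add_mem hy hy'
    rwa [map_smul, Module.Basis.coord_apply, Module.Basis.repr_self, Finsupp.single_eq_same,
      smul_eq_mul, mul_one] at h
  have hx : IsUnit x := isUnit_of_mul_isUnit_left (y := z) (by
    rw [← hdetF]
    exact ((Group.isUnit F).map ρ.ρ).map LinearMap.det)
  refine (Ideal.unit_mul_mem_iff_mem _ hx).mp ?_
  have h4 : x * ((z ^ 2 - 1) * v) = z * v * (x * z - (a : A)) - (v * x - (a : A) * (z * v)) := by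
    ring
  rw [h4]
  exact sub_mem (Ideal.mul_mem_left _ _ h1) h3

end Fermat.Agent.Lifting.Deform

end
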