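import Fermat.Agent.RT.Assembly.Tame
import Fermat.Agent.EC.Rep.Tame
import Fermat.Agent.Deform.Matrix
import Mathlib.RingTheory.Filtration
import Mathlib.LinearAlgebra.Dual.Lemmas

/-!
# Tame inertia at `q ≠ p` in a deformation

A residually trivial inertia group at `q ≠ p` acts through its tame quotient, a Frobenius element
conjugates to `q`-th powers, and one element moving a `p`-th root of `q` generates modulo any ideal.
-/

set_option autoImplicit false
set_option linter.style.haveILetI false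

noncomputable section

namespace Fermat.Agent.Lifting

open IsLocalRing
open Fermat.Agent.Arith Fermat.Agent.EC.Rep Fermat.Agent.EC.Reduction
open Deform (Gal M2 IsCont mapM)

/-- An inertia element at `q` with a `p`-th root of `q` moved by it. -/
structure IsTameElt (p q : ℕ) (P : ValuationSubring QBar) (σ : Gal) : Prop where
  mem : σ ∈ P.inertiaSubgroupIn ℚ
  moves : ∃ π : QBar, π ≠ 0 ∧ Mazur.Eisenstein.ordAt P q π = (1 : ℤ) / p ∧
    res P (σ π / π) ≠ 1 ∧ res P (σ π / π) ^ p = 1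

theorem exists_isTameElt {p q : ℕ} (hp : p.Prime) (hq : q.Prime) (hqp : q ≠ p)
    {P : ValuationSubring QBar} (hP : P.LiesOverPrime q) : ∃ σ, IsTameElt p q P σ := by
  obtain ⟨π, hπ⟩ := IsAlgClosed.exists_pow_nat_eq (q : QBar) hp.pos
  have hπ0 : π ≠ 0 := fun h => by
    rw [h, zero_pow hp.ne_zero] at hπ
    exact Nat.cast_ne_zero.mpr hq.ne_zero hπ.symm
  have hord : (p : ℚ) * Mazur.Eisenstein.ordAt P q π = 1 := by
    rw [← Mazur.Eisenstein.ordAt_pow hP hq hπ0, hπ, Mazur.Eisenstein.ordAt_prime hP hq]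
  obtain ⟨σ, hσ, hne⟩ : ∃ σ ∈ P.inertiaSubgroupIn ℚ, σ π ≠ π := by
    by_contra hall
    push Not at hall
    obtain ⟨k, hk⟩ := Mazur.Eisenstein.exists_int_ordAt hP hq hπ0 hall
    rw [hk] at hord
    have h1 : (p : ℤ) * k = 1 := by exact_mod_cast hord
    exact hp.ne_one (Nat.dvd_one.mp (Int.natCast_dvd_natCast.mp ⟨k, by rw [Nat.cast_one, h1]⟩))
  have hpow : (σ π / π) ^ p = 1 := by
    rw [div_pow, ← map_pow, hπ, map_natCast, div_self (Nat.cast_ne_zero.mpr hq.ne_zero)]
  have hmem := (apply_div_self_mem hσ hπ0).1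
  refine ⟨σ, hσ, π, hπ0, ?_, fun h => hne ?_, by rw [← res_pow hmem, hpow, res_one]⟩
  · rw [Int.cast_one, eq_div_iff (Nat.cast_ne_zero.mpr hp.ne_zero), mul_comm, hord]
  · have hroot : σ π / π = 1 :=
      root_congr hP hq (m := p) hpow (one_pow p)
        (fun hd => hqp ((Nat.prime_dvd_prime_iff_eq hq hp).mp hd))
        ((res_eq_zero_iff (sub_mem hmem P.one_mem)).mp (by
          rw [res_sub hmem P.one_mem, h, res_one, sub_self]))
    exact (div_eq_one_iff_eq hπ0).mp hroot

variable {R : Type} [CommRing R] [IsLocalRing R] {p : ℕ}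

theorem pow_prime_pow_sub_one_mem (hpR : (p : R) ∈ maximalIdeal R) {X : M2 R}
    (hX : ∀ i j, (X - 1) i j ∈ maximalIdeal R) (k : ℕ) :
    ∀ i j, (X ^ p ^ k - 1) i j ∈ maximalIdeal R ^ (k + 1) := by
  induction k with
  | zero => simpa using hX
  | succ k ih =>
    intro i j
    set Z := X ^ p ^ k with hZ
    have hsum : ∀ a b, (∑ i ∈ Finset.range p, Z ^ i) a b ∈ maximalIdeal R := by
      have hZm : (Ideal.Quotient.mk (maximalIdeal R)).mapMatrix Z = 1 := by
        refine Matrix.ext fun a b => ?_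
        have := Ideal.pow_le_self k.succ_ne_zero (ih a b)
        rw [← Ideal.Quotient.eq_zero_iff_mem, Matrix.sub_apply, map_sub, sub_eq_zero] at this
        rw [RingHom.mapMatrix_apply, Matrix.map_apply, this]
        by_cases hab : a = b <;> simp [hab, Matrix.one_apply]
      intro a b
      rw [← Ideal.Quotient.eq_zero_iff_mem]
      have h1 : (Ideal.Quotient.mk (maximalIdeal R)).mapMatrix (∑ i ∈ Finset.range p, Z ^ i) = 0 := by
        rw [map_sum, Finset.sum_congr rfl fun i _ => by rw [map_pow, hZm, one_pow],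
          Finset.sum_const, Finset.card_range]
        refine Matrix.ext fun a b => ?_
        rw [Matrix.smul_apply, nsmul_eq_mul, ← map_natCast (Ideal.Quotient.mk (maximalIdeal R)),
          Ideal.Quotient.eq_zero_iff_mem.mpr hpR, zero_mul, Matrix.zero_apply]
      exact congrFun (congrFun h1 a) b
    rw [pow_succ p k, pow_mul, ← hZ, ← geom_sum_mul Z p, Matrix.mul_apply, pow_succ']
    exact sum_mem fun l _ => Ideal.mul_mem_mul (hsum i l) (ih l j)

theorem finiteLevel_quotient {r : Gal →* M2 R} (hr : IsCont r) (n : ℕ) :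
    ∃ L : IntermediateField ℚ QBar, FiniteDimensional ℚ L ∧
      ∀ σ : Gal, (∀ x ∈ L, σ x = x) →
        mapM (Ideal.Quotient.mk (maximalIdeal R ^ n)) r σ = 1 := by
  obtain ⟨L, hL, hL'⟩ := hr n
  refine ⟨L, hL, fun σ hσ => Matrix.ext fun a b => ?_⟩
  rw [Deform.mapM_apply]
  refine (Ideal.Quotient.eq.mpr (hL' σ hσ a b)).trans ?_
  by_cases hab : a = b <;> simp [hab, Matrix.one_apply]

variable [IsNoetherianRing R] [hp : Fact p.Prime]

/-- An inertia element with trivial tame characters at `q ≠ p` is killed. -/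
theorem eq_one_of_tameTrivial {r : Gal →* M2 R} (hr : IsCont r) (hpR : (p : R) ∈ maximalIdeal R)
    {q : ℕ} (hq : q.Prime) (hqp : q ≠ p) {P : ValuationSubring QBar} (hP : P.LiesOverPrime q)
    (hres : ∀ g ∈ P.inertiaSubgroupIn ℚ, ∀ i j, (r g - 1) i j ∈ maximalIdeal R)
    {ν : Gal} (hν : ν ∈ P.inertiaSubgroupIn ℚ) (htriv : RT.Assembly.TameTrivial P ν) : r ν = 1 := by
  refine sub_eq_zero.mp (Matrix.ext fun i j => ?_)
  rw [Matrix.zero_apply, ← Ideal.mem_bot, ← Ideal.iInf_pow_eq_bot_of_isLocalRing (maximalIdeal R)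
    (maximalIdeal.isMaximal R).ne_top, Ideal.mem_iInf]
  intro n
  have hone : mapM (Ideal.Quotient.mk (maximalIdeal R ^ n)) r ν = 1 := by
    refine RT.Assembly.eq_one_of_tameTrivial (mapM (Ideal.Quotient.mk (maximalIdeal R ^ n)) r)
      (finiteLevel_quotient hr n) hP hq hν htriv (n := p ^ n)
      (fun hd => hqp ((Nat.prime_dvd_prime_iff_eq hq hp.out).mp (hq.dvd_of_dvd_pow hd))) ?_
    rw [← map_pow (mapM (Ideal.Quotient.mk (maximalIdeal R ^ n)) r)]
    refine Matrix.ext fun a b => ?_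
    have := Ideal.pow_le_pow_right n.le_succ (pow_prime_pow_sub_one_mem hpR (hres ν hν) n a b)
    rw [← map_pow r, Matrix.sub_apply] at this
    rw [Deform.mapM_apply, Ideal.Quotient.eq.mpr this]
    by_cases hab : a = b <;> simp [hab, Matrix.one_apply]
  refine Ideal.Quotient.eq_zero_iff_mem.mp ?_
  rw [Matrix.sub_apply, map_sub, ← Deform.mapM_apply, hone]
  by_cases hij : i = j <;> simp [hij, Matrix.one_apply]

/-- The tame relation. -/
theorem frobenius_mul_inertia {r : Gal →* M2 R} (hr : IsCont r) (hpR : (p : R) ∈ maximalIdeal R)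
    {q : ℕ} (hq : q.Prime) (hqp : q ≠ p) {P : ValuationSubring QBar} (hP : P.LiesOverPrime q)
    (hres : ∀ g ∈ P.inertiaSubgroupIn ℚ, ∀ i j, (r g - 1) i j ∈ maximalIdeal R)
    {φ : Gal} (hφ : P.IsFrobeniusAt φ q) {σ : Gal} (hσ : σ ∈ P.inertiaSubgroupIn ℚ) :
    r φ * r σ = r σ ^ q * r φ := by
  obtain ⟨hν, htriv⟩ := RT.Assembly.tameTrivial_frobenius_conj hφ hσ
  have h1 := eq_one_of_tameTrivial hr hpR hq hqp hP hres hν htriv
  calc r φ * r σ = r (φ * σ * φ⁻¹ * (σ ^ q)⁻¹) * (r σ ^ q * r φ) := by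
        rw [← map_pow r σ q, ← map_mul, ← map_mul, ← map_mul]
        congr 1
        group
    _ = r σ ^ q * r φ := by rw [h1, one_mul]

/-- The ideal of the entries of `r g - 1` for `g` in a set. -/
def entryIdeal {R : Type} [CommRing R] (r : Gal → M2 R) (G : Set Gal) : Ideal R :=
  Ideal.span (Set.range fun x : G × Fin 2 × Fin 2 => (r x.1 - 1) x.2.1 x.2.2)

omit [IsLocalRing R] [IsNoetherianRing R] hp in
theorem sub_one_mem_entryIdeal {r : Gal → M2 R} {G : Set Gal} {g : Gal} (hg : g ∈ G) (i j : Fin 2) :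
    (r g - 1) i j ∈ entryIdeal r G :=
  Ideal.subset_span ⟨(⟨g, hg⟩, i, j), rfl⟩

/-- **One tame element generates inertia modulo any ideal.** -/
theorem entryIdeal_inertia_le {r : Gal →* M2 R} (hr : IsCont r) (hpR : (p : R) ∈ maximalIdeal R)
    {q : ℕ} (hq : q.Prime) (hqp : q ≠ p) {P : ValuationSubring QBar} (hP : P.LiesOverPrime q)
    (hres : ∀ g ∈ P.inertiaSubgroupIn ℚ, ∀ i j, (r g - 1) i j ∈ maximalIdeal R)
    {σ : Gal} (hσ : IsTameElt p q P σ) {I : Ideal R} (hσI : ∀ i j, (r σ - 1) i j ∈ I) :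
    entryIdeal r (P.inertiaSubgroupIn ℚ : Set Gal) ≤ I := by
  classical
  set G : Set Gal := (P.inertiaSubgroupIn ℚ : Set Gal)
  set J := entryIdeal r G with hJ
  refine Submodule.le_of_le_smul_of_le_jacobson_bot (I := maximalIdeal R)
    (IsNoetherian.noetherian J) (IsLocalRing.jacobson_eq_maximalIdeal ⊥ bot_ne_top).ge ?_
  set K : Ideal R := I ⊔ maximalIdeal R • J
  suffices hkey : ∀ g ∈ G, ∀ i j, (r g - 1) i j ∈ K by
    rw [hJ, entryIdeal, Ideal.span_le]
    rintro _ ⟨⟨⟨g, hg⟩, i, j⟩, rfl⟩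
    exact hkey g hg i j
  let V := R ⧸ K
  let C : Gal → M2 V := fun g => (r g - 1).map (Ideal.Quotient.mk K)
  obtain ⟨c, hc⟩ := Ideal.exists_pow_inf_eq_pow_smul (maximalIdeal R) (J : Submodule R R)
  have hfin : ∃ L : IntermediateField ℚ QBar, FiniteDimensional ℚ L ∧
      ∀ g : Gal, (∀ x ∈ L, g x = x) → g ∈ G → C g = 0 := by
    obtain ⟨L, hL, hL'⟩ := hr (c + 1)
    refine ⟨L, hL, fun g hg hgG => Matrix.ext fun i j => ?_⟩
    refine Ideal.Quotient.eq_zero_iff_mem.mpr (Submodule.mem_sup_right ?_)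
    have h1 : (r g - 1) i j ∈ (maximalIdeal R ^ (c + 1) • ⊤ : Submodule R R) ⊓ J := by
      refine ⟨?_, sub_one_mem_entryIdeal hgG i j⟩
      rw [smul_eq_mul, Ideal.mul_top, Matrix.sub_apply]
      exact hL' g hg i j
    rw [hc _ c.le_succ, show c + 1 - c = 1 from by omega, pow_one] at h1
    exact Submodule.smul_mono le_rfl inf_le_right h1
  have hadd : ∀ g ∈ G, ∀ h ∈ G, C (g * h) = C g + C h := by
    intro g hg h hh
    have e : r (g * h) - 1 = (r g - 1) + (r h - 1) + (r g - 1) * (r h - 1) := by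
      rw [map_mul]; noncomm_ring
    refine Matrix.ext fun i j => ?_
    simp only [C, e, Matrix.add_apply, Matrix.map_apply, map_add, add_eq_left]
    refine Ideal.Quotient.eq_zero_iff_mem.mpr (Submodule.mem_sup_right ?_)
    rw [Matrix.mul_apply]
    exact Submodule.sum_mem _ fun l _ =>
      Submodule.smul_mem_smul (hres g hg i l) (sub_one_mem_entryIdeal hh l j)
  let W : AddSubgroup (M2 V) :=
    { carrier := {X | ∀ i j, (p : V) * X i j = 0}
      zero_mem' := fun i j => by simp
      add_mem' := fun {X Y} hX hY i j => by rw [Matrix.add_apply, mul_add, hX, hY, add_zero]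
      neg_mem' := fun {X} hX i j => by rw [Matrix.neg_apply, mul_neg, hX, neg_zero] }
  haveI : Module (ZMod p) W := AddCommGroup.zmodModule fun X => Subtype.ext (Matrix.ext fun i j => by
    simpa [nsmul_eq_mul] using X.2 i j)
  have hCW : ∀ g ∈ G, C g ∈ W := fun g hg i j => by
    rw [show (p : V) = Ideal.Quotient.mk K (p : R) from (map_natCast _ p).symm]
    show _ * Ideal.Quotient.mk K _ = 0
    rw [← map_mul]
    exact Ideal.Quotient.eq_zero_iff_mem.mpr
      (Submodule.mem_sup_right (Submodule.smul_mem_smul hpR (sub_one_mem_entryIdeal hg i j)))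
  let C' : Gal → W := fun g => if h : g ∈ G then ⟨C g, hCW g h⟩ else 0
  obtain ⟨π, hπ, hord, h1, h2⟩ := hσ.moves
  intro g hg i j
  have hzero : C' g = 0 := (Module.forall_dual_apply_eq_zero_iff (ZMod p) _).mp fun f => by
    refine RT.Assembly.eq_zero_of_apply_eq_zero hp.out hP hq hqp (fun g => f (C' g))
      (fun g hg h hh => ?_) ?_ hσ.mem hπ hord h1 h2 ?_ g hg
    · rw [← map_add]
      refine congrArg f (Subtype.ext ?_)
      simp only [C', dif_pos (show g ∈ G from hg), dif_pos (show h ∈ G from hh),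
        dif_pos (show g * h ∈ G from mul_mem hg hh), AddSubgroup.coe_add, hadd g hg h hh]
    · obtain ⟨L, hL, hL'⟩ := hfin
      refine ⟨L, hL, fun g hg => ?_⟩
      show f (C' g) = 0
      by_cases h : g ∈ G
      · rw [show C' g = 0 from Subtype.ext (by simp [C', h, hL' g hg h]), map_zero]
      · simp [C', h]
    · show f (C' σ) = 0
      rw [show C' σ = 0 from Subtype.ext ?_, map_zero]
      simp only [C', dif_pos (show σ ∈ G from hσ.mem), ZeroMemClass.coe_zero]
      exact Matrix.ext fun i j =>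
        Ideal.Quotient.eq_zero_iff_mem.mpr (Submodule.mem_sup_left (hσI i j))
  have h0 := congrArg (fun X : W => (X : M2 V) i j) hzero
  simp only [C', dif_pos (show g ∈ G from hg), ZeroMemClass.coe_zero, Matrix.zero_apply] at h0
  exact Ideal.Quotient.eq_zero_iff_mem.mp h0

omit [IsLocalRing R] [IsNoetherianRing R] hp in
/-- Conjugation: triviality modulo an ideal passes to all places over `q`. -/
theorem sub_one_mem_of_conj {r : Gal →* M2 R} {I : Ideal R} {g t : Gal}
    (ht : ∀ i j, (r t - 1) i j ∈ I) (i j : Fin 2) : (r (g * t * g⁻¹) - 1) i j ∈ I := by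
  have e : r (g * t * g⁻¹) - 1 = r g * (r t - 1) * r g⁻¹ := by
    rw [mul_sub, sub_mul, mul_one, ← map_mul, ← map_mul, ← map_mul, mul_inv_cancel, map_one]
  rw [e, Matrix.mul_apply]
  refine Submodule.sum_mem _ fun l _ => ?_
  refine Ideal.mul_mem_right _ _ ?_
  rw [Matrix.mul_apply]
  exact Submodule.sum_mem _ fun m _ => Ideal.mul_mem_left _ _ (ht m l)

end Fermat.Agent.Lifting
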