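import Fermat.Agent.Lifting.Deform.TangentFinite
import Fermat.Agent.Lifting.Deform.Tame
import Fermat.Agent.Lifting.Deform.FlatOfKummer
import Fermat.Agent.Lifting.Galois.Invariance
import Fermat.Prelude.Thm_IsLocalRing_isAdicComplete_of_module_finite

/-!
# The map to the minimal deformation ring

The universal representation of the lifting conditions at raising set `T` maps to the one at raising
set `∅`; modulo the entries at one tame element for each prime of `T`, and one Kummer element when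
`p ∈ T`, it satisfies the minimal conditions.
-/

set_option autoImplicit false
set_option linter.style.haveILetI false

noncomputable section

namespace Fermat.Agent.Lifting

open IsLocalRing Module
open scoped Pointwise
open Fermat.Agent.Arith (QBar)
open Fermat.Agent.Deform (Gal M2 mapM matOf toRep IsCont IsResAlg)

section BaseChange

variable {A B C : Type} [CommRing A] [IsLocalRing A] [CommRing B] [IsLocalRing B]
  [CommRing C] [IsLocalRing C] {ρ ρ' : GaloisRepAdic A}

theorem isEquiv_map (φ : A →+* B) (hφ : IsLocalHom φ) (h : ρ.IsEquiv ρ') :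
    (ρ.baseChangeAlong φ hφ).IsEquiv (ρ'.baseChangeAlong φ hφ) :=
  ⟨h.some.baseChangeAlong φ hφ⟩

theorem isEquiv_map_congr {φ φ' : A →+* B} (h : φ = φ') (hφ : IsLocalHom φ) (hφ' : IsLocalHom φ') :
    (ρ.baseChangeAlong φ hφ).IsEquiv (ρ.baseChangeAlong φ' hφ') := by
  subst h
  exact Deform.isEquiv_refl _

theorem isEquiv_map_map (φ : A →+* B) (hφ : IsLocalHom φ) (ψ : B →+* C) (hψ : IsLocalHom ψ)
    (h : IsLocalHom (ψ.comp φ)) :
    ((ρ.baseChangeAlong φ hφ).baseChangeAlong ψ hψ).IsEquiv (ρ.baseChangeAlong (ψ.comp φ) h) := by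
  let b := Module.finBasisOfFinrankEq A ρ.V ρ.finrank_eq
  exact Deform.isEquiv_trans (isEquiv_map ψ hψ (Deform.isEquiv_baseChangeAlong_matOf φ hφ ρ b))
    (Deform.isEquiv_trans (Deform.isEquiv_baseChangeAlong_toRep ψ hψ _ _)
      (Deform.isEquiv_trans
        (Deform.isEquiv_toRep_congr (Deform.mapM_mapM φ ψ (matOf ρ b)) _
          ((Deform.isCont_matOf ρ b).map _ h))
        (Deform.isEquiv_symm (Deform.isEquiv_baseChangeAlong_matOf (ψ.comp φ) h ρ b))))

theorem matOf_bcBasis (φ : A →+* B) (hφ : IsLocalHom φ) (b : Basis (Fin 2) A ρ.V) :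
    matOf (ρ.baseChangeAlong φ hφ) (bcBasis φ hφ b) = mapM φ (matOf ρ b) :=
  MonoidHom.ext fun σ => NatEnd.toMatrix_map φ hφ (NatEnd.gal σ) ρ b

end BaseChange

section Algebras

variable {O : Type} [CommRing O] [IsLocalRing O]
variable {A B : Type} [CommRing A] [IsLocalRing A] [Algebra O A] [CommRing B] [IsLocalRing B]
  [Algebra O B]

/-- Algebra maps between coefficient algebras are local. -/
theorem isLocalHom_algHom (hB : IsResAlg O B) (φ : A →ₐ[O] B) :
    IsLocalHom (φ : A →+* B) := by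
  haveI := hB.isLocalHom
  refine ⟨fun x hx => ?_⟩
  by_contra hxn
  obtain ⟨o, ho⟩ := Deform.exists_sub_mem hB (φ x)
  have hou : IsUnit o := by
    refine isUnit_of_map_unit (algebraMap O B) o ?_
    by_contra hon
    have := add_mem ho (show algebraMap O B o ∈ maximalIdeal B from hon)
    rw [sub_add_cancel] at this
    exact this hx
  have h1 : IsUnit (x - algebraMap O A o) := by
    by_contra h
    have h2 := sub_mem (show x ∈ maximalIdeal A from hxn)
      (show x - algebraMap O A o ∈ maximalIdeal A from h)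
    rw [sub_sub_cancel] at h2
    exact h2 (hou.map _)
  have h3 := h1.map φ
  rw [map_sub, φ.commutes] at h3
  exact ho h3

/-- A quotient of a coefficient algebra is one. -/
theorem isResAlg_of_surjective (hA : IsResAlg O A) (φ : A →ₐ[O] B) (hφ : Function.Surjective φ) :
    IsResAlg O B := by
  haveI := hA.isLocalHom
  haveI : IsLocalHom (φ : A →+* B) := IsLocalHom.of_surjective _ hφ
  refine ⟨?_, fun y => ?_⟩
  · refine ⟨fun o ho => isUnit_of_map_unit (algebraMap O A) o
      (isUnit_of_map_unit (φ : A →+* B) _ ?_)⟩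
    rwa [RingHom.coe_coe, φ.commutes]
  · obtain ⟨b, rfl⟩ := residue_surjective y
    obtain ⟨a, rfl⟩ := hφ b
    obtain ⟨o, ho⟩ := Deform.exists_sub_mem hA a
    refine ⟨o, ?_⟩
    have h := map_nonunit (φ : A →+* B) _ ho
    rw [RingHom.coe_coe, map_sub, φ.commutes] at h
    exact (Ideal.Quotient.eq.mpr h).symm

omit [IsLocalRing O] in
/-- Composed base changes along algebra maps. -/
theorem isEquiv_map_algHom {E : Type} [CommRing E] [IsLocalRing E] [Algebra O E]
    {ρ : GaloisRepAdic A} (φ : A →ₐ[O] B) (hφ : IsLocalHom (φ : A →+* B)) (ψ : B →ₐ[O] E)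
    (hψ : IsLocalHom (ψ : B →+* E)) (h : IsLocalHom (ψ.comp φ : A →+* E)) :
    ((ρ.baseChangeAlong (φ : A →+* B) hφ).baseChangeAlong (ψ : B →+* E) hψ).IsEquiv
      (ρ.baseChangeAlong ((ψ.comp φ : A →ₐ[O] E) : A →+* E) h) :=
  isEquiv_map_map _ hφ _ hψ h

variable {C : Cond O} [IsNoetherianRing A] [IsAdicComplete (maximalIdeal A) A] [IsNoetherianRing B]
  [IsAdicComplete (maximalIdeal B) B]

/-- A deformation condition passes to quotients. -/
theorem cond_map_of_surjective (hC : GaloisRep.IsDeformationCondition O C) (hA : IsResAlg O A)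
    (hB : IsResAlg O B) (φ : A →ₐ[O] B) (hφ : IsLocalHom (φ : A →+* B))
    (hs : Function.Surjective φ) {ρ : GaloisRepAdic A} (h : C ρ) :
    C (ρ.baseChangeAlong (φ : A →+* B) hφ) := by
  refine (hC.iff_forall_surjective hB.isLocalHom hB.residue_surjective _).mpr
    fun E _ _ _ hE q hq hqs => ?_
  have hqφ : IsLocalHom (q.comp φ : A →+* E) := IsLocalHom.of_surjective _ (hqs.comp hs)
  refine hC.of_isEquiv hE
    (Deform.isEquiv_symm (isEquiv_map_map (φ : A →+* B) hφ (q : B →+* E) hq hqφ))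
    ((hC.iff_forall_surjective hA.isLocalHom hA.residue_surjective ρ).mp h hE (q.comp φ) hqφ
      (hqs.comp hs))

/-- A deformation condition is invariant under equivalence. -/
theorem cond_congr (hC : GaloisRep.IsDeformationCondition O C) (hA : IsResAlg O A)
    {ρ ρ' : GaloisRepAdic A} (he : ρ.IsEquiv ρ') (h : C ρ) : C ρ' :=
  (hC.iff_forall_surjective hA.isLocalHom hA.residue_surjective _).mpr fun _E _ _ _ hE q hq hqs =>
    hC.of_isEquiv hE (isEquiv_map _ hq he)
      ((hC.iff_forall_surjective hA.isLocalHom hA.residue_surjective ρ).mp h hE q hq hqs)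

omit [IsNoetherianRing A] [IsAdicComplete (maximalIdeal A) A] [IsNoetherianRing B]
  [IsAdicComplete (maximalIdeal B) B] in
/-- Residual equivalence passes along algebra maps. -/
theorem residual_isEquiv_map {ρbar : ResidualGaloisRep (ResidueField O)}
    (habs : ρbar.IsAbsolutelyIrreducible) (hA : IsResAlg O A) (hB : IsResAlg O B)
    [IsLocalHom (algebraMap O A)] [IsLocalHom (algebraMap O B)] (φ : A →ₐ[O] B)
    (hφ : IsLocalHom (φ : A →+* B)) {ρ : GaloisRepAdic A}
    (he : ρ.residual.IsEquiv (ρbar.baseChangeAlong (ResidueField.map (algebraMap O A)))) :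
    (ρ.baseChangeAlong (φ : A →+* B) hφ).residual.IsEquiv
      (ρbar.baseChangeAlong (ResidueField.map (algebraMap O B))) := by
  let bb := Module.finBasisOfFinrankEq (ResidueField O) ρbar.V ρbar.finrank_eq
  obtain ⟨W, hW⟩ := Deform.exists_rigid ρbar habs bb
  obtain ⟨b, hb⟩ := Deform.exists_lifts_basis hW hA ρ he
  refine Deform.residual_isEquiv_of_lifts hW hB _ (bcBasis (φ : A →+* B) hφ b) ?_
  rw [matOf_bcBasis]
  exact hb.map hB φ hφ

end Algebras

section Data

variable {O : Type} [CommRing O] [IsDomain O] [IsDiscreteValuationRing O]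
  [IsAdicComplete (maximalIdeal O) O] {ρbar : ResidualGaloisRep (ResidueField O)} {C : Cond O}

theorem isResAlg_data (D : GaloisRep.DeformationRingData O ρbar C) : IsResAlg O D.R :=
  ⟨D.instIsLocalHom, D.residue_surjective⟩

omit [IsAdicComplete (maximalIdeal O) O] in
theorem isResAlg_self : IsResAlg O O :=
  ⟨⟨fun _ h => h⟩, residue_surjective⟩

/-- Two maps out of a deformation ring with equivalent representations of the type are equal. -/
theorem algHom_eq_of_isEquiv (D : GaloisRep.DeformationRingData O ρbar C) {A : Type} [CommRing A]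
    [IsLocalRing A] [IsNoetherianRing A] [IsAdicComplete (maximalIdeal A) A] [Algebra O A]
    (hA : IsResAlg O A) {φ φ' : D.R →ₐ[O] A} (hφ : IsLocalHom (φ : D.R →+* A))
    (hφ' : IsLocalHom (φ' : D.R →+* A)) (hcond : C (D.ρ.baseChangeAlong (φ : D.R →+* A) hφ))
    (he : (D.ρ.baseChangeAlong (φ : D.R →+* A) hφ).IsEquiv
      (D.ρ.baseChangeAlong (φ' : D.R →+* A) hφ')) : φ = φ' := by
  haveI := hA.isLocalHom
  obtain ⟨ψ, -, huniq⟩ := D.universal A hA.residue_surjective _ hcond
    (residual_isEquiv_map D.absIrr (isResAlg_data D) hA φ hφ D.residual_isEquiv)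
  exact (huniq φ ⟨hφ, Deform.isEquiv_refl _⟩).trans
    (huniq φ' ⟨hφ', Deform.isEquiv_symm he⟩).symm

end Data

section Minimal

variable {O : Type} [CommRing O] [IsDomain O] [IsDiscreteValuationRing O]
  [IsAdicComplete (maximalIdeal O) O] {ρbar : ResidualGaloisRep (ResidueField O)}
  {p : ℕ} {K K0 : PKind} {N T : Finset ℕ} {s : ℕ → ℤ}

/-- The relation between the conditions at `p` of the two levels. -/
def KindsMatch (p : ℕ) (K K0 : PKind) (T : Finset ℕ) : Prop :=
  (p ∉ T ∧ K = K0) ∨ (p ∈ T ∧ K = .ord ∧ K0 = .flat)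

omit [IsDomain O] [IsDiscreteValuationRing O] [IsAdicComplete (maximalIdeal O) O] in
/-- The minimal universal representation is of the type at raising set `T`. -/
theorem liftCondition_of_minimal (hK : KindsMatch p K K0 T) (hTN : ∀ q ∈ T, q ∉ N)
    {A : Type} [CommRing A] [IsLocalRing A] [Algebra O A] {ρ : GaloisRepAdic A}
    (h : liftCondition O p K0 N ∅ s ρ) (hord : p ∈ T → ρ.IsOrdinaryAt p) :
    liftCondition O p K N T s ρ := by
  obtain ⟨hdet, hp, hunr, huni, -⟩ := h
  rw [Finset.union_empty] at hunr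
  have hunrT : ∀ q ∈ T, q.Prime → q ≠ p → ρ.IsUnramifiedAt q := fun q hq hq' hqp =>
    hunr q hq' fun hc => (Finset.mem_insert.mp hc).elim hqp (hTN q hq)
  refine ⟨hdet, ?_, fun q hq hqn => hunr q hq fun hc => hqn ?_, huni,
    fun q hq hq' hqp _ => ⟨fun P hP σ hσ => ?_, fun P hP F _ τ hτ => ?_⟩⟩
  · obtain ⟨-, rfl⟩ | ⟨hpT, rfl, -⟩ := hK
    · exact hp
    · exact hord hpT
  · rcases Finset.mem_insert.mp hc with rfl | hc
    · exact Finset.mem_insert_self _ _
    · exact Finset.mem_insert_of_mem (Finset.mem_union_left T hc)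
  · rw [hunrT q hq hq' hqp P hP σ hσ]
    exact (charpoly_eq_sq_iff _).mpr ⟨by rw [LinearMap.trace_one, ρ.finrank_eq, Nat.cast_ofNat],
      map_one _⟩
  · simp [hunrT q hq hq' hqp P hP τ hτ]

/-- The map to the minimal ring. -/
theorem exists_algHom_minimal (D : GaloisRep.DeformationRingData O ρbar (liftCondition O p K N T s))
    (D0 : GaloisRep.DeformationRingData O ρbar (liftCondition O p K0 N ∅ s))
    (hK : KindsMatch p K K0 T) (hTN : ∀ q ∈ T, q ∉ N)
    (hord : p ∈ T → D0.ρ.IsOrdinaryAt p) :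
    ∃ π : D.R →ₐ[O] D0.R, ∃ hπ : IsLocalHom (π : D.R →+* D0.R),
      (D.ρ.baseChangeAlong (π : D.R →+* D0.R) hπ).IsEquiv D0.ρ := by
  obtain ⟨π, hπ, -⟩ := D.universal D0.R D0.residue_surjective D0.ρ
    (liftCondition_of_minimal hK hTN D0.isOfType hord) D0.residual_isEquiv
  exact ⟨π, hπ⟩

variable [Finite (ResidueField O)] [hp : Fact p.Prime]

theorem eq_one_of_matOf {A : Type} [CommRing A] [IsLocalRing A] {ρ : GaloisRepAdic A}
    (b : Basis (Fin 2) A ρ.V) {σ : Gal} (h : matOf ρ b σ = 1) : ρ.ρ σ = 1 :=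
  (LinearMap.toMatrixAlgEquiv b).injective (h.trans (map_one _).symm)

theorem matOf_map_eq_one {R A : Type} [CommRing R] [IsLocalRing R] [CommRing A] [IsLocalRing A]
    (φ : R →+* A) (hφ : IsLocalHom φ) {ρ : GaloisRepAdic R} (b : Basis (Fin 2) R ρ.V) {σ : Gal}
    (h : ∀ i j, φ ((matOf ρ b σ - 1) i j) = 0) : (ρ.baseChangeAlong φ hφ).ρ σ = 1 := by
  refine eq_one_of_matOf (bcBasis φ hφ b) ?_
  rw [matOf_bcBasis]
  refine Matrix.ext fun i j => ?_
  have := h i j
  rw [Matrix.sub_apply, map_sub, sub_eq_zero] at this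
  rw [Deform.mapM_apply, this]
  by_cases hij : i = j <;> simp [hij, Matrix.one_apply]

/-- Modulo the entries at the chosen elements the representation is of minimal type. -/
theorem liftCondition_quotient (hp2 : p ≠ 2) (hpO : (p : O) ∈ maximalIdeal O)
    (D : GaloisRep.DeformationRingData O ρbar (liftCondition O p K N T s))
    (hK : KindsMatch p K K0 T) (b : Basis (Fin 2) D.R D.ρ.V)
    (hres : ∀ q ∈ T, q ≠ p → ∀ P : ValuationSubring QBar, P.LiesOverPrime q →
      ∀ g ∈ P.inertiaSubgroupIn ℚ, ∀ i j, (matOf D.ρ b g - 1) i j ∈ maximalIdeal D.R)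
    {A : Type} [CommRing A] [IsLocalRing A] [IsNoetherianRing A]
    [IsAdicComplete (maximalIdeal A) A] [Algebra O A] (φ : D.R →ₐ[O] A)
    (hφ : IsLocalHom (φ : D.R →+* A)) (hs : Function.Surjective φ)
    (htame : ∀ q ∈ T, q.Prime → q ≠ p → ∃ (P : ValuationSubring QBar) (σ : Gal),
      P.LiesOverPrime q ∧ IsTameElt p q P σ ∧ ∀ i j, φ ((matOf D.ρ b σ - 1) i j) = 0)
    (hkum : p ∈ T → ∃ σ : Gal,
      Deform.IsKummerElt p σ ∧ ∀ i j, φ ((matOf D.ρ b σ - 1) i j) = 0) :
    liftCondition O p K0 N ∅ s (D.ρ.baseChangeAlong (φ : D.R →+* A) hφ) := by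
  have hA := isResAlg_of_surjective (isResAlg_data D) φ hs
  haveI := hA.isLocalHom
  obtain ⟨hdet, hk, hunr, huni, -⟩ := cond_map_of_surjective (isDeformationCondition_lift hp2 hpO K N T s)
    (isResAlg_data D) hA φ hφ hs D.isOfType
  refine ⟨hdet, ?_, fun q hq hqn => ?_, huni, fun q hq => absurd hq (Finset.notMem_empty q)⟩
  · obtain ⟨-, rfl⟩ | ⟨hpT, rfl, rfl⟩ := hK
    · exact hk
    · obtain ⟨σ, hσ, hσ0⟩ := hkum hpT
      haveI : Finite (ResidueField A) := Finite.of_surjective
        (ResidueField.map (algebraMap O A)) (fun x => by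
          obtain ⟨o, ho⟩ := hA.residue_surjective x
          exact ⟨residue O o, by rw [ResidueField.map_residue]; exact ho⟩)
      exact Deform.isFlatAt_of_kummerElt _ hdet hk hσ (matOf_map_eq_one _ hφ b hσ0)
  · rw [Finset.union_empty] at hqn
    by_cases hqT : q ∈ T
    · have hqp : q ≠ p := fun h => hqn (h ▸ Finset.mem_insert_self p N)
      obtain ⟨P, σ, hP, hσ, hσ0⟩ := htame q hqT hq hqp
      have hle : entryIdeal (matOf D.ρ b) (P.inertiaSubgroupIn ℚ : Set Gal) ≤
          RingHom.ker (φ : D.R →+* A) :=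
        entryIdeal_inertia_le (Deform.isCont_matOf D.ρ b) D.isOfType.1.1 hq hqp hP
          (hres q hqT hqp P hP) hσ fun i j => hσ0 i j
      intro P' hP' τ hτ
      obtain ⟨g, rfl⟩ := Arith.exists_smul_eq hP hP' hq
      have hτ' : g⁻¹ * τ * g ∈ P.inertiaSubgroupIn ℚ := by
        have h := (Arith.mem_inertia_smul_iff (g := g⁻¹)).mpr hτ
        rw [inv_inv] at h
        exact (show g⁻¹ • g • P = P from inv_smul_smul g P) ▸ h
      refine matOf_map_eq_one _ hφ b fun i j => ?_
      rw [show τ = g * (g⁻¹ * τ * g) * g⁻¹ by group]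
      exact RingHom.mem_ker.mp
        (sub_one_mem_of_conj (fun i j => hle (sub_one_mem_entryIdeal hτ' i j)) i j)
    · refine hunr q hq fun hc => hqn ?_
      rcases Finset.mem_insert.mp hc with rfl | hc
      · exact Finset.mem_insert_self _ _
      · exact Finset.mem_insert_of_mem ((Finset.mem_union.mp hc).resolve_right hqT)

end Minimal

end Fermat.Agent.Lifting
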