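import Fermat.Agent.Lifting.Deform.Condition
import Fermat.Agent.CFT.GW.Killing
import Fermat.Agent.Deform.Universal

/-!
# Finiteness of the tangent space and existence of the rings

The lifts to a finite ring with square zero maximal ideal, unramified outside a finite set, are
finitely many: on the splitting field of the residual representation and of the `p`-th roots of
unity their nontrivial part is given by Kummer characters. So every condition implying
unramifiedness outside a finite set has finite tangent space.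
-/

set_option autoImplicit false
set_option linter.style.haveILetI false
set_option synthInstance.maxHeartbeats 200000

noncomputable section

namespace Fermat.Agent.Lifting

open IsLocalRing Module
open Fermat.Agent.Arith
open Fermat.Agent.Arith.Density Fermat.Agent.Arith.Chebotarev
open Deform (Gal M2 Rigid IsResAlg matOf matRes Lifts augment dualAlgebra IsCont)

variable {O : Type} [CommRing O] [IsLocalRing O] [Finite (ResidueField O)]
variable {p : ℕ} [hp : Fact p.Prime] [CharP (ResidueField O) p]

/-- The continuous lifts unramified outside `S`. -/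
def liftSet {A : Type} [CommRing A] [IsLocalRing A] [Algebra O A] (W : Rigid O) (h : IsResAlg O A)
    (S : Finset ℕ) : Set (Gal →* M2 A) :=
  {r : Gal →* M2 A | Lifts W h r ∧ IsCont r ∧ ∀ q : ℕ, q.Prime → q ∉ S →
      ∀ P : ValuationSubring QBar, P.LiesOverPrime q →
        ∀ σ ∈ P.inertiaSubgroupIn ℚ, r σ = 1}

omit [Finite (ResidueField O)] [CharP (ResidueField O) p] hp in
theorem finite_lifts {A : Type} [CommRing A] [IsLocalRing A] [Algebra O A] [Finite A] [CharP A p]
    [Fact p.Prime] (hp2 : p ≠ 2) (hA2 : maximalIdeal A ^ 2 = ⊥) (W : Rigid O) (h : IsResAlg O A)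
    (hW : GaloisFactorsThroughFiniteLevel W.rb) (S : Finset ℕ) :
    (liftSet W h S).Finite := by
  classical
  obtain ⟨ζ, hζ⟩ := HasEnoughRootsOfUnity.exists_primitiveRoot QBar p
  obtain ⟨Lr, hLr, hLr'⟩ := hW
  haveI : FiniteDimensional ℚ (IntermediateField.adjoin ℚ {ζ}) :=
    IntermediateField.adjoin.finiteDimensional (Algebra.IsIntegral.isIntegral ζ)
  let M : IntermediateField ℚ QBar := Lr ⊔ IntermediateField.adjoin ℚ {ζ}
  haveI : FiniteDimensional ℚ M := IntermediateField.finiteDimensional_sup _ _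
  let K : IntermediateField ℚ QBar := IntermediateField.normalClosure ℚ M QBar
  haveI : Normal ℚ K := CFT.PT.normal_normalClosure M
  haveI : FiniteDimensional ℚ K := normalClosure.is_finiteDimensional ℚ M QBar
  haveI : IsGalois ℚ K := ⟨⟩
  have hζK : ζ ∈ K := M.le_normalClosure ((le_sup_right (a := Lr))
    (IntermediateField.mem_adjoin_simple_self ℚ ζ))
  have hrK : ∀ σ ∈ K.fixingSubgroup, W.rb σ = 1 := fun σ hσ => hLr' σ fun x hx =>
    (IntermediateField.mem_fixingSubgroup_iff _ _).mp hσ x
      (M.le_normalClosure ((le_sup_left (a := Lr)) hx))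
  obtain ⟨B, hB⟩ := exists_bound_good K
  let T : Finset Nat.Primes := (Finset.range (B + 1) ∪ S).subtype Nat.Prime
  have hT : ∀ q : Nat.Primes, q ∉ T → B < q ∧ (q : ℕ) ∉ S := fun q hq => by
    refine ⟨not_le.mp fun h => hq ?_, fun h => hq ?_⟩
    · exact Finset.mem_subtype.mpr
        (Finset.mem_union_left _ (Finset.mem_range.mpr (Nat.lt_succ_of_le h)))
    · exact Finset.mem_subtype.mpr (Finset.mem_union_right _ h)
  have hK : K.IsUnramifiedOutside T := ⟨inferInstance, fun q hq A hA σ hσ => by
    rw [IntermediateField.mem_fixingSubgroup_iff]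
    exact (restrictNormalHom_eq_one_iff K).mp
      (inertia_fixes_of_good K q.2 (hB _ q.2 (hT q hq).1) hA hσ)⟩
  haveI := (CFT.GW.finite_kumChars (p := p) hp2 hζ hζK hK).to_subtype
  letI : Algebra (ZMod p) A := ZMod.algebra A p
  let L := M2 A →ₗ[ZMod p] ZMod p
  haveI : Finite L := Finite.of_injective (DFunLike.coe : L → M2 A → ZMod p) DFunLike.coe_injective
  set H := liftSet W h S
  have hsmall : ∀ r ∈ H, ∀ σ ∈ K.fixingSubgroup, ∀ i j, (r σ - 1) i j ∈ maximalIdeal A := by
    rintro r ⟨hl, -, -⟩ σ hσ i j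
    have h1 : augment h ((r σ - 1) i j) = 0 := by
      rw [Matrix.sub_apply, map_sub, hl σ i j, hrK σ hσ]
      by_cases hij : i = j <;> simp [hij, Matrix.one_apply]
    exact (Deform.augment_eq_zero_iff h _).mp h1
  have hadd : ∀ r ∈ H, ∀ σ ∈ K.fixingSubgroup, ∀ τ ∈ K.fixingSubgroup,
      r (σ * τ) - 1 = (r σ - 1) + (r τ - 1) := by
    intro r hr σ hσ τ hτ
    have h0 : (r σ - 1) * (r τ - 1) = 0 := by
      refine Matrix.ext fun i j => ?_
      rw [Matrix.mul_apply]
      refine Finset.sum_eq_zero fun l _ => ?_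
      have := Ideal.mul_mem_mul (hsmall r hr σ hσ i l) (hsmall r hr τ hτ l j)
      rwa [← pow_two, hA2, Ideal.mem_bot] at this
    rw [sub_mul, mul_sub, one_mul, mul_one, ← map_mul] at h0
    calc r (σ * τ) - 1 = (r σ - 1) + (r τ - 1) + (r (σ * τ) - r σ - (r τ - 1)) := by abel
      _ = _ := by rw [h0, add_zero]
  have hmem : ∀ r ∈ H, ∀ l : L,
      (fun s : K.fixingSubgroup => l (r (s : GQ) - 1)) ∈ CFT.GW.kumChars p K T := by
    intro r hr l
    obtain ⟨E, hE, hE'⟩ := hr.2.1.finiteLevel hA2
    refine ⟨fun s t => ?_, ⟨E, hE, fun s hs => ?_⟩, fun q hq P hP s hs => ?_⟩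
    · simp only [Subgroup.coe_mul, hadd r hr _ s.2 _ t.2, map_add]
    · show l (r (s : GQ) - 1) = 0
      rw [hE' _ ((IntermediateField.mem_fixingSubgroup_iff _ _).mp hs), sub_self, map_zero]
    · show l (r (s : GQ) - 1) = 0
      rw [hr.2.2 q q.2 (hT q hq).2 P hP _ hs, sub_self, map_zero]
  haveI : Finite (M2 A) := inferInstanceAs (Finite (Fin 2 → Fin 2 → A))
  let Θ : H → (((K ≃ₐ[ℚ] K) → M2 A) × (L → CFT.GW.kumChars p K T)) := fun r =>
    (fun c => r.1 (Function.surjInv (AlgEquiv.restrictNormalHom_surjective QBar) c),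
      fun l => ⟨_, hmem r.1 r.2 l⟩)
  have hΘ : Function.Injective Θ := fun r r' e => by
    rw [Prod.mk.injEq] at e
    refine Subtype.ext (MonoidHom.ext fun σ => ?_)
    set σ₀ := Function.surjInv (AlgEquiv.restrictNormalHom_surjective (K₁ := K) QBar)
      (AlgEquiv.restrictNormalHom K σ) with hσ₀
    have h0 : r.1 σ₀ = r'.1 σ₀ := congrFun e.1 _
    have hker : σ₀⁻¹ * σ ∈ K.fixingSubgroup := by
      rw [IntermediateField.mem_fixingSubgroup_iff]
      refine (restrictNormalHom_eq_one_iff K).mp ?_
      rw [map_mul, map_inv, hσ₀,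
        Function.surjInv_eq (AlgEquiv.restrictNormalHom_surjective (K₁ := K) QBar), inv_mul_cancel]
    have h1 : r.1 (σ₀⁻¹ * σ) - 1 = r'.1 (σ₀⁻¹ * σ) - 1 :=
      (Module.forall_dual_apply_eq_zero_iff (ZMod p) _).mp (fun l => by
        rw [map_sub, sub_eq_zero]
        exact congrFun (congrArg Subtype.val (congrFun e.2 l)) ⟨_, hker⟩) |> sub_eq_zero.mp
    rw [← mul_inv_cancel_left σ₀ σ, map_mul, map_mul r'.1, h0, sub_left_inj.mp h1]
  exact Set.finite_coe_iff.mp (Finite.of_injective Θ hΘ)

/-- The tangent space of a condition implying unramifiedness outside a finite set is finite. -/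
theorem tangentFinite_of_unramified (hp2 : p ≠ 2) {ρbar : ResidualGaloisRep (ResidueField O)}
    (habs : ρbar.IsAbsolutelyIrreducible) {C : Cond O} (S : Finset ℕ)
    (hur : ∀ ⦃A : Type⦄ [CommRing A] [IsLocalRing A] [Algebra O A] (ρ : GaloisRepAdic A),
      C ρ → ∀ q : ℕ, q.Prime → q ∉ S → ρ.IsUnramifiedAt q) :
    GaloisRep.TangentFinite O ρbar C := by
  classical
  letI := dualAlgebra O
  letI algk : Algebra (ResidueField O) (ResidueField (DualNumber (ResidueField O))) :=
    ((IsLocalRing.residue (DualNumber (ResidueField O))).comp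
      (algebraMap (ResidueField O) (DualNumber (ResidueField O)))).toAlgebra
  unfold GaloisRep.TangentFinite
  letI s : Setoid {ρ : GaloisRepAdic (DualNumber (ResidueField O)) //
      C ρ ∧ ρ.residual.IsEquiv
        (ρbar.baseChange (ResidueField (DualNumber (ResidueField O))))} :=
    ⟨fun ρ ρ' => ρ.1.IsEquiv ρ'.1, ⟨fun ρ => Deform.isEquiv_refl ρ.1,
      fun h => Deform.isEquiv_symm h, fun h h' => Deform.isEquiv_trans h h'⟩⟩
  show Finite (Quotient s)
  have hD := Deform.isLevel_dual (𝒪 := O)
  haveI := hD.resAlg.isLocalHom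
  haveI := hD.finite
  haveI : CharP (DualNumber (ResidueField O)) p :=
    charP_of_injective_algebraMap (R := ResidueField O) TrivSqZeroExt.inl_injective p
  let bb : Basis (Fin 2) (ResidueField O) ρbar.V :=
    Module.finBasisOfFinrankEq (ResidueField O) ρbar.V ρbar.finrank_eq
  obtain ⟨W, hW⟩ := Deform.exists_rigid ρbar habs bb
  have hWfin : GaloisFactorsThroughFiniteLevel W.rb := by
    obtain ⟨L, hL, hL'⟩ := ρbar.factorsThroughFiniteLevel
    refine ⟨L, hL, fun σ hσ => ?_⟩
    rw [hW]
    exact (congrArg (LinearMap.toMatrix bb bb) (hL' σ hσ)).trans (LinearMap.toMatrix_one bb)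
  have hres : algebraMap (ResidueField O) (ResidueField (DualNumber (ResidueField O))) =
      ResidueField.map (algebraMap O (DualNumber (ResidueField O))) := by
    refine RingHom.ext fun x => ?_
    obtain ⟨o, rfl⟩ := residue_surjective x
    rfl
  haveI := (finite_lifts (A := DualNumber (ResidueField O)) hp2 hD.pow_eq_bot W hD.resAlg hWfin
    S).to_subtype
  have hpick : ∀ c : Quotient s, ∃ b : Basis (Fin 2) (DualNumber (ResidueField O)) c.out.1.V,
      Lifts W hD.resAlg (matOf c.out.1 b) := fun c => by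
    obtain ⟨e⟩ := c.out.2.2
    obtain ⟨e'⟩ := Deform.baseChangeAlong_residual_congr ρbar _ hres
    exact Deform.exists_lifts_basis hW hD.resAlg _ ⟨e.trans e'⟩
  choose b hb using hpick
  refine Finite.of_injective (fun c : Quotient s => (⟨matOf c.out.1 (b c), hb c,
    Deform.isCont_matOf _ _, fun q hq hqS P hP σ hσ => ?_⟩ : liftSet W hD.resAlg S)) fun c c' e => ?_
  · show LinearMap.toMatrix (b c) (b c) (c.out.1.ρ σ) = 1
    rw [hur _ c.out.2.1 q hq hqS P hP σ hσ, LinearMap.toMatrix_one]
  · rw [← c.out_eq, ← c'.out_eq]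
    refine Quotient.sound ?_
    show c.out.1.IsEquiv c'.out.1
    exact Deform.isEquiv_trans (Deform.isEquiv_toRep_matOf c.out.1 (b c)) (Deform.isEquiv_trans
      (Deform.isEquiv_toRep_congr (congrArg Subtype.val e) _ (Deform.isCont_matOf _ (b c')))
      (Deform.isEquiv_symm (Deform.isEquiv_toRep_matOf c'.out.1 (b c'))))

theorem tangentFinite_lift (hp2 : p ≠ 2) {ρbar : ResidualGaloisRep (ResidueField O)}
    (habs : ρbar.IsAbsolutelyIrreducible) (K : PKind) (N T : Finset ℕ) (s : ℕ → ℤ) :
    GaloisRep.TangentFinite O ρbar (liftCondition O p K N T s) :=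
  tangentFinite_of_unramified hp2 habs _ fun _A _ _ _ _ρ h => h.2.2.1

/-- **Existence of the deformation rings of the lifting theorem.** -/
theorem nonempty_deformationRingData_lift {O : Type} [CommRing O] [IsDomain O]
    [IsDiscreteValuationRing O] [IsAdicComplete (maximalIdeal O) O] [Finite (ResidueField O)]
    {p : ℕ} [Fact p.Prime] (hp2 : p ≠ 2) (hp : (p : O) ∈ maximalIdeal O)
    {ρbar : ResidualGaloisRep (ResidueField O)} (habs : ρbar.IsAbsolutelyIrreducible)
    {K : PKind} {N T : Finset ℕ} {s : ℕ → ℤ}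
    (hbar : liftCondition O p K N T s (GaloisRepAdic.ofResidualGaloisRep ρbar)) :
    Nonempty (GaloisRep.DeformationRingData O ρbar (liftCondition O p K N T s)) := by
  haveI : CharP (ResidueField O) p := by
    refine (CharP.charP_iff_prime_eq_zero Fact.out).mpr ?_
    rw [← map_natCast (residue O), residue_eq_zero_iff]
    exact hp
  exact Deform.exists_deformationRingData O ρbar _ habs (isDeformationCondition_lift hp2 hp K N T s)
    hbar (tangentFinite_lift hp2 habs K N T s)

end Fermat.Agent.Lifting
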