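import Fermat.Agent.Lifting.Deform.NatEnd
import Fermat.Agent.Deform.Level
import Fermat.Agent.CFT.Tangent.Dictionary
import Fermat.Prelude.Def_GaloisRep_DeformationCondition

/-!
# Combinators for deformation conditions

`eqCond` asks a family of natural endomorphisms to vanish, `cycCond` asks congruences modulo powers
of `p` prescribed by the action on roots of unity; both are deformation conditions, and deformation
conditions are closed under conjunctions.
-/

set_option autoImplicit false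
set_option linter.style.haveILetI false

noncomputable section

namespace Fermat.Agent.Lifting

open IsLocalRing Module
open Deform (Gal IsResAlg)

variable (O : Type) [CommRing O] [IsLocalRing O]

/-- A condition on representations over `O`-algebras. -/
abbrev Cond : Type 1 :=
  ∀ ⦃A : Type⦄ [CommRing A] [IsLocalRing A] [Algebra O A], GaloisRepAdic A → Prop

variable {O}

/-- Conjunction. -/
def condAnd (C D : Cond O) : Cond O := fun _A _ _ _ ρ => C ρ ∧ D ρ

/-- Conjunction of a family. -/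
def condForall {ι : Type} (C : ι → Cond O) : Cond O := fun _A _ _ _ ρ => ∀ i, C i ρ

/-- The vanishing of a family of natural endomorphisms. -/
def eqCond {ι : Type} (E : ι → NatEnd) : Cond O := fun _A _ _ _ ρ => ∀ i, (E i).val ρ = 0

/-- Congruences modulo powers of `p` prescribed by the action on roots of unity. -/
def cycCond (p : ℕ) {ι : Type} (σ : ι → Gal) (X Y : ι → NatEnd) : Cond O := fun _A _ _ _ ρ =>
  ∀ (i : ι) (n a : ℕ), (∀ μ : AlgebraicClosure ℚ, μ ^ p ^ n = 1 → σ i μ = μ ^ a) →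
    InSpan (p ^ n) ((X i - NatScalar.int a • Y i).val ρ)

theorem isDeformationCondition_congr {C D : Cond O}
    (h : ∀ ⦃A : Type⦄ [CommRing A] [IsLocalRing A] [Algebra O A],
      IsLocalHom (algebraMap O A) → ∀ ρ : GaloisRepAdic A, C ρ ↔ D ρ)
    (hC : GaloisRep.IsDeformationCondition O C) : GaloisRep.IsDeformationCondition O D where
  of_isEquiv _A _ _ _ hA _ _ he hρ :=
    (h hA.isLocalHom _).mp (hC.of_isEquiv hA he ((h hA.isLocalHom _).mpr hρ))
  baseChangeAlong _A _B _ _ _ _ _ _ hA hB φ hφ _ hρ :=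
    (h hB.isLocalHom _).mp (hC.baseChangeAlong hA hB φ hφ ((h hA.isLocalHom _).mpr hρ))
  of_baseChangeAlong_injective _A _B _ _ _ _ _ _ hA hB φ hφ hinj _ hρ :=
    (h hA.isLocalHom _).mp
      (hC.of_baseChangeAlong_injective hA hB φ hφ hinj ((h hB.isLocalHom _).mpr hρ))
  of_fibreProduct _A _B _C _P _ _ _ _ _ _ _ _ _ _ _ _ hA hB hC' hP f g pA pB hpA hpB hc hinj hsurj
      _ h₁ h₂ :=
    (h hP.isLocalHom _).mp (hC.of_fibreProduct hA hB hC' hP f g pA pB hpA hpB hc hinj hsurj
      ((h hA.isLocalHom _).mpr h₁) ((h hB.isLocalHom _).mpr h₂))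
  iff_forall_surjective _A _ _ _ _ _ hloc hres ρ :=
    ((h hloc ρ).symm.trans (hC.iff_forall_surjective hloc hres ρ)).trans
      ⟨fun H _B _ _ _ hB q hq hqs => (h hB.isLocalHom _).mp (H hB q hq hqs),
        fun H _B _ _ _ hB q hq hqs => (h hB.isLocalHom _).mpr (H hB q hq hqs)⟩

theorem isDeformationCondition_and {C D : Cond O} (hC : GaloisRep.IsDeformationCondition O C)
    (hD : GaloisRep.IsDeformationCondition O D) :
    GaloisRep.IsDeformationCondition O (condAnd C D) where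
  of_isEquiv _A _ _ _ hA _ _ he hρ := ⟨hC.of_isEquiv hA he hρ.1, hD.of_isEquiv hA he hρ.2⟩
  baseChangeAlong _A _B _ _ _ _ _ _ hA hB φ hφ _ hρ :=
    ⟨hC.baseChangeAlong hA hB φ hφ hρ.1, hD.baseChangeAlong hA hB φ hφ hρ.2⟩
  of_baseChangeAlong_injective _A _B _ _ _ _ _ _ hA hB φ hφ hinj _ hρ :=
    ⟨hC.of_baseChangeAlong_injective hA hB φ hφ hinj hρ.1,
      hD.of_baseChangeAlong_injective hA hB φ hφ hinj hρ.2⟩
  of_fibreProduct _A _B _C _P _ _ _ _ _ _ _ _ _ _ _ _ hA hB hC' hP f g pA pB hpA hpB hc hinj hsurj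
      _ h₁ h₂ :=
    ⟨hC.of_fibreProduct hA hB hC' hP f g pA pB hpA hpB hc hinj hsurj h₁.1 h₂.1,
      hD.of_fibreProduct hA hB hC' hP f g pA pB hpA hpB hc hinj hsurj h₁.2 h₂.2⟩
  iff_forall_surjective _A _ _ _ _ _ hloc hres ρ :=
    ((hC.iff_forall_surjective hloc hres ρ).and (hD.iff_forall_surjective hloc hres ρ)).trans
      ⟨fun H _B _ _ _ hB q hq hqs => ⟨H.1 hB q hq hqs, H.2 hB q hq hqs⟩,
        fun H => ⟨fun _B _ _ _ hB q hq hqs => (H hB q hq hqs).1,
          fun _B _ _ _ hB q hq hqs => (H hB q hq hqs).2⟩⟩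

theorem isDeformationCondition_forall {ι : Type} {C : ι → Cond O}
    (hC : ∀ i, GaloisRep.IsDeformationCondition O (C i)) :
    GaloisRep.IsDeformationCondition O (condForall C) where
  of_isEquiv _A _ _ _ hA _ _ he hρ i := (hC i).of_isEquiv hA he (hρ i)
  baseChangeAlong _A _B _ _ _ _ _ _ hA hB φ hφ _ hρ i :=
    (hC i).baseChangeAlong hA hB φ hφ (hρ i)
  of_baseChangeAlong_injective _A _B _ _ _ _ _ _ hA hB φ hφ hinj _ hρ i :=
    (hC i).of_baseChangeAlong_injective hA hB φ hφ hinj (hρ i)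
  of_fibreProduct _A _B _C _P _ _ _ _ _ _ _ _ _ _ _ _ hA hB hC' hP f g pA pB hpA hpB hc hinj hsurj
      _ h₁ h₂ i :=
    (hC i).of_fibreProduct hA hB hC' hP f g pA pB hpA hpB hc hinj hsurj (h₁ i) (h₂ i)
  iff_forall_surjective _A _ _ _ _ _ hloc hres ρ :=
    (forall_congr' fun i => (hC i).iff_forall_surjective hloc hres ρ).trans
      ⟨fun H _B _ _ _ hB q hq hqs i => H i hB q hq hqs,
        fun H i _B _ _ _ hB q hq hqs => H hB q hq hqs i⟩

/-- The condition which always holds. -/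
theorem isDeformationCondition_true :
    GaloisRep.IsDeformationCondition O (fun _A _ _ _ _ => True : Cond O) := by
  constructor <;> intros <;> simp

section Residue

variable {A : Type} [CommRing A] [IsLocalRing A] [Algebra O A]

theorem natCast_mem_of_isLocalHom {p : ℕ} (hp : (p : O) ∈ maximalIdeal O)
    (hA : IsLocalHom (algebraMap O A)) : (p : A) ∈ maximalIdeal A := by
  rw [← map_natCast (algebraMap O A)]
  exact map_nonunit (algebraMap O A) _ hp

theorem exists_natCast_pow_eq_zero [IsArtinianRing A] {p : ℕ} (hp : (p : A) ∈ maximalIdeal A) :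
    ∃ N : ℕ, ∀ M, N ≤ M → ((p ^ M : ℕ) : A) = 0 := by
  obtain ⟨N, hN⟩ := (isArtinianRing_iff_isNilpotent_maximalIdeal A).mp inferInstance
  refine ⟨N, fun M hM => ?_⟩
  have := Ideal.pow_mem_pow hp M
  rw [Nat.cast_pow]
  have h0 : maximalIdeal A ^ M ≤ ⊥ := (Ideal.pow_le_pow_right hM).trans hN.le
  exact (Submodule.mem_bot A).mp (h0 this)

variable [Finite (ResidueField O)] [IsNoetherianRing A]

/-- The tests of the limit axiom applied to the quotients by powers of the maximal ideal. -/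
theorem mem_of_forall_test {I : Ideal A} {x : A} (hloc : IsLocalHom (algebraMap O A))
    (hres : Function.Surjective (IsLocalRing.residue A ∘ algebraMap O A))
    (h : ∀ ⦃B : Type⦄ [CommRing B] [IsLocalRing B] [Algebra O B],
      GaloisRep.IsArtinianTestAlgebra O B → ∀ q : A →ₐ[O] B, IsLocalHom (q : A →+* B) →
        Function.Surjective q → q x ∈ I.map (q : A →+* B)) : x ∈ I := by
  refine mem_of_forall_mem_sup fun N => ?_
  haveI := Deform.isLocalRing_quotient_pow (R := A) N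
  have hB := (Deform.isLevel_quotient (A := A) (⟨hloc, hres⟩ : IsResAlg O A) N).test
  have h1 := h hB (Ideal.Quotient.mkₐ O (maximalIdeal A ^ (N + 1)))
    (IsLocalHom.of_surjective _ Ideal.Quotient.mk_surjective) Ideal.Quotient.mk_surjective
  have h2 : Ideal.Quotient.mk (maximalIdeal A ^ (N + 1)) x ∈
      I.map (Ideal.Quotient.mk (maximalIdeal A ^ (N + 1))) := h1
  exact (Ideal.mem_quotient_iff_mem_sup).mp h2

end Residue

variable [Finite (ResidueField O)]

theorem inSpan_of_forall_test {A : Type} [CommRing A] [IsLocalRing A] [IsNoetherianRing A]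
    [Algebra O A] (hloc : IsLocalHom (algebraMap O A))
    (hres : Function.Surjective (IsLocalRing.residue A ∘ algebraMap O A))
    (X : NatEnd) (ρ : GaloisRepAdic A) {m : ℕ}
    (h : ∀ ⦃B : Type⦄ [CommRing B] [IsLocalRing B] [Algebra O B],
      GaloisRep.IsArtinianTestAlgebra O B → ∀ (q : A →ₐ[O] B) (hq : IsLocalHom (q : A →+* B)),
        Function.Surjective q → InSpan m (X.val (ρ.baseChangeAlong (q : A →+* B) hq))) :
    InSpan m (X.val ρ) := by
  let b := Module.finBasisOfFinrankEq A ρ.V ρ.finrank_eq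
  refine (inSpan_iff_toMatrix b).mpr fun i j => mem_of_forall_test (O := O) hloc hres ?_
  intro B _ _ _ hB q hq hqs
  have h1 := (inSpan_iff_toMatrix (bcBasis (q : A →+* B) hq b)).mp (h hB q hq hqs) i j
  rw [NatEnd.toMatrix_map, Matrix.map_apply] at h1
  rw [Ideal.map_span, Set.image_singleton, map_natCast]
  exact h1

/-- The vanishing of natural endomorphisms is a deformation condition. -/
theorem isDeformationCondition_eqCond {ι : Type} (E : ι → NatEnd) :
    GaloisRep.IsDeformationCondition O (eqCond E) where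
  of_isEquiv _A _ _ _ _ _ _ he hρ i := by
    obtain ⟨e⟩ := he
    rw [(E i).equiv' e, hρ i, map_zero]
  baseChangeAlong _A _B _ _ _ _ _ _ _ _ φ hφ ρ hρ i :=
    inSpan_zero_iff.mp (inSpan_map _ hφ _ ρ (inSpan_zero_iff.mpr (hρ i)))
  of_baseChangeAlong_injective _A _B _ _ _ _ _ _ _ _ φ hφ hinj ρ hρ i :=
    eq_zero_of_map _ hφ hinj _ ρ (hρ i)
  of_fibreProduct _A _B _C _P _ _ _ _ _ _ _ _ _ _ _ _ _ _ _ _ f g pA pB hpA hpB _ hinj _
      ρ h₁ h₂ i :=
    eq_zero_of_pair _ hpA _ hpB hinj _ ρ (h₁ i) (h₂ i)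
  iff_forall_surjective _A _ _ _ _ _ hloc hres ρ :=
    ⟨fun H _B _ _ _ _ q hq _ i =>
        inSpan_zero_iff.mp (inSpan_map _ hq _ ρ (inSpan_zero_iff.mpr (H i))),
      fun H i => inSpan_zero_iff.mp <| inSpan_of_forall_test (O := O) hloc hres _ ρ
        fun _B _ _ _ hB q hq hqs => inSpan_zero_iff.mpr (H hB q hq hqs i)⟩

/-- An exponent at a high level controls the congruences at all lower levels. -/
theorem cyc_of_high {A : Type} [CommRing A] [IsLocalRing A] {p : ℕ} [Fact p.Prime]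
    (ρ : GaloisRepAdic A) (σ : Gal) (X Y : NatEnd) {n a : ℕ}
    (ha : ∀ μ : AlgebraicClosure ℚ, μ ^ p ^ n = 1 → σ μ = μ ^ a) {N a' : ℕ} (hN : n ≤ N)
    (ha' : ∀ μ : AlgebraicClosure ℚ, μ ^ p ^ N = 1 → σ μ = μ ^ a')
    (h : (X - NatScalar.int a' • Y).val ρ = 0) :
    InSpan (p ^ n) ((X - NatScalar.int a • Y).val ρ) := by
  haveI : NeZero (p ^ n) := ⟨pow_ne_zero n (Fact.out : p.Prime).ne_zero⟩
  obtain ⟨ζ, hζ⟩ := HasEnoughRootsOfUnity.exists_primitiveRoot (AlgebraicClosure ℚ) (p ^ n)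
  have hζN : ζ ^ p ^ N = 1 := by
    obtain ⟨c, rfl⟩ := Nat.exists_eq_add_of_le hN
    rw [pow_add, pow_mul, hζ.pow_eq_one, one_pow]
  have he : ζ ^ a' = ζ ^ a := by rw [← ha' ζ hζN, ha ζ hζ.pow_eq_one]
  have hmod : ((a' : ℤ) - a : A) ∈ Ideal.span {((p ^ n : ℕ) : A)} := by
    have hd : ((p ^ n : ℕ) : ℤ) ∣ (a' : ℤ) - a := by
      have hu : (hζ.isUnit (NeZero.ne _)).unit ^ ((a' : ℤ) - a) = 1 := by
        rw [zpow_sub, zpow_natCast, zpow_natCast, mul_inv_eq_one]
        exact Units.ext (by simpa using he)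
      exact ((hζ.isUnit_unit (NeZero.ne _)).zpow_eq_one_iff_dvd _).mp hu
    obtain ⟨c, hc⟩ := hd
    refine Ideal.mem_span_singleton'.mpr ⟨(c : A), ?_⟩
    have := congrArg (Int.cast : ℤ → A) hc
    push_cast at this ⊢
    rw [this, mul_comm]
  have e : (X - NatScalar.int a • Y).val ρ =
      (X - NatScalar.int a' • Y).val ρ + ((a' : ℤ) - a : A) • Y.val ρ := by
    simp only [NatEnd.sub_val, NatEnd.smul_val, NatScalar.int_val, Int.cast_natCast, sub_smul]
    abel
  rw [e, h, zero_add]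
  exact inSpan_smul hmod _

/-- Cyclotomic congruences are a deformation condition. -/
theorem isDeformationCondition_cycCond {p : ℕ} [Fact p.Prime] (hp : (p : O) ∈ maximalIdeal O)
    {ι : Type} (σ : ι → Gal) (X Y : ι → NatEnd) :
    GaloisRep.IsDeformationCondition O (cycCond p σ X Y) where
  of_isEquiv _A _ _ _ _ _ _ he hρ i n a ha := by
    obtain ⟨e⟩ := he
    rw [(X i - NatScalar.int a • Y i).equiv' e]
    intro v
    obtain ⟨w, rfl⟩ := e.toLinearEquiv.surjective v
    rw [LinearEquiv.conj_apply_apply, LinearEquiv.symm_apply_apply]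
    have h := Submodule.mem_map_of_mem (f := e.toLinearEquiv.toLinearMap) (hρ i n a ha w)
    rw [Submodule.map_smul'', Submodule.map_top, LinearEquiv.range] at h
    exact h
  baseChangeAlong _A _B _ _ _ _ _ _ _ _ φ hφ ρ hρ i n a ha := inSpan_map _ hφ _ ρ (hρ i n a ha)
  of_baseChangeAlong_injective A B _ _ _ _ _ _ hA hB φ hφ hinj ρ hρ i n a ha := by
    haveI := hB.isArtinian
    obtain ⟨N, hN⟩ := exists_natCast_pow_eq_zero (natCast_mem_of_isLocalHom hp hB.isLocalHom)
    haveI : NeZero (p ^ (n + N)) := ⟨pow_ne_zero _ (Fact.out : p.Prime).ne_zero⟩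
    obtain ⟨a', ha'⟩ := CFT.Tangent.exists_pow_eq_on_roots (p ^ (n + N)) (σ i)
    exact cyc_of_high ρ _ _ _ ha (Nat.le_add_right n N) ha'
      (eq_zero_of_map _ hφ hinj _ ρ (eq_zero_of_inSpan (hN _ (Nat.le_add_left N n))
        (hρ i _ a' ha')))
  of_fibreProduct A B C P _ _ _ _ _ _ _ _ _ _ _ _ hA hB _ _ f g pA pB hpA hpB _ hinj _
      ρ h₁ h₂ i n a ha := by
    haveI := hA.isArtinian
    haveI := hB.isArtinian
    obtain ⟨N, hN⟩ := exists_natCast_pow_eq_zero (natCast_mem_of_isLocalHom hp hA.isLocalHom)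
    obtain ⟨N', hN'⟩ := exists_natCast_pow_eq_zero (natCast_mem_of_isLocalHom hp hB.isLocalHom)
    haveI : NeZero (p ^ (n + (N + N'))) := ⟨pow_ne_zero _ (Fact.out : p.Prime).ne_zero⟩
    obtain ⟨a', ha'⟩ := CFT.Tangent.exists_pow_eq_on_roots (p ^ (n + (N + N'))) (σ i)
    exact cyc_of_high ρ _ _ _ ha (Nat.le_add_right n _) ha'
      (eq_zero_of_pair _ hpA _ hpB hinj _ ρ
        (eq_zero_of_inSpan (hN _ (by omega)) (h₁ i _ a' ha'))
        (eq_zero_of_inSpan (hN' _ (by omega)) (h₂ i _ a' ha')))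
  iff_forall_surjective _A _ _ _ _ _ hloc hres ρ :=
    ⟨fun H _B _ _ _ _ q hq _ i n a ha => inSpan_map _ hq _ ρ (H i n a ha),
      fun H i n a ha => inSpan_of_forall_test (O := O) hloc hres _ ρ
        fun _B _ _ _ hB q hq hqs => H hB q hq hqs i n a ha⟩

end Fermat.Agent.Lifting
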