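import Fermat.Agent.Lifting.Criterion.Omega
import Fermat.Agent.Lifting.Criterion.Defs

/-!
# Spans in the cotangent module at a point

The class of a ring element in the cotangent module at a point; the growth of the cotangent module
along a map whose kernel is generated by known elements; sizes of spans of solutions of the linear
equations cut out by a Frobenius element.
-/

set_option autoImplicit false
set_option linter.style.haveILetI false

noncomputable section

namespace Fermat.Agent.Lifting

open IsLocalRing Module Criterion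

section Cls

variable {O R : Type} [CommRing O] [CommRing R] [Algebra O R] (y : R →ₐ[O] O)

/-- The class of `r - y r` in the cotangent module at `y`. -/
def phiCls : R →ₗ[O] Phi y where
  toFun r := (RingHom.ker y).toCotangent ⟨r - algebraMap O R (y r), by simp [RingHom.mem_ker]⟩
  map_add' a b := by
    rw [← map_add]
    congr 1
    refine Subtype.ext ?_
    show _ = a - algebraMap O R (y a) + (b - algebraMap O R (y b))
    simp only [map_add]
    ring
  map_smul' o a := by
    rw [RingHom.id_apply, ← IsScalarTower.algebraMap_smul R o ((RingHom.ker y).toCotangent _),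
      ← map_smul]
    congr 1
    refine Subtype.ext ?_
    show _ = algebraMap O R o * (a - algebraMap O R (y a))
    simp only [map_mul, AlgHom.commutes, Algebra.smul_def, Algebra.algebraMap_self,
      RingHom.id_apply]
    ring

theorem phiCls_of_mem {r : R} (hr : y r = 0) :
    phiCls y r = (RingHom.ker y).toCotangent ⟨r, hr⟩ := by
  show (RingHom.ker y).toCotangent _ = _
  congr 1
  exact Subtype.ext (by simp [hr])

theorem phiCls_algebraMap (o : O) : phiCls y (algebraMap O R o) = 0 := by
  show (RingHom.ker y).toCotangent _ = _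
  rw [Ideal.toCotangent_eq_zero]
  simp

theorem phiCls_one : phiCls y 1 = 0 := by
  rw [← map_one (algebraMap O R), phiCls_algebraMap]

theorem phiCls_natCast (n : ℕ) : phiCls y (n : R) = 0 := by
  rw [← map_natCast (algebraMap O R), phiCls_algebraMap]

theorem phiCls_intCast (n : ℤ) : phiCls y (n : R) = 0 := by
  rw [← map_intCast (algebraMap O R), phiCls_algebraMap]

theorem phiCls_mul (a b : R) : phiCls y (a * b) = y a • phiCls y b + y b • phiCls y a := by
  show (RingHom.ker y).toCotangent _ = y a • (RingHom.ker y).toCotangent _ +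
    y b • (RingHom.ker y).toCotangent _
  rw [← IsScalarTower.algebraMap_smul R (y a) ((RingHom.ker y).toCotangent _),
    ← IsScalarTower.algebraMap_smul R (y b) ((RingHom.ker y).toCotangent _),
    ← map_smul, ← map_smul, ← map_add, Ideal.toCotangent_eq, sq]
  have key := Ideal.mul_mem_mul
    (show a - algebraMap O R (y a) ∈ RingHom.ker y by simp [RingHom.mem_ker])
    (show b - algebraMap O R (y b) ∈ RingHom.ker y by simp [RingHom.mem_ker])
  convert key using 1
  show a * b - algebraMap O R (y (a * b)) -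
    (algebraMap O R (y a) * (b - algebraMap O R (y b)) +
      algebraMap O R (y b) * (a - algebraMap O R (y a))) = _
  rw [map_mul, map_mul]
  ring

theorem phiCls_mul_of_mem {a b : R} (ha : y a = 0) (hb : y b = 0) : phiCls y (a * b) = 0 := by
  rw [phiCls_mul, ha, hb, zero_smul, zero_smul, add_zero]

theorem phiCls_mem_span {S : Set R} (hS : ∀ a ∈ S, y a = 0) {a : R} (ha : a ∈ Ideal.span S) :
    y a = 0 ∧ phiCls y a ∈ Submodule.span O (phiCls y '' S) := by
  induction ha using Submodule.span_induction with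
  | mem a ha => exact ⟨hS a ha, Submodule.subset_span (Set.mem_image_of_mem _ ha)⟩
  | zero => simp
  | add a b _ _ iha ihb => exact ⟨by rw [map_add, iha.1, ihb.1, add_zero],
      by rw [map_add]; exact add_mem iha.2 ihb.2⟩
  | smul r a _ iha =>
    refine ⟨by rw [smul_eq_mul, map_mul, iha.1, mul_zero], ?_⟩
    rw [smul_eq_mul, phiCls_mul, iha.1, zero_smul, add_zero]
    exact Submodule.smul_mem _ _ iha.2

/-- Growth of the cotangent module along `π`, whose kernel lies in the span of `S` in the sense
that the quotient map factors through `π`. -/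
theorem card_phi_le_mul {R0 : Type} [CommRing R0] [Algebra O R0] (x : R0 →ₐ[O] O)
    (π : R →ₐ[O] R0) (hy : x.comp π = y) {S : Set R} (hS : ∀ a ∈ S, y a = 0)
    (ψ : R0 →ₐ[O] R ⧸ Ideal.span S) (hψ : ∀ r, ψ (π r) = Ideal.Quotient.mk _ r)
    (hxψ : ∀ r r0, Ideal.Quotient.mk (Ideal.span S) r = ψ r0 → y r = x r0)
    [Finite (Phi x)] [Finite (Submodule.span O (phiCls y '' S))] :
    Finite (Phi y) ∧
      Nat.card (Phi y) ≤ Nat.card (Phi x) * Nat.card (Submodule.span O (phiCls y '' S)) := by
  subst hy
  set J := RingHom.ker (x.comp π)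
  set W := Submodule.span O (phiCls (x.comp π) '' S)
  let f : Phi (x.comp π) →ₗ[O] Phi x := Ideal.mapCotangent J (RingHom.ker x) π fun r hr => hr
  have hker : LinearMap.ker f ≤ W := by
    intro c hc
    obtain ⟨⟨r, hr⟩, rfl⟩ := J.toCotangent_surjective c
    rw [LinearMap.mem_ker, Ideal.mapCotangent_toCotangent, Ideal.toCotangent_eq_zero] at hc
    have h1 : Ideal.Quotient.mk (Ideal.span S) r ∈
        (J.map (Ideal.Quotient.mk (Ideal.span S))) ^ 2 := by
      rw [← hψ]
      refine Ideal.pow_right_mono ?_ 2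
        (Ideal.map_pow (ψ : R0 →+* R ⧸ Ideal.span S) (RingHom.ker x) 2 ▸
          Ideal.mem_map_of_mem (ψ : R0 →+* R ⧸ Ideal.span S) hc)
      rw [Ideal.map_le_iff_le_comap]
      intro r0 hr0
      obtain ⟨r', hr'⟩ := Ideal.Quotient.mk_surjective (ψ r0)
      rw [Ideal.mem_comap]
      refine hr' ▸ Ideal.mem_map_of_mem _ (RingHom.mem_ker.mpr ?_)
      rw [hxψ r' r0 hr']
      exact hr0
    rw [← Ideal.map_pow] at h1
    obtain ⟨j, hj, hjr⟩ :=
      (Ideal.mem_map_iff_of_surjective _ Ideal.Quotient.mk_surjective).mp h1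
    have hd : r - j ∈ Ideal.span S := Ideal.Quotient.eq.mp hjr.symm
    obtain ⟨hd0, hdW⟩ := phiCls_mem_span _ hS hd
    have hj0 : phiCls (x.comp π) j = 0 := by
      rw [phiCls_of_mem _ (Ideal.pow_le_self two_ne_zero hj), Ideal.toCotangent_eq_zero]
      exact hj
    rw [← phiCls_of_mem _ hr, show r = j + (r - j) by ring, map_add, hj0, zero_add]
    exact hdW
  haveI : Finite (LinearMap.ker f) :=
    Finite.of_injective _ (Submodule.inclusion_injective hker)
  haveI : Finite (Phi (x.comp π) ⧸ LinearMap.ker f) :=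
    Finite.of_equiv _ f.quotKerEquivRange.symm.toEquiv
  refine ⟨Nat.finite_of_card_ne_zero (by
    rw [Submodule.card_eq_card_quotient_mul_card (LinearMap.ker f)]
    exact mul_ne_zero Nat.card_pos.ne' Nat.card_pos.ne'), ?_⟩
  rw [Submodule.card_eq_card_quotient_mul_card (LinearMap.ker f), mul_comm (Nat.card (Phi x))]
  exact Nat.mul_le_mul (Nat.card_le_card_of_injective _ (Submodule.inclusion_injective hker))
    ((Nat.card_congr f.quotKerEquivRange.toEquiv).le.trans
      (Nat.card_le_card_of_injective _ Subtype.val_injective))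

end Cls

section Bounds

variable {O : Type} [CommRing O] {P : Type} [AddCommGroup P] [Module O P]

/-- A span all of whose generators factor through a small quotient is small. -/
theorem card_range_le {M : Type} [AddCommGroup M] [Module O M] (L : M →ₗ[O] P) {U : Submodule O M}
    (hU : U ≤ LinearMap.ker L) [Finite (M ⧸ U)] :
    Finite (LinearMap.range L) ∧ Nat.card (LinearMap.range L) ≤ Nat.card (M ⧸ U) := by
  have hs : Function.Surjective (U.liftQ L.rangeRestrict fun u hu => Subtype.ext (hU hu)) := by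
    rintro ⟨_, m, rfl⟩
    exact ⟨Submodule.Quotient.mk m, rfl⟩
  exact ⟨Finite.of_surjective _ hs, Nat.card_le_card_of_surjective _ hs⟩

theorem card_span_le_of_cyclic [IsDomain O] [IsDiscreteValuationRing O] [Finite (ResidueField O)]
    {G : Set P} {m : P} (hG : ∀ g ∈ G, g ∈ O ∙ m) {d c : O} (hd : d • m = 0) (hdc : d ∣ c)
    (hc : c ≠ 0) :
    Finite (Submodule.span O G) ∧
      Nat.card (Submodule.span O G) ≤ Nat.card (O ⧸ Ideal.span {c}) := by
  have hle : Submodule.span O G ≤ LinearMap.range (LinearMap.toSpanSingleton O P m) := by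
    rw [LinearMap.range_toSpanSingleton, Submodule.span_le]
    exact hG
  have hU : Ideal.span {c} ≤ LinearMap.ker (LinearMap.toSpanSingleton O P m) := by
    rw [Ideal.span_le, Set.singleton_subset_iff]
    obtain ⟨e, rfl⟩ := hdc
    show (d * e) • m = 0
    rw [mul_comm, mul_smul, hd, smul_zero]
  haveI := finite_quot_span (O := O) hc
  obtain ⟨hf, hcard⟩ := card_range_le (LinearMap.toSpanSingleton O P m) hU
  exact ⟨Finite.of_injective _ (Submodule.inclusion_injective hle),
    (Nat.card_le_card_of_injective _ (Submodule.inclusion_injective hle)).trans hcard⟩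

theorem mem_span_singleton_of_isUnit {u v : O} (hu : IsUnit u) {a z : P}
    (h : u • a + v • z = 0) : a ∈ O ∙ z := by
  refine Submodule.mem_span_singleton.mpr ⟨-(↑hu.unit⁻¹ * v), ?_⟩
  rw [neg_smul, mul_smul, eq_neg_of_add_eq_zero_right h, smul_neg, smul_smul, IsUnit.val_inv_mul,
    one_smul, neg_neg]

/-- A matrix killed on both sides by matrices which do not vanish residually has entries in a cyclic
module killed by the determinant. -/
theorem exists_cyclic {A B : Matrix (Fin 2) (Fin 2) O} (hA : ∃ i j, IsUnit (A i j))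
    (hB : ∃ i j, IsUnit (B i j)) (n : Fin 2 → Fin 2 → P)
    (hAn : ∀ i j, A 0 j • n i 0 + A 1 j • n i 1 = 0)
    (hBn : ∀ i j, B i 0 • n 0 j + B i 1 • n 1 j = 0) :
    ∃ m : P, (∀ i j, n i j ∈ O ∙ m) ∧ A.det • m = 0 := by
  have hdet : ∀ i j, A.det • n i j = 0 := by
    intro i j
    rw [Matrix.det_fin_two]
    fin_cases j
    · calc (A 0 0 * A 1 1 - A 0 1 * A 1 0) • n i 0
          = A 1 1 • (A 0 0 • n i 0 + A 1 0 • n i 1) -
              A 1 0 • (A 0 1 • n i 0 + A 1 1 • n i 1) := by module
        _ = 0 := by rw [hAn, hAn, smul_zero, smul_zero, sub_zero]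
    · calc (A 0 0 * A 1 1 - A 0 1 * A 1 0) • n i 1
          = A 0 0 • (A 0 1 • n i 0 + A 1 1 • n i 1) -
              A 0 1 • (A 0 0 • n i 0 + A 1 0 • n i 1) := by module
        _ = 0 := by rw [hAn, hAn, smul_zero, smul_zero, sub_zero]
  obtain ⟨a, ha⟩ : ∃ a, ∀ i j, n i j ∈ O ∙ n i a := by
    obtain ⟨k, l, hu⟩ := hA
    fin_cases k
    · refine ⟨1, fun i j => ?_⟩
      fin_cases j
      · exact mem_span_singleton_of_isUnit hu (hAn i l)
      · exact Submodule.mem_span_singleton_self _
    · refine ⟨0, fun i j => ?_⟩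
      fin_cases j
      · exact Submodule.mem_span_singleton_self _
      · exact mem_span_singleton_of_isUnit hu (by rw [add_comm]; exact hAn i l)
  obtain ⟨c, hc⟩ : ∃ c, ∀ i j, n i j ∈ O ∙ n c j := by
    obtain ⟨k, l, hu⟩ := hB
    fin_cases l
    · refine ⟨1, fun i j => ?_⟩
      fin_cases i
      · exact mem_span_singleton_of_isUnit hu (hBn k j)
      · exact Submodule.mem_span_singleton_self _
    · refine ⟨0, fun i j => ?_⟩
      fin_cases i
      · exact Submodule.mem_span_singleton_self _
      · exact mem_span_singleton_of_isUnit hu (by rw [add_comm]; exact hBn k j)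
  refine ⟨n c a, fun i j => ?_, hdet c a⟩
  exact (Submodule.span_singleton_le_iff_mem _ _).mpr (ha c j) (hc i j)

/-- The linear map of a trace zero matrix given by the conjugation by a Frobenius element minus
`q`, in coordinates and times the determinant. -/
def adMat (q : O) (F : Matrix (Fin 2) (Fin 2) O) : Fin 3 → Fin 3 → O :=
  ![![F 0 0 * F 1 1 + F 0 1 * F 1 0 - q * F.det, -(F 0 0 * F 1 0), F 0 1 * F 1 1],
    ![-(2 * (F 0 0 * F 0 1)), F 0 0 ^ 2 - q * F.det, -(F 0 1 ^ 2)],
    ![2 * (F 1 0 * F 1 1), -(F 1 0 ^ 2), F 1 1 ^ 2 - q * F.det]]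

theorem det_adMat (q : O) (F : Matrix (Fin 2) (Fin 2) O) :
    (Matrix.of (adMat q F)).det =
      F.det ^ 2 * (1 - q) * (F.det * (1 + q) ^ 2 - q * F.trace ^ 2) := by
  rw [Matrix.det_fin_three, Matrix.trace_fin_two]
  simp [adMat, Matrix.det_fin_two]
  ring

/-- **The tame relation bounds the span.** -/
theorem card_span_le_of_adjoint [IsDomain O] [IsDiscreteValuationRing O] [Finite (ResidueField O)]
    {F : Matrix (Fin 2) (Fin 2) O} {q : O} (hFq : F.det = q) (hq : IsUnit q)
    (n : Fin 2 → Fin 2 → P) (htr : n 1 1 = -n 0 0)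
    (hF : ∀ i j, F i 0 • n 0 j + F i 1 • n 1 j = q • (F 0 j • n i 0 + F 1 j • n i 1)) {c : O}
    (hdc : (q - 1) * ((q + 1) ^ 2 - F.trace ^ 2) ∣ c) (hc : c ≠ 0) :
    Finite (Submodule.span O (Set.range fun ij : Fin 2 × Fin 2 => n ij.1 ij.2)) ∧
      Nat.card (Submodule.span O (Set.range fun ij : Fin 2 × Fin 2 => n ij.1 ij.2)) ≤
        Nat.card (O ⧸ Ideal.span {c}) := by
  set d := (q - 1) * ((q + 1) ^ 2 - F.trace ^ 2) with hd
  have hd0 : d ≠ 0 := fun h => hc (by rw [h] at hdc; exact zero_dvd_iff.mp hdc)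
  let L : (Fin 3 → O) →ₗ[O] P := Fintype.linearCombination O ![n 0 0, n 0 1, n 1 0]
  have hLe : ∀ u : Fin 3 → O, L u = u 0 • n 0 0 + u 1 • n 0 1 + u 2 • n 1 0 := fun u => by
    simp [L, Fintype.linearCombination_apply, Fin.sum_univ_three]
  have hle : Submodule.span O (Set.range fun ij : Fin 2 × Fin 2 => n ij.1 ij.2) ≤
      LinearMap.range L := by
    rw [Submodule.span_le]
    rintro _ ⟨⟨i, j⟩, rfl⟩
    fin_cases i <;> fin_cases j
    · exact ⟨![1, 0, 0], by simp [hLe]⟩
    · exact ⟨![0, 1, 0], by simp [hLe]⟩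
    · exact ⟨![0, 0, 1], by simp [hLe]⟩
    · exact ⟨![-1, 0, 0], by simp [hLe, htr]⟩
  have hrow : ∀ k, adMat q F k ∈ LinearMap.ker L := by
    have e00 := hF 0 0
    have e01 := hF 0 1
    have e10 := hF 1 0
    have e11 := hF 1 1
    rw [htr] at e01 e10 e11
    intro k
    rw [LinearMap.mem_ker, hLe]
    fin_cases k <;> simp [adMat, Matrix.det_fin_two]
    · linear_combination (norm := module) F 1 1 • e00 - F 1 0 • e01
    · linear_combination (norm := module) F 0 0 • e01 - F 0 1 • e00
    · linear_combination (norm := module) F 1 1 • e10 - F 1 0 • e11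
  have hdet : (Matrix.of (adMat q F)).det = -(q ^ 3) * d := by
    rw [det_adMat, hFq, hd]
    ring
  have hne : (Matrix.of (adMat q F)).det ≠ 0 := by
    rw [hdet]
    exact mul_ne_zero (neg_ne_zero.mpr (pow_ne_zero _ hq.ne_zero)) hd0
  have hcard : Nat.card ((Fin 3 → O) ⧸ Submodule.span O (Set.range (adMat q F))) =
      Nat.card (O ⧸ Ideal.span {d}) := by
    rw [Criterion.card_quot_span_range_det
      ((Criterion.linearIndependent_iff_det_ne_zero _).mpr hne), hdet,
      Ideal.span_singleton_mul_left_unit (hq.pow 3).neg]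
  haveI := finite_quot_span (O := O) hd0
  haveI := finite_quot_span (O := O) hc
  haveI : Finite ((Fin 3 → O) ⧸ Submodule.span O (Set.range (adMat q F))) :=
    Nat.finite_of_card_ne_zero (hcard ▸ Nat.card_pos.ne')
  obtain ⟨hf, hle'⟩ := card_range_le L (Submodule.span_le.mpr (Set.range_subset_iff.mpr hrow))
  refine ⟨Finite.of_injective _ (Submodule.inclusion_injective hle), ?_⟩
  refine ((Nat.card_le_card_of_injective _ (Submodule.inclusion_injective hle)).trans hle').trans ?_
  rw [hcard]
  refine Nat.card_le_card_of_surjective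
    (Ideal.Quotient.factor (Ideal.span_singleton_le_span_singleton.mpr hdc)) ?_
  exact Ideal.Quotient.factor_surjective _

theorem finite_card_iSup_le {ι : Type} (T : Finset ι) (W : ι → Submodule O P) (c : ι → ℕ)
    (h : ∀ q ∈ T, Finite (W q) ∧ Nat.card (W q) ≤ c q) :
    Finite ↥(T.sup W) ∧ Nat.card ↥(T.sup W) ≤ ∏ q ∈ T, c q := by
  classical
  induction T using Finset.induction_on with
  | empty =>
    rw [Finset.sup_empty, Finset.prod_empty]
    exact ⟨inferInstance, le_of_eq Nat.card_unique⟩
  | @insert a T ha ih =>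
    obtain ⟨h1, h2⟩ := ih fun q hq => h q (Finset.mem_insert_of_mem hq)
    obtain ⟨h3, h4⟩ := h a (Finset.mem_insert_self a T)
    rw [Finset.sup_insert, Finset.prod_insert ha]
    have hs : Function.Surjective fun x : W a × ↥(T.sup W) =>
        (⟨x.1.1 + x.2.1, Submodule.add_mem_sup x.1.2 x.2.2⟩ : ↥(W a ⊔ T.sup W)) := fun z => by
      obtain ⟨u, hu, v, hv, e⟩ := Submodule.mem_sup.mp z.2
      exact ⟨(⟨u, hu⟩, ⟨v, hv⟩), Subtype.ext e⟩
    exact ⟨Finite.of_surjective _ hs, (Nat.card_le_card_of_surjective _ hs).trans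
      ((Nat.card_prod _ _).le.trans (Nat.mul_le_mul h4 h2))⟩

end Bounds

end Fermat.Agent.Lifting
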