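import Fermat.Agent.Lifting.Deform.Universal
import Fermat.Agent.Lifting.Deform.Span
import Fermat.Agent.CFT.Local.Global

/-!
# Growth of the cotangent module from the minimal level

For a point of the minimal ring the cotangent module at the composed point of the ring of raising
set `T` is at most the minimal one times the product of the local factors: `(q - 1) ((q+1)² - a²)`
for `q ≡ 1` modulo `p`, `q + 1 - s a` for the other `q ≠ p`, and `z ² - 1` at `p`.
-/

set_option autoImplicit false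
set_option linter.style.haveILetI false

noncomputable section

namespace Fermat.Agent.Lifting

open IsLocalRing Module
open scoped Pointwise
open Fermat.Agent.Arith (QBar)
open Fermat.Agent.CFT.Flat (inG decG nrm_root)
open Fermat.Agent.Deform (Gal M2 mapM matOf toRep IsCont IsResAlg)

section Det

variable {A : Type} [CommRing A] [IsLocalRing A] [IsAdicComplete (maximalIdeal A) A]
  {ρ : GaloisRepAdic A} {p : ℕ} [hp : Fact p.Prime]

omit hp in
/-- A cyclotomic determinant at an element acting by a fixed power on all `p`-power roots. -/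
theorem det_eq_natCast (hdet : ρ.DetIsCyclotomic p) {σ : Gal} {a : ℕ}
    (ha : ∀ (n : ℕ) (μ : QBar), μ ^ p ^ n = 1 → σ μ = μ ^ a) :
    LinearMap.det (ρ.ρ σ) = (a : A) := by
  rw [← sub_eq_zero]
  refine IsHausdorff.haus (I := maximalIdeal A) inferInstance _ fun k => ?_
  rw [SModEq.zero, smul_eq_mul, Ideal.mul_top]
  refine Ideal.span_le.mpr (Set.singleton_subset_iff.mpr ?_) (hdet.2 k σ a (ha k))
  rw [Nat.cast_pow]
  exact Ideal.pow_mem_pow hdet.1 k

theorem det_inertia (hdet : ρ.DetIsCyclotomic p) {q : ℕ} (hq : q.Prime) (hqp : q ≠ p)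
    {P : ValuationSubring QBar} (hP : P.LiesOverPrime q) {σ : Gal}
    (hσ : σ ∈ P.inertiaSubgroupIn ℚ) : LinearMap.det (ρ.ρ σ) = 1 := by
  rw [det_eq_natCast hdet (a := 1) fun _ _ hμ => ?_, Nat.cast_one]
  rw [pow_one]
  exact Arith.inertia_root hP hq hσ hμ fun h =>
    hqp ((Nat.prime_dvd_prime_iff_eq hq hp.out).mp (hq.dvd_of_dvd_pow h))

theorem det_frobenius (hdet : ρ.DetIsCyclotomic p) {q : ℕ} (hq : q.Prime) (hqp : q ≠ p)
    {P : ValuationSubring QBar} (hP : P.LiesOverPrime q) {F : Gal} (hF : P.IsFrobeniusAt F q) :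
    LinearMap.det (ρ.ρ F) = (q : A) :=
  det_eq_natCast hdet fun _ _ hμ => Arith.frobenius_root hP hq hF hμ fun h =>
    hqp ((Nat.prime_dvd_prime_iff_eq hq hp.out).mp (hq.dvd_of_dvd_pow h))

theorem det_kummer (hdet : ρ.DetIsCyclotomic p) {σ : Gal} (hσ : Deform.IsKummerElt p σ) :
    LinearMap.det (ρ.ρ σ) = 1 := by
  rw [det_eq_natCast hdet (a := 1) fun n μ hμ => ?_, Nat.cast_one]
  rw [pow_one]
  exact hσ.fixes n μ (fun g _ => by rw [hμ, map_one]) (nrm_root p (pow_pos hp.out.pos n) hμ)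

omit [IsAdicComplete (maximalIdeal A) A] hp in
theorem det_matOf (b : Basis (Fin 2) A ρ.V) (σ : Gal) :
    (matOf ρ b σ).det = LinearMap.det (ρ.ρ σ) :=
  LinearMap.det_toMatrix b (ρ.ρ σ)

omit [IsAdicComplete (maximalIdeal A) A] hp in
/-- A basis of an equivalent base change. -/
theorem exists_basis_map {B : Type} [CommRing B] [IsLocalRing B] (φ : A →+* B)
    (hφ : IsLocalHom φ) (b : Basis (Fin 2) A ρ.V) {ρ' : GaloisRepAdic B}
    (he : (ρ.baseChangeAlong φ hφ).IsEquiv ρ') :
    ∃ b' : Basis (Fin 2) B ρ'.V, matOf ρ' b' = mapM φ (matOf ρ b) := by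
  obtain ⟨e⟩ := he
  refine ⟨(bcBasis φ hφ b).map e.toLinearEquiv, MonoidHom.ext fun σ => Matrix.ext fun i j => ?_⟩
  rw [Fermat.Agent.Deform.matOf_apply, Basis.map_apply, ← e.map_apply, Basis.map_repr,
    LinearEquiv.trans_apply, LinearEquiv.symm_apply_apply, ← matOf_bcBasis φ hφ b,
    Fermat.Agent.Deform.matOf_apply]

end Det

section Cls

variable {O R : Type} [CommRing O] [CommRing R] [Algebra O R] (y : R →ₐ[O] O)

theorem phiCls_mul_apply (X Y : M2 R) (i j : Fin 2) :
    phiCls y ((X * Y) i j) = y (X i 0) • phiCls y (Y 0 j) + y (Y 0 j) • phiCls y (X i 0) +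
      (y (X i 1) • phiCls y (Y 1 j) + y (Y 1 j) • phiCls y (X i 1)) := by
  rw [Matrix.mul_apply, Fin.sum_univ_two, map_add, phiCls_mul, phiCls_mul]

theorem phiCls_sub_one (X : M2 R) (i j : Fin 2) :
    phiCls y ((X - 1) i j) = phiCls y (X i j) := by
  rw [Matrix.sub_apply, map_sub]
  by_cases h : i = j
  · rw [h, Matrix.one_apply_eq, phiCls_one, sub_zero]
  · rw [Matrix.one_apply_ne h, map_zero, sub_zero]

theorem apply_eq_one_apply {X : M2 R} (hX : ∀ i j, y ((X - 1) i j) = 0) (i j : Fin 2) :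
    y (X i j) = (1 : M2 O) i j := by
  have h := hX i j
  rw [Matrix.sub_apply, map_sub, sub_eq_zero] at h
  rw [h]
  by_cases hij : i = j <;> simp [hij, Matrix.one_apply]

theorem phiCls_pow_apply {X : M2 R} (hX : ∀ i j, y ((X - 1) i j) = 0) (k : ℕ) :
    (∀ i j, y ((X ^ k) i j) = (1 : M2 O) i j) ∧
      ∀ i j, phiCls y ((X ^ k) i j) = (k : O) • phiCls y (X i j) := by
  induction k with
  | zero =>
    refine ⟨fun i j => ?_, fun i j => ?_⟩ <;> rw [pow_zero] <;> by_cases hij : i = j <;>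
      simp [hij, Matrix.one_apply, phiCls_one]
  | succ k ih =>
    refine ⟨fun i j => ?_, fun i j => ?_⟩
    · rw [pow_succ, Matrix.mul_apply, map_sum, Fin.sum_univ_two, map_mul, map_mul, ih.1, ih.1,
        apply_eq_one_apply y hX, apply_eq_one_apply y hX]
      fin_cases i <;> fin_cases j <;> simp [Matrix.one_apply]
    · rw [pow_succ, phiCls_mul_apply, ih.1, ih.1, apply_eq_one_apply y hX, apply_eq_one_apply y hX,
        ih.2, ih.2, Nat.cast_succ]
      fin_cases i <;> fin_cases j <;> simp [Matrix.one_apply] <;> module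

end Cls

section Local

variable {O : Type} [CommRing O] [IsDomain O] [IsDiscreteValuationRing O] [Finite (ResidueField O)]
  {p : ℕ} [hp : Fact p.Prime]
  {A : Type} [CommRing A] [IsLocalRing A] [IsNoetherianRing A]
  [IsAdicComplete (maximalIdeal A) A] [Algebra O A] {ρ : GaloisRepAdic A}

/-- The local factor at a prime `q ≠ p` with Frobenius trace `a`. -/
def tameConst (O : Type) [CommRing O] (p q : ℕ) (s : ℤ) (a : O) : O :=
  if q % p = 1 then ((q : O) - 1) * (((q : O) + 1) ^ 2 - a ^ 2) else (q : O) + 1 - (s : O) * a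

omit [IsDomain O] [IsDiscreteValuationRing O] [Finite (ResidueField O)] in
theorem isUnit_natCast_of_ne [IsLocalRing O] (hpO : (p : O) ∈ maximalIdeal O) {q : ℕ} (hq : q.Prime)
    (hqp : q ≠ p) : IsUnit (q : O) := by
  haveI : CharP (ResidueField O) p := by
    refine (CharP.charP_iff_prime_eq_zero hp.out).mpr ?_
    rw [← map_natCast (residue O), residue_eq_zero_iff]
    exact hpO
  rw [← IsLocalRing.notMem_maximalIdeal, ← residue_eq_zero_iff, map_natCast,
    CharP.cast_eq_zero_iff (ResidueField O) p]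
  exact fun h => hqp ((Nat.prime_dvd_prime_iff_eq hp.out hq).mp h).symm

omit [IsDomain O] [IsDiscreteValuationRing O] [Finite (ResidueField O)] in
theorem natCast_sub_one_notMem [IsLocalRing O] (hpO : (p : O) ∈ maximalIdeal O) {q : ℕ}
    (h1 : q % p ≠ 1) : (q : O) - 1 ∉ maximalIdeal O := by
  intro h
  haveI : CharP (ResidueField O) p := by
    refine (CharP.charP_iff_prime_eq_zero hp.out).mpr ?_
    rw [← map_natCast (residue O), residue_eq_zero_iff]
    exact hpO
  have h2 : ((q : ℕ) : ResidueField O) = ((1 : ℕ) : ResidueField O) := by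
    rw [Nat.cast_one, ← sub_eq_zero, ← map_natCast (residue O), ← map_one (residue O), ← map_sub,
      residue_eq_zero_iff]
    exact h
  exact h1 (Eq.trans ((CharP.natCast_eq_natCast _ p).mp h2) (Nat.one_mod_eq_one.mpr hp.out.ne_one))

omit [IsDomain O] [IsDiscreteValuationRing O] [Finite (ResidueField O)] hp in
theorem exists_isUnit_entry [IsLocalRing O] {F : M2 O} {t : O}
    (h : F.det - t ^ 2 ∉ maximalIdeal O) : ∃ i j, IsUnit ((F - t • 1) i j) := by
  by_contra hcon
  push Not at hcon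
  have hm : ∀ i j, (F - t • 1) i j ∈ maximalIdeal O := hcon
  refine h ?_
  have e : F.det - t ^ 2 = (F - t • 1) 0 0 * F 1 1 + t * (F - t • 1) 1 1 -
      (F - t • 1) 0 1 * F 1 0 := by
    rw [Matrix.det_fin_two]
    simp
    ring
  rw [e]
  exact sub_mem (add_mem (Ideal.mul_mem_right _ _ (hm 0 0)) (Ideal.mul_mem_left _ _ (hm 1 1)))
    (Ideal.mul_mem_right _ _ (hm 0 1))

omit [IsDomain O] [IsDiscreteValuationRing O] [Finite (ResidueField O)] hp in
theorem det_sub_smul_one (F : M2 O) (t : O) :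
    (F - t • 1).det = F.det - t * F.trace + t ^ 2 := by
  rw [Matrix.det_fin_two, Matrix.det_fin_two, Matrix.trace_fin_two]
  simp
  ring

section Relation

variable {R : Type} [CommRing R] [Algebra O R] (y : R →ₐ[O] O) {X Y : M2 R} {G : M2 O}

omit hp in
/-- The tame relation and determinant one. -/
theorem card_span_of_relation (hG : ∀ i j, y (Y i j) = G i j) (hX : ∀ i j, y ((X - 1) i j) = 0)
    (hdetX : X.det = 1) {q : ℕ} (hdetG : G.det = (q : O)) (hq : IsUnit (q : O))
    (hrel : Y * X = X ^ q * Y) {c : O} (hc : c ≠ 0)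
    (hdvd : ((q : O) - 1) * (((q : O) + 1) ^ 2 - G.trace ^ 2) ∣ c) :
    Finite (Submodule.span O (phiCls y '' Set.range fun ij : Fin 2 × Fin 2 => (X - 1) ij.1 ij.2)) ∧
      Nat.card (Submodule.span O
        (phiCls y '' Set.range fun ij : Fin 2 × Fin 2 => (X - 1) ij.1 ij.2)) ≤
        Nat.card (O ⧸ Ideal.span {c}) := by
  have h1 := apply_eq_one_apply y hX
  have e : (phiCls y '' Set.range fun ij : Fin 2 × Fin 2 => (X - 1) ij.1 ij.2) =
      Set.range fun ij : Fin 2 × Fin 2 => (fun i j => phiCls y (X i j)) ij.1 ij.2 := by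
    rw [← Set.range_comp]
    exact congrArg Set.range (funext fun ij => phiCls_sub_one y X _ _)
  rw [e]
  refine card_span_le_of_adjoint (P := Phi y) (n := fun i j => phiCls y (X i j)) hdetG hq ?_ (fun i j => ?_) hdvd hc
  · rw [Matrix.det_fin_two] at hdetX
    have h := congrArg (phiCls y) hdetX
    rw [map_sub, phiCls_mul, phiCls_mul, phiCls_one, h1, h1, h1, h1] at h
    rw [eq_neg_iff_add_eq_zero]
    simpa [Matrix.one_apply] using h
  · have h := congrArg (fun M : M2 R => phiCls y (M i j)) hrel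
    simp only [phiCls_mul_apply, (phiCls_pow_apply y hX q).1, (phiCls_pow_apply y hX q).2, h1,
      hG] at h
    fin_cases i <;> fin_cases j <;> simp [Matrix.one_apply] at h ⊢ <;>
      linear_combination (norm := module) h

/-- The signed relations. -/
theorem card_span_of_signed (hpO : (p : O) ∈ maximalIdeal O) (hG : ∀ i j, y (Y i j) = G i j)
    (hX : ∀ i j, y ((X - 1) i j) = 0) {q : ℕ} (hdetG : G.det = (q : O)) (hq : q.Prime)
    (hqp : q ≠ p) (hq1 : q % p ≠ 1) {s : ℤ} (hs : s = 1 ∨ s = -1)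
    (h1 : (Y - ((s * q : ℤ) : R) • 1) * (X - 1) = 0) (h2 : (X - 1) * (Y - (s : R) • 1) = 0)
    {c : O} (hc : c ≠ 0) (hdvd : (q : O) + 1 - (s : O) * G.trace ∣ c) :
    Finite (Submodule.span O (phiCls y '' Set.range fun ij : Fin 2 × Fin 2 => (X - 1) ij.1 ij.2)) ∧
      Nat.card (Submodule.span O
        (phiCls y '' Set.range fun ij : Fin 2 × Fin 2 => (X - 1) ij.1 ij.2)) ≤
        Nat.card (O ⧸ Ideal.span {c}) := by
  have hGt : ∀ (t : ℤ) i j, y ((Y - (t : R) • (1 : M2 R)) i j) = (G - (t : O) • 1) i j := by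
    intro t i j
    rw [Matrix.sub_apply, Matrix.sub_apply, Matrix.smul_apply, Matrix.smul_apply, map_sub,
      smul_eq_mul, smul_eq_mul, map_mul, map_intCast, hG]
    by_cases hij : i = j <;> simp [hij, Matrix.one_apply]
  have hs2 : (s : O) ^ 2 = 1 := by rcases hs with rfl | rfl <;> simp
  have hnu := natCast_sub_one_notMem hpO hq1
  have huA : ∃ i j, IsUnit ((G - (s : O) • 1) i j) :=
    exists_isUnit_entry (by rw [hdetG, hs2]; exact hnu)
  have huB : ∃ i j, IsUnit ((G - ((s * q : ℤ) : O) • 1) i j) := by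
    refine exists_isUnit_entry ?_
    rw [hdetG]
    push_cast
    rw [mul_pow, hs2, one_mul, show (q : O) - (q : O) ^ 2 = -((q : O) * ((q : O) - 1)) by ring,
      neg_mem_iff, Ideal.unit_mul_mem_iff_mem _ (isUnit_natCast_of_ne hpO hq hqp)]
    exact hnu
  obtain ⟨m, hm, hdm⟩ := exists_cyclic (P := Phi y) huA huB (fun i j => phiCls y ((X - 1) i j))
    (fun i j => by
      have h := congrArg (fun M : M2 R => phiCls y (M i j)) h2
      simp only [phiCls_mul_apply, hX, hGt, zero_smul, zero_add, Matrix.zero_apply, map_zero] at h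
      exact h)
    fun i j => by
      have h := congrArg (fun M : M2 R => phiCls y (M i j)) h1
      simp only [phiCls_mul_apply, hX, hGt, zero_smul, add_zero, Matrix.zero_apply, map_zero] at h
      exact h
  refine card_span_le_of_cyclic (m := m) (d := (G - (s : O) • 1).det) ?_ hdm ?_ hc
  · rintro _ ⟨_, ⟨⟨i, j⟩, rfl⟩, rfl⟩
    exact hm i j
  · refine (dvd_of_eq ?_).trans hdvd
    rw [det_sub_smul_one, hdetG, hs2]
    ring

end Relation

/-- The entries at a tame element contribute at most the local factor. -/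
theorem card_span_tame (hpO : (p : O) ∈ maximalIdeal O) (hdet : ρ.DetIsCyclotomic p)
    (b : Basis (Fin 2) A ρ.V) (y : A →ₐ[O] O) {q : ℕ} (hq : q.Prime) (hqp : q ≠ p)
    {P : ValuationSubring QBar} (hP : P.LiesOverPrime q)
    (hres : ∀ g ∈ P.inertiaSubgroupIn ℚ, ∀ i j, (matOf ρ b g - 1) i j ∈ maximalIdeal A)
    {F : Gal} (hF : P.IsFrobeniusAt F q) {σ : Gal} (hσ : σ ∈ P.inertiaSubgroupIn ℚ)
    (hy : ∀ i j, y ((matOf ρ b σ - 1) i j) = 0) {s : ℤ} (hs : s = 1 ∨ s = -1)
    (hsigned : q % p ≠ 1 → IsSignedAt ρ q s) {c : O} (hc : c ≠ 0)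
    (hdvd : tameConst O p q s (mapM (y : A →+* O) (matOf ρ b) F).trace ∣ c) :
    Finite (Submodule.span O
        (phiCls y '' Set.range fun ij : Fin 2 × Fin 2 => (matOf ρ b σ - 1) ij.1 ij.2)) ∧
      Nat.card (Submodule.span O
        (phiCls y '' Set.range fun ij : Fin 2 × Fin 2 => (matOf ρ b σ - 1) ij.1 ij.2)) ≤
        Nat.card (O ⧸ Ideal.span {c}) := by
  have hG : ∀ i j, y (matOf ρ b F i j) = mapM (y : A →+* O) (matOf ρ b) F i j := fun i j => rfl
  have hGq : (mapM (y : A →+* O) (matOf ρ b) F).det = (q : O) := by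
    show ((y : A →+* O).mapMatrix (matOf ρ b F)).det = _
    rw [← RingHom.map_det, det_matOf, det_frobenius hdet hq hqp hP hF, map_natCast]
  unfold tameConst at hdvd
  by_cases hq1 : q % p = 1
  · rw [if_pos hq1] at hdvd
    refine card_span_of_relation y hG hy ((det_matOf b σ).trans (det_inertia hdet hq hqp hP hσ)) hGq
      (isUnit_natCast_of_ne hpO hq hqp)
      (frobenius_mul_inertia (Fermat.Agent.Deform.isCont_matOf ρ b) hdet.1 hq hqp hP hres hF hσ)
      hc hdvd
  · rw [if_neg hq1] at hdvd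
    obtain ⟨h1, h2⟩ := (hsigned hq1).2 P hP F hF σ hσ
    have ht : ∀ t : ℤ, LinearMap.toMatrixAlgEquiv b (ρ.ρ F - (t : A) • 1) =
        matOf ρ b F - (t : A) • 1 := fun t => by rw [map_sub, map_smul, map_one]; rfl
    have hτ : LinearMap.toMatrixAlgEquiv b (ρ.ρ σ - 1) = matOf ρ b σ - 1 := by
      rw [map_sub, map_one]; rfl
    replace h1 := congrArg (LinearMap.toMatrixAlgEquiv b) h1
    replace h2 := congrArg (LinearMap.toMatrixAlgEquiv b) h2
    rw [map_mul, ht, hτ, map_zero] at h1 h2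
    exact card_span_of_signed y hpO hG hy hGq hq hqp hq1 hs h1 h2 hc hdvd

/-- The entries at a Kummer element vanish at the point and contribute at most `z ² - 1`. -/
theorem card_span_kummer (hdet : ρ.DetIsCyclotomic p) [Finite (ResidueField A)]
    (hord : ρ.IsOrdinaryAt p) (b : Basis (Fin 2) A ρ.V) (y : A →ₐ[O] O)
    (hI : ∀ g ∈ inG p, matOf ρ b g 1 0 = 0 ∧ matOf ρ b g 1 1 = 1) {F : Gal}
    (hF : F ∈ decG p) (hF0 : matOf ρ b F 1 0 = 0) {σ : Gal} (hσ : Deform.IsKummerElt p σ) {c : O}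
    (hc : c ≠ 0) (hdvd : y (matOf ρ b F 1 1) ^ 2 - 1 ∣ c) :
    (∀ i j, y ((matOf ρ b σ - 1) i j) = 0) ∧
      Finite (Submodule.span O
        (phiCls y '' Set.range fun ij : Fin 2 × Fin 2 => (matOf ρ b σ - 1) ij.1 ij.2)) ∧
      Nat.card (Submodule.span O
        (phiCls y '' Set.range fun ij : Fin 2 × Fin 2 => (matOf ρ b σ - 1) ij.1 ij.2)) ≤
        Nat.card (O ⧸ Ideal.span {c}) := by
  set r := matOf ρ b with hr
  obtain ⟨h10, h11⟩ := hI σ hσ.mem
  have h00 : r σ 0 0 = 1 := by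
    have h := det_kummer hdet hσ
    rw [← det_matOf b, ← hr, Matrix.det_fin_two, h10, h11, mul_one, mul_zero, sub_zero] at h
    exact h
  have hcol : ∀ (g : Gal) (j : Fin 2), ρ.ρ g (b j) = r g 0 j • b 0 + r g 1 j • b 1 := fun g j => by
    conv_lhs => rw [← b.sum_repr (ρ.ρ g (b j)), Fin.sum_univ_two]
    simp only [hr, Fermat.Agent.Deform.matOf_apply]
  have hkill : (r F 1 1 ^ 2 - 1) * r σ 0 1 = 0 :=
    Deform.kummer_value_killed ρ hdet hord hσ.mem hσ.fixes hF b (x := r F 0 0) (c := r F 0 1)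
      (by rw [hcol, hF0, zero_smul, add_zero]) (hcol F 1)
      (by rw [hcol, h00, h10, zero_smul, add_zero, one_smul])
      (by rw [hcol, h11, one_smul])
  have hz0 : y (r F 1 1) ^ 2 - 1 ≠ 0 := fun h => hc (by rw [h] at hdvd; exact zero_dvd_iff.mp hdvd)
  have hv : y (r σ 0 1) = 0 := by
    have h := congrArg y hkill
    rw [map_mul, map_sub, map_pow, map_one, map_zero] at h
    exact (mul_eq_zero.mp h).resolve_left hz0
  have hy : ∀ i j, y ((r σ - 1) i j) = 0 := by
    intro i j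
    fin_cases i <;> fin_cases j <;> simp [h00, h10, h11, hv]
  refine ⟨hy, card_span_le_of_cyclic (m := phiCls y (r σ 0 1)) ?_ ?_ hdvd hc⟩
  · rintro _ ⟨_, ⟨⟨i, j⟩, rfl⟩, rfl⟩
    fin_cases i <;> fin_cases j <;> simp [h00, h10, h11, Submodule.mem_span_singleton_self]
  · have h := congrArg (phiCls y) hkill
    rw [phiCls_mul, hv, zero_smul, add_zero, map_zero, map_sub, map_pow, map_one] at h
    exact h

end Local

section Growth

variable {O : Type} [CommRing O] [IsDomain O] [IsDiscreteValuationRing O]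
  [IsAdicComplete (maximalIdeal O) O] [Finite (ResidueField O)]
  {ρbar : ResidualGaloisRep (ResidueField O)}
  {p : ℕ} [hp : Fact p.Prime] {K K0 : PKind} {N T : Finset ℕ} {s : ℕ → ℤ}

/-- The representation of a point. -/
def pointRep {C : Cond O} (D : GaloisRep.DeformationRingData O ρbar C) (x : D.R →ₐ[O] O) :
    GaloisRepAdic O :=
  D.ρ.baseChangeAlong (x : D.R →+* O) (isLocalHom_algHom isResAlg_self x)

/-- The quotient map by the chosen entries factors through the minimal ring, compatibly with a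
point killing the entries. -/
theorem exists_factor_minimal (hp2 : p ≠ 2) (hpO : (p : O) ∈ maximalIdeal O)
    (D : GaloisRep.DeformationRingData O ρbar (liftCondition O p K N T s))
    (D0 : GaloisRep.DeformationRingData O ρbar (liftCondition O p K0 N ∅ s))
    (hK : KindsMatch p K K0 T)
    (π : D.R →ₐ[O] D0.R) (hπ : IsLocalHom (π : D.R →+* D0.R))
    (he : (D.ρ.baseChangeAlong (π : D.R →+* D0.R) hπ).IsEquiv D0.ρ) (x : D0.R →ₐ[O] O)
    (b : Basis (Fin 2) D.R D.ρ.V)
    (hres : ∀ q ∈ T, q ≠ p → ∀ P : ValuationSubring QBar, P.LiesOverPrime q →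
      ∀ g ∈ P.inertiaSubgroupIn ℚ, ∀ i j, (matOf D.ρ b g - 1) i j ∈ maximalIdeal D.R)
    (S : Set D.R) (hS : ∀ a ∈ S, (x.comp π) a = 0)
    (htame : ∀ q ∈ T, q.Prime → q ≠ p → ∃ (P : ValuationSubring QBar) (σ : Gal),
      P.LiesOverPrime q ∧ IsTameElt p q P σ ∧ ∀ i j, (matOf D.ρ b σ - 1) i j ∈ S)
    (hkum : p ∈ T → ∃ σ : Gal,
      Deform.IsKummerElt p σ ∧ ∀ i j, (matOf D.ρ b σ - 1) i j ∈ S) :
    ∃ ψ : D0.R →ₐ[O] D.R ⧸ Ideal.span S,
      (∀ a, ψ (π a) = Ideal.Quotient.mk _ a) ∧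
        ∀ a a0, Ideal.Quotient.mk (Ideal.span S) a = ψ a0 → (x.comp π) a = x a0 := by
  have hR := isResAlg_data D
  have hR0 := isResAlg_data D0
  have hyloc := isLocalHom_algHom isResAlg_self (x.comp π)
  have hxloc := isLocalHom_algHom isResAlg_self x
  have hne : Ideal.span S ≠ ⊤ := fun h => one_ne_zero (α := O) (by
    rw [← map_one (x.comp π)]
    exact (phiCls_mem_span _ hS (h ▸ Submodule.mem_top)).1)
  haveI : Nontrivial (D.R ⧸ Ideal.span S) := Ideal.Quotient.nontrivial_iff.mpr hne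
  haveI : IsLocalRing (D.R ⧸ Ideal.span S) :=
    IsLocalRing.of_surjective' (Ideal.Quotient.mk (Ideal.span S)) Ideal.Quotient.mk_surjective
  haveI : IsLocalHom (algebraMap D.R (D.R ⧸ Ideal.span S)) :=
    IsLocalHom.of_surjective _ Ideal.Quotient.mk_surjective
  haveI : IsAdicComplete (maximalIdeal (D.R ⧸ Ideal.span S)) (D.R ⧸ Ideal.span S) :=
    IsLocalRing.isAdicComplete_of_module_finite (𝒪 := D.R)
  let mk := Ideal.Quotient.mkₐ O (Ideal.span S)
  have hmk : Function.Surjective mk := Ideal.Quotient.mk_surjective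
  have hQ := isResAlg_of_surjective hR mk hmk
  haveI := hQ.isLocalHom
  have hmkloc := isLocalHom_algHom hQ mk
  have hS0 : ∀ a ∈ S, mk a = 0 := fun a ha =>
    Ideal.Quotient.eq_zero_iff_mem.mpr (Ideal.subset_span ha)
  have hcond :=
    liftCondition_quotient hp2 hpO D hK b hres mk hmkloc hmk
      (fun q hq hq' hqp => by
        obtain ⟨P, σ, hP, hσ, hσS⟩ := htame q hq hq' hqp
        exact ⟨P, σ, hP, hσ, fun i j => hS0 _ (hσS i j)⟩)
      fun hpT => by
        obtain ⟨σ, hσ, hσS⟩ := hkum hpT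
        exact ⟨σ, hσ, fun i j => hS0 _ (hσS i j)⟩
  obtain ⟨ψ, ⟨hψloc, hψe⟩, -⟩ := D0.universal _ hQ.residue_surjective _ hcond
    (residual_isEquiv_map D.absIrr hR hQ mk hmkloc D.residual_isEquiv)
  refine ⟨ψ, fun a => ?_, fun a a0 h => ?_⟩
  · have hψπ : mk = ψ.comp π :=
      algHom_eq_of_isEquiv D hQ hmkloc (isLocalHom_algHom hQ _)
        (cond_map_of_surjective (isDeformationCondition_lift hp2 hpO K N T s) hR hQ mk hmkloc hmk
          D.isOfType)
        (Fermat.Agent.Deform.isEquiv_symm (Fermat.Agent.Deform.isEquiv_trans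
          (Fermat.Agent.Deform.isEquiv_symm
            (isEquiv_map_algHom π hπ ψ hψloc (isLocalHom_algHom hQ (ψ.comp π))))
          (Fermat.Agent.Deform.isEquiv_trans (isEquiv_map _ hψloc he) hψe)))
    exact (DFunLike.congr_fun hψπ a).symm
  · let ybar : (D.R ⧸ Ideal.span S) →ₐ[O] O :=
      Ideal.Quotient.liftₐ (Ideal.span S) (x.comp π) fun a ha => (phiCls_mem_span _ hS ha).1
    have hybar : ybar.comp mk = x.comp π := AlgHom.ext fun a => rfl
    have hybarloc := isLocalHom_algHom isResAlg_self ybar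
    have hxψ : ybar.comp ψ = x := by
      have hsurj : Function.Surjective (ybar.comp ψ) := fun o =>
        ⟨algebraMap O D0.R o, AlgHom.commutes _ o⟩
      refine algHom_eq_of_isEquiv D0 isResAlg_self (isLocalHom_algHom isResAlg_self _) hxloc
        (cond_map_of_surjective (isDeformationCondition_lift hp2 hpO K0 N ∅ s) hR0 isResAlg_self _ _
          hsurj D0.isOfType) ?_
      refine Fermat.Agent.Deform.isEquiv_trans (Fermat.Agent.Deform.isEquiv_symm
        (isEquiv_map_algHom ψ hψloc ybar hybarloc (isLocalHom_algHom isResAlg_self _))) ?_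
      refine Fermat.Agent.Deform.isEquiv_trans (isEquiv_map _ hybarloc hψe) ?_
      refine Fermat.Agent.Deform.isEquiv_trans
        (isEquiv_map_algHom mk hmkloc ybar hybarloc (isLocalHom_algHom isResAlg_self
          (ybar.comp mk))) ?_
      refine Fermat.Agent.Deform.isEquiv_trans
        (isEquiv_map_congr (congrArg AlgHom.toRingHom hybar) _ hyloc) ?_
      exact Fermat.Agent.Deform.isEquiv_trans
        (Fermat.Agent.Deform.isEquiv_symm (isEquiv_map_algHom π hπ x hxloc hyloc))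
        (isEquiv_map _ hxloc he)
    have h' : ybar (Ideal.Quotient.mk (Ideal.span S) a) = ybar (ψ a0) := congrArg ybar h
    exact h'.trans (DFunLike.congr_fun hxψ a0)

/-- **Growth of the cotangent module.** -/
theorem card_phi_le_growth (hp2 : p ≠ 2) (hpO : (p : O) ∈ maximalIdeal O)
    (D : GaloisRep.DeformationRingData O ρbar (liftCondition O p K N T s))
    (D0 : GaloisRep.DeformationRingData O ρbar (liftCondition O p K0 N ∅ s))
    (hK : KindsMatch p K K0 T) (hT : ∀ q ∈ T, q.Prime) (hTN : ∀ q ∈ T, q ∉ N)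
    (hs : ∀ q ∈ T, q ≠ p → s q = 1 ∨ s q = -1)
    (π : D.R →ₐ[O] D0.R) (hπ : IsLocalHom (π : D.R →+* D0.R))
    (he : (D.ρ.baseChangeAlong (π : D.R →+* D0.R) hπ).IsEquiv D0.ρ)
    (x : D0.R →ₐ[O] O) [Finite (Phi x)] (c : ℕ → O) (hc : ∀ q ∈ T, c q ≠ 0)
    (hcq : ∀ q ∈ T, q ≠ p → ∃ (P : ValuationSubring QBar) (F : Gal), P.LiesOverPrime q ∧
      P.IsFrobeniusAt F q ∧
        tameConst O p q (s q) (LinearMap.trace O (pointRep D0 x).V ((pointRep D0 x).ρ F)) ∣ c q)
    (hcp : p ∈ T → ∃ F ∈ (padicPlace p).decompositionSubgroup ℚ,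
      ∀ (b' : Basis (Fin 2) O (pointRep D0 x).V) (z : O),
        (∀ g ∈ (padicPlace p).decompositionSubgroup ℚ, ∀ v ∈ O ∙ b' 0,
          (pointRep D0 x).ρ g v ∈ O ∙ b' 0) →
        (∀ g ∈ (padicPlace p).inertiaSubgroupIn ℚ, ∀ v, (pointRep D0 x).ρ g v - v ∈ O ∙ b' 0) →
        (∀ v, (pointRep D0 x).ρ F v - z • v ∈ O ∙ b' 0) → z ^ 2 - 1 ∣ c p) :
    Finite (Phi (x.comp π)) ∧
      Nat.card (Phi (x.comp π)) ≤
        Nat.card (Phi x) * ∏ q ∈ T, Nat.card (O ⧸ Ideal.span {c q}) := by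
  classical
  have hR := isResAlg_data D
  have hR0 := isResAlg_data D0
  set y : D.R →ₐ[O] O := x.comp π with hy
  have hyloc := isLocalHom_algHom isResAlg_self y
  have hxloc := isLocalHom_algHom isResAlg_self x
  haveI : Finite (ResidueField D.R) := Finite.of_surjective
    (ResidueField.map (algebraMap O D.R)) (fun v => by
      obtain ⟨o, ho⟩ := hR.residue_surjective v
      exact ⟨residue O o, by rw [ResidueField.map_residue]; exact ho⟩)
  obtain ⟨b, hb⟩ : ∃ b : Basis (Fin 2) D.R D.ρ.V, p ∈ T →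
      D.ρ.IsOrdinaryAt p ∧ (∀ g ∈ decG p, matOf D.ρ b g 1 0 = 0) ∧
        ∀ g ∈ inG p, matOf D.ρ b g 1 0 = 0 ∧ matOf D.ρ b g 1 1 = 1 := by
    by_cases hpT : p ∈ T
    · obtain ⟨h, -⟩ | ⟨-, rfl, -⟩ := hK
      · exact absurd hpT h
      · obtain ⟨L, ⟨b, rfl⟩, hD, hI⟩ :=
          D.isOfType.2.1 (padicPlace p) (CFT.Local.padicPlace_liesOverPrime p)
        refine ⟨b, fun _ => ⟨D.isOfType.2.1, fun g hg => (stable_iff_toMatrix b g).mp (hD g hg),
          fun g hg => (quot_iff_toMatrix b g 1).mp fun v => ?_⟩⟩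
        rw [one_smul]
        exact hI g hg v
    · exact ⟨Module.finBasisOfFinrankEq _ _ D.ρ.finrank_eq, fun h => absurd h hpT⟩
  set r := matOf D.ρ b with hr
  have hyequiv : (D.ρ.baseChangeAlong (y : D.R →+* O) hyloc).IsEquiv (pointRep D0 x) :=
    Fermat.Agent.Deform.isEquiv_trans
      (Fermat.Agent.Deform.isEquiv_symm (isEquiv_map_algHom π hπ x hxloc hyloc))
      (isEquiv_map _ hxloc he)
  obtain ⟨b', hb'⟩ := exists_basis_map (y : D.R →+* O) hyloc b hyequiv
  have hπ0 : ∀ q ∈ T, q ≠ p → ∀ P : ValuationSubring QBar, P.LiesOverPrime q →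
      ∀ g ∈ P.inertiaSubgroupIn ℚ, ∀ i j, π ((r g - 1) i j) = 0 := by
    intro q hq hqp P hP g hg i j
    have hun : D0.ρ.IsUnramifiedAt q := D0.isOfType.2.2.1 q (hT q hq) fun h => by
      rw [Finset.union_empty] at h
      exact (Finset.mem_insert.mp h).elim hqp (hTN q hq)
    have h1 : matOf (D.ρ.baseChangeAlong (π : D.R →+* D0.R) hπ) (bcBasis _ hπ b) g = 1 := by
      refine (congrArg (LinearMap.toMatrixAlgEquiv (bcBasis _ hπ b))
        (isUnramifiedAt_congr (Fermat.Agent.Deform.isEquiv_symm he) hun P hP g hg)).trans ?_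
      exact map_one _
    rw [matOf_bcBasis, ← hr] at h1
    have h2 : π (r g i j) = (1 : M2 D0.R) i j := congrFun (congrFun h1 i) j
    rw [Matrix.sub_apply, map_sub, h2]
    by_cases hij : i = j <;> simp [hij, Matrix.one_apply]
  have hres : ∀ q ∈ T, q ≠ p → ∀ P : ValuationSubring QBar, P.LiesOverPrime q →
      ∀ g ∈ P.inertiaSubgroupIn ℚ, ∀ i j, (r g - 1) i j ∈ maximalIdeal D.R :=
    fun q hq hqp P hP g hg i j hu => by
      have h := hu.map π
      rw [hπ0 q hq hqp P hP g hg i j] at h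
      exact not_isUnit_zero h
  -- the chosen elements
  have hex : ∀ q : ℕ, ∃ σ : Gal, q ∈ T →
      (q ≠ p → ∃ (P : ValuationSubring QBar) (F : Gal), P.LiesOverPrime q ∧ P.IsFrobeniusAt F q ∧
        tameConst O p q (s q) (LinearMap.trace O (pointRep D0 x).V ((pointRep D0 x).ρ F)) ∣ c q ∧
        IsTameElt p q P σ) ∧ (q = p → Deform.IsKummerElt p σ) := by
    intro q
    by_cases hqp : q = p
    · obtain ⟨σ, hσ⟩ := Deform.exists_isKummerElt (p := p) hp2
      exact ⟨σ, fun _ => ⟨fun h => absurd hqp h, fun _ => hσ⟩⟩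
    · by_cases hq : q ∈ T
      · obtain ⟨P, F, hP, hF, hd⟩ := hcq q hq hqp
        obtain ⟨σ, hσ⟩ := exists_isTameElt hp.out (hT q hq) hqp hP
        exact ⟨σ, fun _ => ⟨fun _ => ⟨P, F, hP, hF, hd, hσ⟩, fun h => absurd h hqp⟩⟩
      · exact ⟨1, fun h => absurd h hq⟩
  choose σ hσ using hex
  let S1 : ℕ → Set D.R := fun q => Set.range fun ij : Fin 2 × Fin 2 => (r (σ q) - 1) ij.1 ij.2
  -- one prime
  have hloc : ∀ q ∈ T, (∀ i j, y ((r (σ q) - 1) i j) = 0) ∧
      Finite (Submodule.span O (phiCls y '' S1 q)) ∧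
      Nat.card (Submodule.span O (phiCls y '' S1 q)) ≤ Nat.card (O ⧸ Ideal.span {c q}) := by
    intro q hq
    by_cases hqp : q = p
    · subst hqp
      obtain ⟨hord, hst, hI⟩ := hb hq
      obtain ⟨F, hF, hFc⟩ := hcp hq
      refine card_span_kummer D.isOfType.1 hord b y hI hF (hst F hF) ((hσ q hq).2 rfl) (hc q hq)
        (hFc b' _ (fun g hg => ?_) (fun g hg v => ?_) ((quot_iff_toMatrix b' F _).mpr
          ⟨?_, (congrFun (congrFun (DFunLike.congr_fun hb' F) 1) 1)⟩))
      · refine (stable_iff_toMatrix b' g).mpr ?_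
        exact (congrFun (congrFun (DFunLike.congr_fun hb' g) 1) 0).trans
          (by rw [Deform.mapM_apply, ← hr, hst g hg, map_zero])
      · have h := (quot_iff_toMatrix b' g 1).mpr ⟨(congrFun (congrFun (DFunLike.congr_fun hb' g) 1) 0).trans
          (by rw [Deform.mapM_apply, ← hr, (hI g hg).1, map_zero]),
          (congrFun (congrFun (DFunLike.congr_fun hb' g) 1) 1).trans
          (by rw [Deform.mapM_apply, ← hr, (hI g hg).2, map_one])⟩ v
        rwa [one_smul] at h
      · exact (congrFun (congrFun (DFunLike.congr_fun hb' F) 1) 0).trans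
          (by rw [Deform.mapM_apply, ← hr, hst F hF, map_zero])
    · obtain ⟨P, F, hP, hF, hd, hσt⟩ := (hσ q hq).1 hqp
      have hy0 : ∀ i j, y ((r (σ q) - 1) i j) = 0 := fun i j => by
        rw [hy, AlgHom.comp_apply, hπ0 q hq hqp P hP _ hσt.mem i j, map_zero]
      refine ⟨hy0, card_span_tame hpO D.isOfType.1 b y (hT q hq) hqp hP (hres q hq hqp P hP) hF
        hσt.mem hy0 (hs q hq hqp)
        (fun h1 => D.isOfType.2.2.2.2 q hq (hT q hq) hqp h1) (hc q hq) ?_⟩
      rwa [LinearMap.trace_eq_matrix_trace O b', show LinearMap.toMatrix b' b' ((pointRep D0 x).ρ F) =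
        mapM (y : D.R →+* O) r F from DFunLike.congr_fun hb' F] at hd
  let S : Set D.R := ⋃ q ∈ T, S1 q
  have hS : ∀ a ∈ S, y a = 0 := by
    intro a ha
    obtain ⟨q, hq, haq⟩ := Set.mem_iUnion₂.mp ha
    obtain ⟨⟨i, j⟩, rfl⟩ := haq
    exact (hloc q hq).1 i j
  obtain ⟨ψ, hψ, hxψ⟩ := exists_factor_minimal hp2 hpO D D0 hK π hπ he x b hres S hS
    (fun q hq _ hqp => by
      obtain ⟨P, F, hP, -, -, hσt⟩ := (hσ q hq).1 hqp
      exact ⟨P, σ q, hP, hσt, fun i j => Set.mem_biUnion hq ⟨(i, j), rfl⟩⟩)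
    fun hpT => ⟨σ p, (hσ p hpT).2 rfl, fun i j => Set.mem_biUnion hpT ⟨(i, j), rfl⟩⟩
  obtain ⟨hWfin, hWcard⟩ := finite_card_iSup_le T (fun q => Submodule.span O (phiCls y '' S1 q))
    (fun q => Nat.card (O ⧸ Ideal.span {c q})) fun q hq => (hloc q hq).2
  have hle : Submodule.span O (phiCls y '' S) ≤
      T.sup fun q => Submodule.span O (phiCls y '' S1 q) := by
    rw [Submodule.span_le]
    rintro _ ⟨a, ha, rfl⟩
    obtain ⟨q, hq, haq⟩ := Set.mem_iUnion₂.mp ha
    exact Finset.le_sup (f := fun q => Submodule.span O (phiCls y '' S1 q)) hq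
      (Submodule.subset_span (Set.mem_image_of_mem _ haq))
  haveI : Finite (Submodule.span O (phiCls y '' S)) :=
    Finite.of_injective _ (Submodule.inclusion_injective hle)
  obtain ⟨hfin, hcard⟩ := card_phi_le_mul y x π rfl hS ψ hψ hxψ
  exact ⟨hfin, hcard.trans (Nat.mul_le_mul_left _
    ((Nat.card_le_card_of_injective _ (Submodule.inclusion_injective hle)).trans hWcard))⟩

end Growth

end Fermat.Agent.Lifting
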