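import Fermat.Agent.CFT.Tangent.BaseChange
import Mathlib.RingTheory.Filtration

/-!
# Endomorphisms and scalars natural in a Galois representation

A condition saying that a family of natural endomorphisms vanishes, or is divisible by powers of
`p` in the way of congruences with the cyclotomic character, is a deformation condition; this file
provides the natural endomorphisms and their behaviour on coordinates.
-/

set_option autoImplicit false
set_option linter.style.haveILetI false

noncomputable section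

namespace Fermat.Agent.Lifting

open IsLocalRing Module
open scoped TensorProduct
open Deform (Gal)

/-- A scalar natural in the representation. -/
structure NatScalar : Type 1 where
  /-- the value -/
  val : ∀ ⦃A : Type⦄ [CommRing A] [IsLocalRing A], GaloisRepAdic A → A
  map' : ∀ ⦃A B : Type⦄ [CommRing A] [IsLocalRing A] [CommRing B] [IsLocalRing B] (φ : A →+* B)
    (hφ : IsLocalHom φ) (ρ : GaloisRepAdic A), val (ρ.baseChangeAlong φ hφ) = φ (val ρ)
  equiv' : ∀ ⦃A : Type⦄ [CommRing A] [IsLocalRing A] ⦃ρ ρ' : GaloisRepAdic A⦄,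
    ρ.Equiv ρ' → val ρ' = val ρ

/-- An endomorphism natural in the representation. -/
structure NatEnd : Type 1 where
  /-- the value -/
  val : ∀ ⦃A : Type⦄ [CommRing A] [IsLocalRing A] (ρ : GaloisRepAdic A), Module.End A ρ.V
  map' : ∀ ⦃A B : Type⦄ [CommRing A] [IsLocalRing A] [CommRing B] [IsLocalRing B] (φ : A →+* B)
    (hφ : IsLocalHom φ) (ρ : GaloisRepAdic A),
    letI := φ.toAlgebra; val (ρ.baseChangeAlong φ hφ) = (val ρ).baseChange B
  equiv' : ∀ ⦃A : Type⦄ [CommRing A] [IsLocalRing A] ⦃ρ ρ' : GaloisRepAdic A⦄ (e : ρ.Equiv ρ'),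
    val ρ' = e.toLinearEquiv.conj (val ρ)

namespace NatEnd

/-- The action of a Galois element. -/
def gal (σ : Gal) : NatEnd where
  val _ _ _ ρ := ρ.ρ σ
  map' _ _ _ _ _ _ φ hφ ρ := rfl
  equiv' A _ _ ρ ρ' e := LinearMap.ext fun y => by
    obtain ⟨x, rfl⟩ := e.toLinearEquiv.surjective y
    rw [LinearEquiv.conj_apply_apply, LinearEquiv.symm_apply_apply, e.map_apply]

instance : One NatEnd where
  one :=
    { val := fun _ _ _ _ => 1
      map' := fun _ _ _ _ _ _ φ hφ ρ => by
        letI := φ.toAlgebra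
        exact (LinearMap.baseChange_one _ _).symm
      equiv' := fun _ _ _ _ _ e => (LinearEquiv.conj_id e.toLinearEquiv).symm }

instance : Mul NatEnd where
  mul X Y :=
    { val := fun _ _ _ ρ => X.val ρ * Y.val ρ
      map' := fun A B _ _ _ _ φ hφ ρ => by
        letI := φ.toAlgebra
        rw [X.map', Y.map']
        exact (LinearMap.baseChange_mul _ _).symm
      equiv' := fun A _ _ ρ ρ' e => by
        rw [X.equiv' e, Y.equiv' e]
        exact (LinearEquiv.conj_comp e.toLinearEquiv _ _).symm }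

instance : Sub NatEnd where
  sub X Y :=
    { val := fun _ _ _ ρ => X.val ρ - Y.val ρ
      map' := fun A B _ _ _ _ φ hφ ρ => by
        letI := φ.toAlgebra
        rw [X.map', Y.map']
        exact (LinearMap.baseChange_sub _ _).symm
      equiv' := fun A _ _ ρ ρ' e => by rw [X.equiv' e, Y.equiv' e, map_sub] }

instance : SMul NatScalar NatEnd where
  smul c X :=
    { val := fun _ _ _ ρ => c.val ρ • X.val ρ
      map' := fun A B _ _ _ _ φ hφ ρ => by
        letI := φ.toAlgebra
        rw [X.map', c.map', LinearMap.baseChange_smul]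
        exact algebraMap_smul B (c.val ρ) ((X.val ρ).baseChange B)
      equiv' := fun A _ _ ρ ρ' e => by rw [X.equiv' e, c.equiv' e, map_smul] }

@[simp] theorem gal_val {A : Type} [CommRing A] [IsLocalRing A] (σ : Gal) (ρ : GaloisRepAdic A) :
    (gal σ).val ρ = ρ.ρ σ := rfl

@[simp] theorem one_val {A : Type} [CommRing A] [IsLocalRing A] (ρ : GaloisRepAdic A) :
    (1 : NatEnd).val ρ = 1 := rfl

@[simp] theorem mul_val {A : Type} [CommRing A] [IsLocalRing A] (X Y : NatEnd)
    (ρ : GaloisRepAdic A) : (X * Y).val ρ = X.val ρ * Y.val ρ := rfl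

@[simp] theorem sub_val {A : Type} [CommRing A] [IsLocalRing A] (X Y : NatEnd)
    (ρ : GaloisRepAdic A) : (X - Y).val ρ = X.val ρ - Y.val ρ := rfl

@[simp] theorem smul_val {A : Type} [CommRing A] [IsLocalRing A] (c : NatScalar) (X : NatEnd)
    (ρ : GaloisRepAdic A) : (c • X).val ρ = c.val ρ • X.val ρ := rfl

end NatEnd

namespace NatScalar

/-- An integer. -/
def int (m : ℤ) : NatScalar where
  val _ _ _ _ := (m : _)
  map' _ _ _ _ _ _ φ _ _ := (map_intCast φ m).symm
  equiv' _ _ _ _ _ _ := rfl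

/-- The determinant at a Galois element. -/
def det (σ : Gal) : NatScalar where
  val _ _ _ ρ := LinearMap.det (ρ.ρ σ)
  map' _ _ _ _ _ _ φ hφ ρ := CFT.Tangent.det_baseChangeAlong φ hφ σ
  equiv' A _ _ ρ ρ' e := by
    have h : ρ'.ρ σ = e.toLinearEquiv.conj (ρ.ρ σ) := (NatEnd.gal σ).equiv' e
    rw [h, LinearEquiv.conj_apply, LinearMap.comp_assoc]
    exact LinearMap.det_conj _ _

/-- The trace of a natural endomorphism. -/
def trace (X : NatEnd) : NatScalar where
  val A _ _ ρ := LinearMap.trace A ρ.V (X.val ρ)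
  map' A B _ _ _ _ φ hφ ρ := by
    letI := φ.toAlgebra
    rw [X.map']
    exact LinearMap.trace_baseChange (X.val ρ) B
  equiv' A _ _ ρ ρ' e := by rw [X.equiv' e, LinearMap.trace_conj']

instance : Sub NatScalar where
  sub c d :=
    { val := fun _ _ _ ρ => c.val ρ - d.val ρ
      map' := fun _ _ _ _ _ _ φ hφ ρ => by rw [c.map', d.map', map_sub]
      equiv' := fun _ _ _ _ _ e => by rw [c.equiv' e, d.equiv' e] }

@[simp] theorem int_val {A : Type} [CommRing A] [IsLocalRing A] (m : ℤ) (ρ : GaloisRepAdic A) :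
    (int m).val ρ = (m : A) := rfl

@[simp] theorem det_val {A : Type} [CommRing A] [IsLocalRing A] (σ : Gal) (ρ : GaloisRepAdic A) :
    (det σ).val ρ = LinearMap.det (ρ.ρ σ) := rfl

@[simp] theorem trace_val {A : Type} [CommRing A] [IsLocalRing A] (X : NatEnd)
    (ρ : GaloisRepAdic A) : (trace X).val ρ = LinearMap.trace A ρ.V (X.val ρ) := rfl

@[simp] theorem sub_val {A : Type} [CommRing A] [IsLocalRing A] (c d : NatScalar)
    (ρ : GaloisRepAdic A) : (c - d).val ρ = c.val ρ - d.val ρ := rfl

end NatScalar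

section Span

variable {A : Type} [CommRing A] {M : Type} [AddCommGroup M] [Module A M]

/-- All values of `f` are divisible by `m`. -/
def InSpan (m : ℕ) (f : Module.End A M) : Prop :=
  ∀ v, f v ∈ Ideal.span {(m : A)} • (⊤ : Submodule A M)

theorem inSpan_iff_entries (b : Basis (Fin 2) A M) {m : ℕ} {f : Module.End A M} :
    InSpan m f ↔ ∀ i j, b.repr (f (b j)) i ∈ Ideal.span {(m : A)} := by
  refine ⟨fun h i j => (CFT.Tangent.mem_ideal_smul_top_iff_repr b _ _).mp (h _) i, fun h v => ?_⟩
  rw [← b.sum_repr v, map_sum]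
  refine Submodule.sum_mem _ fun j _ => ?_
  rw [map_smul]
  exact Submodule.smul_mem _ _ ((CFT.Tangent.mem_ideal_smul_top_iff_repr b _ _).mpr fun i => h i j)

theorem inSpan_zero_iff {f : Module.End A M} : InSpan 0 f ↔ f = 0 := by
  constructor
  · intro h
    refine LinearMap.ext fun v => ?_
    have := h v
    rwa [Nat.cast_zero, Ideal.span_singleton_eq_bot.mpr rfl, Submodule.bot_smul,
      Submodule.mem_bot] at this
  · rintro rfl v
    exact zero_mem _

theorem eq_zero_of_inSpan {f : Module.End A M} {m : ℕ} (hm : (m : A) = 0) (h : InSpan m f) :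
    f = 0 := inSpan_zero_iff.mp fun v => by
  have := h v
  rwa [hm, ← Nat.cast_zero (R := A)] at this

theorem InSpan.zero (m : ℕ) : InSpan m (0 : Module.End A M) := fun _ => zero_mem _

theorem InSpan.add {m : ℕ} {f g : Module.End A M} (hf : InSpan m f) (hg : InSpan m g) :
    InSpan m (f + g) := fun v => by
  rw [LinearMap.add_apply]
  exact add_mem (hf v) (hg v)

theorem inSpan_smul {m : ℕ} {c : A} (hc : c ∈ Ideal.span {(m : A)}) (f : Module.End A M) :
    InSpan m (c • f) := fun v => Submodule.smul_mem_smul hc Submodule.mem_top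

end Span

section BaseChange

variable {A B : Type} [CommRing A] [IsLocalRing A] [CommRing B] [IsLocalRing B] (φ : A →+* B)
  (hφ : IsLocalHom φ)

/-- The basis of a base change. -/
def bcBasis {ρ : GaloisRepAdic A} (b : Basis (Fin 2) A ρ.V) :
    Basis (Fin 2) B (ρ.baseChangeAlong φ hφ).V :=
  letI := φ.toAlgebra
  Algebra.TensorProduct.basis B b

theorem NatEnd.toMatrix_map (X : NatEnd) (ρ : GaloisRepAdic A) (b : Basis (Fin 2) A ρ.V) :
    LinearMap.toMatrix (bcBasis φ hφ b) (bcBasis φ hφ b) (X.val (ρ.baseChangeAlong φ hφ)) =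
      (LinearMap.toMatrix b b (X.val ρ)).map φ := by
  letI := φ.toAlgebra
  rw [X.map']
  exact LinearMap.toMatrix_baseChange (A := B) (X.val ρ) b b

omit [IsLocalRing A] in
theorem inSpan_iff_toMatrix {M : Type} [AddCommGroup M] [Module A M] (b : Basis (Fin 2) A M)
    {m : ℕ} {f : Module.End A M} :
    InSpan m f ↔ ∀ i j, LinearMap.toMatrix b b f i j ∈ Ideal.span {(m : A)} := by
  simp only [inSpan_iff_entries b, LinearMap.toMatrix_apply]

theorem inSpan_map (X : NatEnd) (ρ : GaloisRepAdic A) {m : ℕ} (h : InSpan m (X.val ρ)) :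
    InSpan m (X.val (ρ.baseChangeAlong φ hφ)) := by
  let b := Module.finBasisOfFinrankEq A ρ.V ρ.finrank_eq
  refine (inSpan_iff_toMatrix (bcBasis φ hφ b)).mpr fun i j => ?_
  rw [NatEnd.toMatrix_map, Matrix.map_apply]
  exact CFT.Tangent.map_mem_span_natCast φ ((inSpan_iff_toMatrix b).mp h i j)

theorem eq_zero_of_map (hinj : Function.Injective φ) (X : NatEnd) (ρ : GaloisRepAdic A)
    (h : X.val (ρ.baseChangeAlong φ hφ) = 0) : X.val ρ = 0 := by
  let b := Module.finBasisOfFinrankEq A ρ.V ρ.finrank_eq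
  have e := NatEnd.toMatrix_map φ hφ X ρ b
  rw [h, map_zero] at e
  refine (LinearMap.toMatrix b b).map_eq_zero_iff.mp (Matrix.ext fun i j => hinj ?_)
  rw [← Matrix.map_apply (f := φ), ← e, Matrix.zero_apply, Matrix.zero_apply, map_zero]

/-- Vanishing descends along a jointly injective pair. -/
theorem eq_zero_of_pair {C : Type} [CommRing C] [IsLocalRing C] (ψ : A →+* C) (hψ : IsLocalHom ψ)
    (hinj : Function.Injective fun x => (φ x, ψ x)) (X : NatEnd) (ρ : GaloisRepAdic A)
    (h₁ : X.val (ρ.baseChangeAlong φ hφ) = 0) (h₂ : X.val (ρ.baseChangeAlong ψ hψ) = 0) :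
    X.val ρ = 0 := by
  let b := Module.finBasisOfFinrankEq A ρ.V ρ.finrank_eq
  have e₁ := NatEnd.toMatrix_map φ hφ X ρ b
  have e₂ := NatEnd.toMatrix_map ψ hψ X ρ b
  rw [h₁, map_zero] at e₁
  rw [h₂, map_zero] at e₂
  refine (LinearMap.toMatrix b b).map_eq_zero_iff.mp (Matrix.ext fun i j => hinj (Prod.ext ?_ ?_))
  · show φ _ = φ _
    rw [← Matrix.map_apply (f := φ), ← e₁, Matrix.zero_apply, Matrix.zero_apply, map_zero]
  · show ψ _ = ψ _
    rw [← Matrix.map_apply (f := ψ), ← e₂, Matrix.zero_apply, Matrix.zero_apply, map_zero]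

end BaseChange

/-- An element congruent to a member of `I` modulo every power of the maximal ideal lies in `I`. -/
theorem mem_of_forall_mem_sup {R : Type} [CommRing R] [IsLocalRing R] [IsNoetherianRing R]
    {I : Ideal R} {x : R} (h : ∀ N : ℕ, x ∈ I ⊔ maximalIdeal R ^ (N + 1)) : x ∈ I := by
  rw [← Ideal.Quotient.eq_zero_iff_mem, ← Submodule.mem_bot R,
    ← Ideal.iInf_pow_smul_eq_bot_of_isLocalRing (M := R ⧸ I) (maximalIdeal R)
      (maximalIdeal.isMaximal R).ne_top, Submodule.mem_iInf]
  intro N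
  obtain ⟨y, hy, z, hz, rfl⟩ := Submodule.mem_sup.mp (h N)
  rw [map_add, Ideal.Quotient.eq_zero_iff_mem.mpr hy, zero_add, ← mul_one z, ← smul_eq_mul]
  refine Submodule.smul_mem_smul (Ideal.pow_le_pow_right (Nat.le_succ N) hz)
    (Submodule.mem_top (x := (1 : R ⧸ I))) |> fun H => ?_
  simpa [Algebra.smul_def] using H

end Fermat.Agent.Lifting
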