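import Fermat.Agent.Lifting.Deform.Closure
import Fermat.Agent.Mazur.Eisenstein.CycInertia
import Fermat.Agent.CFT.Tangent.LocalBounds

/-!
# Ordinarity as a system of natural equations

When the determinant is cyclotomic and `σ₀` is an inertia element at `P` whose cyclotomic value is
`2` modulo `p`, the line of an ordinary representation is the image of `ρ σ₀ - 1`; ordinarity and
strict ordinarity are therefore equations in the representation, hence deformation conditions.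
-/

set_option autoImplicit false
set_option linter.style.haveILetI false

noncomputable section

namespace Fermat.Agent.Lifting

open IsLocalRing Module
open Deform (Gal M2)

/-- An inertia element at `P` squaring the `p`-th roots of unity. -/
def squareInertia (p : ℕ) (P : ValuationSubring (AlgebraicClosure ℚ)) : Gal :=
  open Classical in
  if h : ∃ σ ∈ P.inertiaSubgroupIn ℚ, ∀ μ : AlgebraicClosure ℚ, μ ^ p = 1 → σ μ = μ ^ 2 then
    h.choose
  else 1

theorem squareInertia_spec {p : ℕ} (hp : p.Prime) (hp2 : p ≠ 2)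
    {P : ValuationSubring (AlgebraicClosure ℚ)} (hP : P.LiesOverPrime p) :
    squareInertia p P ∈ P.inertiaSubgroupIn ℚ ∧
      ∀ μ : AlgebraicClosure ℚ, μ ^ p = 1 → squareInertia p P μ = μ ^ 2 := by
  have h : ∃ σ ∈ P.inertiaSubgroupIn ℚ,
      ∀ μ : AlgebraicClosure ℚ, μ ^ p = 1 → σ μ = μ ^ 2 := by
    haveI : NeZero p := ⟨hp.ne_zero⟩
    obtain ⟨ζ, hζ⟩ := HasEnoughRootsOfUnity.exists_primitiveRoot (AlgebraicClosure ℚ) p
    have hη : IsPrimitiveRoot (ζ ^ 2) (p ^ (0 + 1)) := by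
      simpa using hζ.pow_of_coprime 2 ((Nat.coprime_primes Nat.prime_two hp).mpr (Ne.symm hp2))
    obtain ⟨σ, hσ, e⟩ := Mazur.Eisenstein.exists_inertia_apply hP hp (m := 0) (ζ := ζ) (η := ζ ^ 2)
      (by simpa using hζ) hη
    refine ⟨σ, hσ, fun μ hμ => ?_⟩
    obtain ⟨i, -, rfl⟩ := hζ.eq_pow_of_pow_eq_one hμ
    rw [map_pow, e, ← pow_mul, ← pow_mul, mul_comm]
  rw [squareInertia, dif_pos h]
  exact h.choose_spec

section Equations

variable (σ₀ : Gal)

/-- `ρ σ₀ - 1`. -/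
def lineEnd : NatEnd := NatEnd.gal σ₀ - 1

/-- A multiple of the projection off the line. -/
def coLineEnd : NatEnd := (NatScalar.det σ₀ - NatScalar.int 1) • (1 : NatEnd) - lineEnd σ₀

/-- `trace (ρ σ₀) = det (ρ σ₀) + 1`. -/
def traceEq : NatEnd :=
  (NatScalar.trace (NatEnd.gal σ₀) - NatScalar.det σ₀ - NatScalar.int 1) • 1

/-- The line is stable under `g`. -/
def stableEq (g : Gal) : NatEnd := coLineEnd σ₀ * NatEnd.gal g * lineEnd σ₀

/-- `g` is trivial on the quotient by the line. -/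
def quotEq (g : Gal) : NatEnd := coLineEnd σ₀ * (NatEnd.gal g - 1)

/-- The value on the line, scaled. -/
def lineVal' (g : Gal) : NatEnd := NatScalar.trace (NatEnd.gal g * lineEnd σ₀) • 1

/-- The value on the quotient, scaled. -/
def quotVal' (g : Gal) : NatEnd := NatScalar.trace (coLineEnd σ₀ * NatEnd.gal g) • 1

variable {σ₀}
variable {A : Type} [CommRing A] [IsLocalRing A] {ρ : GaloisRepAdic A} (b : Basis (Fin 2) A ρ.V)

theorem smul_one_eq_zero_iff {c : A} : c • (1 : Module.End A ρ.V) = 0 ↔ c = 0 := by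
  refine ⟨fun h => ?_, fun h => by rw [h, zero_smul]⟩
  let b := Module.finBasisOfFinrankEq A ρ.V ρ.finrank_eq
  simpa using congrArg (fun v => b.repr v 0) (LinearMap.congr_fun h (b 0))

theorem inSpan_smul_one_iff {m : ℕ} {c : A} :
    InSpan m (c • (1 : Module.End A ρ.V)) ↔ c ∈ Ideal.span {(m : A)} := by
  refine ⟨fun h => ?_, fun h => inSpan_smul h _⟩
  let b := Module.finBasisOfFinrankEq A ρ.V ρ.finrank_eq
  simpa using (inSpan_iff_entries b).mp h 0 0

/-- A basis in which `ρ σ₀ - 1` has image on the first line. -/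
def IsLineBasis (σ₀ : Gal) (b : Basis (Fin 2) A ρ.V) : Prop :=
  LinearMap.toMatrix b b (ρ.ρ σ₀) 1 0 = 0 ∧ LinearMap.toMatrix b b (ρ.ρ σ₀) 1 1 = 1

theorem det_eq_of_isLineBasis (hb : IsLineBasis σ₀ b) :
    LinearMap.det (ρ.ρ σ₀) = LinearMap.toMatrix b b (ρ.ρ σ₀) 0 0 := by
  rw [← LinearMap.det_toMatrix b, Matrix.det_fin_two, hb.1, hb.2, mul_one, mul_zero, sub_zero]

theorem traceEq_of_isLineBasis (hb : IsLineBasis σ₀ b) : (traceEq σ₀).val ρ = 0 := by
  simp only [traceEq, NatEnd.smul_val, NatEnd.one_val, smul_one_eq_zero_iff, NatScalar.sub_val,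
    NatScalar.trace_val, NatEnd.gal_val, NatScalar.det_val, NatScalar.int_val]
  rw [LinearMap.trace_eq_matrix_trace A b, Matrix.trace_fin_two, det_eq_of_isLineBasis b hb, hb.2]
  push_cast
  ring

theorem toMatrix_lineEnd (hb : IsLineBasis σ₀ b) :
    LinearMap.toMatrix b b ((lineEnd σ₀).val ρ) =
      !![LinearMap.det (ρ.ρ σ₀) - 1, LinearMap.toMatrix b b (ρ.ρ σ₀) 0 1; 0, 0] := by
  rw [det_eq_of_isLineBasis b hb]
  simp only [lineEnd, NatEnd.sub_val, NatEnd.gal_val, NatEnd.one_val, map_sub, LinearMap.toMatrix_one]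
  refine Matrix.ext fun i j => ?_
  fin_cases i <;> fin_cases j <;> simp [Matrix.one_apply, hb.1, hb.2]

theorem toMatrix_coLineEnd (hb : IsLineBasis σ₀ b) :
    LinearMap.toMatrix b b ((coLineEnd σ₀).val ρ) =
      !![0, -LinearMap.toMatrix b b (ρ.ρ σ₀) 0 1; 0, LinearMap.det (ρ.ρ σ₀) - 1] := by
  simp only [coLineEnd, NatEnd.sub_val, NatEnd.smul_val, NatEnd.one_val, NatScalar.sub_val,
    NatScalar.det_val, NatScalar.int_val, map_sub, map_smul, LinearMap.toMatrix_one,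
    toMatrix_lineEnd b hb]
  refine Matrix.ext fun i j => ?_
  fin_cases i <;> fin_cases j <;> simp [Matrix.one_apply]

theorem stableEq_iff (hb : IsLineBasis σ₀ b) (hu : IsUnit (LinearMap.det (ρ.ρ σ₀) - 1)) (g : Gal) :
    (stableEq σ₀ g).val ρ = 0 ↔ LinearMap.toMatrix b b (ρ.ρ g) 1 0 = 0 := by
  rw [← (LinearMap.toMatrix b b).map_eq_zero_iff]
  simp only [stableEq, NatEnd.mul_val, NatEnd.gal_val, LinearMap.toMatrix_mul,
    toMatrix_lineEnd b hb, toMatrix_coLineEnd b hb]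
  set R := LinearMap.toMatrix b b (ρ.ρ g)
  constructor
  · intro h
    have := congrFun (congrFun h 1) 0
    simp [Matrix.mul_apply, Matrix.vecMul, dotProduct, Fin.sum_univ_two] at this
    exact hu.mul_right_eq_zero.mp (hu.mul_left_eq_zero.mp this)
  · intro h
    refine Matrix.ext fun i j => ?_
    fin_cases i <;> fin_cases j <;> simp [Matrix.mul_apply, Matrix.vecMul, dotProduct, Fin.sum_univ_two, h]

theorem quotEq_iff (hb : IsLineBasis σ₀ b) (hu : IsUnit (LinearMap.det (ρ.ρ σ₀) - 1)) (g : Gal) :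
    (quotEq σ₀ g).val ρ = 0 ↔
      LinearMap.toMatrix b b (ρ.ρ g) 1 0 = 0 ∧ LinearMap.toMatrix b b (ρ.ρ g) 1 1 = 1 := by
  rw [← (LinearMap.toMatrix b b).map_eq_zero_iff]
  simp only [quotEq, NatEnd.mul_val, NatEnd.sub_val, NatEnd.gal_val, NatEnd.one_val,
    LinearMap.toMatrix_mul, map_sub, LinearMap.toMatrix_one, toMatrix_coLineEnd b hb]
  set R := LinearMap.toMatrix b b (ρ.ρ g)
  constructor
  · intro h
    have h0 := congrFun (congrFun h 1) 0
    have h1 := congrFun (congrFun h 1) 1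
    simp [Matrix.mul_apply, Matrix.vecMul, dotProduct, Fin.sum_univ_two] at h0 h1
    exact ⟨hu.mul_right_eq_zero.mp h0, sub_eq_zero.mp (hu.mul_right_eq_zero.mp h1)⟩
  · rintro ⟨h0, h1⟩
    refine Matrix.ext fun i j => ?_
    fin_cases i <;> fin_cases j <;> simp [Matrix.mul_apply, Matrix.vecMul, dotProduct, Fin.sum_univ_two, h0, h1]

theorem inSpan_strictEq_iff (hb : IsLineBasis σ₀ b) (hu : IsUnit (LinearMap.det (ρ.ρ σ₀) - 1))
    (g : Gal) (hg : LinearMap.toMatrix b b (ρ.ρ g) 1 0 = 0) (m : ℕ) (a : ℤ) :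
    InSpan m ((lineVal' σ₀ g - NatScalar.int a • quotVal' σ₀ g).val ρ) ↔
      LinearMap.toMatrix b b (ρ.ρ g) 0 0 - (a : A) * LinearMap.toMatrix b b (ρ.ρ g) 1 1 ∈
        Ideal.span {(m : A)} := by
  simp only [lineVal', quotVal', NatEnd.sub_val, NatEnd.smul_val, NatEnd.one_val,
    NatScalar.trace_val, NatEnd.mul_val, NatEnd.gal_val, NatScalar.int_val, smul_smul, ← sub_smul,
    inSpan_smul_one_iff, LinearMap.trace_eq_matrix_trace A b, LinearMap.toMatrix_mul,
    toMatrix_lineEnd b hb, toMatrix_coLineEnd b hb]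
  set R := LinearMap.toMatrix b b (ρ.ρ g)
  have e : Matrix.trace (R * !![LinearMap.det (ρ.ρ σ₀) - 1,
        LinearMap.toMatrix b b (ρ.ρ σ₀) 0 1; 0, 0]) -
      (a : A) * Matrix.trace (!![0, -LinearMap.toMatrix b b (ρ.ρ σ₀) 0 1; 0,
        LinearMap.det (ρ.ρ σ₀) - 1] * R) =
      (LinearMap.det (ρ.ρ σ₀) - 1) * (R 0 0 - (a : A) * R 1 1) := by
    simp [Matrix.trace_fin_two, Matrix.mul_apply, Matrix.vecMul, dotProduct, Fin.sum_univ_two, hg]
    ring
  rw [e, Ideal.unit_mul_mem_iff_mem _ hu]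

end Equations

section Basis

variable {A : Type} [CommRing A] [IsLocalRing A] {ρ : GaloisRepAdic A}

theorem mem_span_iff_repr {M : Type} [AddCommGroup M] [Module A M] (b : Basis (Fin 2) A M) {v : M} :
    v ∈ A ∙ b 0 ↔ b.repr v 1 = 0 := by
  refine ⟨fun h => ?_, fun h => ?_⟩
  · obtain ⟨c, rfl⟩ := Submodule.mem_span_singleton.mp h
    simp
  · refine Submodule.mem_span_singleton.mpr ⟨b.repr v 0, ?_⟩
    conv_rhs => rw [← b.sum_repr v, Fin.sum_univ_two, h, zero_smul, add_zero]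

theorem stable_iff_toMatrix (b : Basis (Fin 2) A ρ.V) (g : Gal) :
    (∀ v ∈ A ∙ b 0, ρ.ρ g v ∈ A ∙ b 0) ↔ LinearMap.toMatrix b b (ρ.ρ g) 1 0 = 0 := by
  rw [LinearMap.toMatrix_apply]
  refine ⟨fun h => (mem_span_iff_repr b).mp (h _ (Submodule.mem_span_singleton_self _)),
    fun h v hv => ?_⟩
  obtain ⟨c, rfl⟩ := Submodule.mem_span_singleton.mp hv
  rw [map_smul]
  exact Submodule.smul_mem _ _ ((mem_span_iff_repr b).mpr h)

theorem quot_iff_toMatrix (b : Basis (Fin 2) A ρ.V) (g : Gal) (z : A) :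
    (∀ v, ρ.ρ g v - z • v ∈ A ∙ b 0) ↔
      LinearMap.toMatrix b b (ρ.ρ g) 1 0 = 0 ∧ LinearMap.toMatrix b b (ρ.ρ g) 1 1 = z := by
  simp only [mem_span_iff_repr b, LinearMap.toMatrix_apply, map_sub, map_smul, Finsupp.sub_apply,
    Finsupp.smul_apply, smul_eq_mul, sub_eq_zero]
  refine ⟨fun h => ⟨by simpa using h (b 0), by simpa using h (b 1)⟩, fun h v => ?_⟩
  have e : ρ.ρ g v = b.repr v 0 • ρ.ρ g (b 0) + b.repr v 1 • ρ.ρ g (b 1) := by
    conv_lhs => rw [← b.sum_repr v, Fin.sum_univ_two, map_add, map_smul, map_smul]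
  simp [e, h.1, h.2, mul_comm]

/-- An endomorphism of determinant zero and unit trace has its image on the first vector of some
basis. -/
theorem exists_lineBasis {f : Module.End A ρ.V} (hdet : LinearMap.det f = 0)
    (htr : IsUnit (LinearMap.trace A ρ.V f)) :
    ∃ b : Basis (Fin 2) A ρ.V, ∀ v, b.repr (f v) 1 = 0 := by
  let b := Module.finBasisOfFinrankEq A ρ.V ρ.finrank_eq
  set F := LinearMap.toMatrix b b f with hF
  rw [LinearMap.trace_eq_matrix_trace A b, ← hF, Matrix.trace_fin_two] at htr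
  rw [← LinearMap.det_toMatrix b, ← hF, Matrix.det_fin_two, sub_eq_zero] at hdet
  have key : ∀ i j : Fin 2, i ≠ j → IsUnit (F i i) →
      ∃ b' : Basis (Fin 2) A ρ.V, ∀ v, b'.repr (f v) 1 = 0 := by
    intro i j hij hu
    let P : Matrix (Fin 2) (Fin 2) A :=
      Matrix.of fun r c => if c = 0 then F r i else if r = j then 1 else 0
    have hP : IsUnit P.det := by
      rw [Matrix.det_fin_two]
      fin_cases i <;> fin_cases j <;> simp_all [P]
    let e : ρ.V ≃ₗ[A] ρ.V := Matrix.toLinearEquiv b P hP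
    refine ⟨b.map e, fun v => ?_⟩
    rw [← mem_span_iff_repr (b.map e), Basis.map_apply]
    have he : e (b 0) = f (b i) := by
      apply b.ext_elem
      intro r
      rw [show e (b 0) = Matrix.toLin b b P (b 0) from rfl, Matrix.toLin_self]
      simp [P, hF, LinearMap.toMatrix_apply, Finsupp.single_apply]
    rw [he]
    have hj : f (b j) = (F i j * ((hu.unit⁻¹ : Aˣ) : A)) • f (b i) := by
      apply b.ext_elem
      intro r
      rw [map_smul, Finsupp.smul_apply, smul_eq_mul, ← LinearMap.toMatrix_apply b b f r j,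
        ← LinearMap.toMatrix_apply b b f r i, ← hF]
      have h1 : F r j * F i i = F i j * F r i := by
        fin_cases i <;> fin_cases j <;> fin_cases r <;> simp_all [mul_comm]
      rw [show F r j = F r j * F i i * ((hu.unit⁻¹ : Aˣ) : A) by
        rw [mul_assoc, IsUnit.mul_val_inv, mul_one], h1]
      ring
    rw [← b.sum_repr v, map_sum]
    refine Submodule.sum_mem _ fun c _ => ?_
    rw [map_smul]
    refine Submodule.smul_mem _ _ ?_
    rcases (show c = i ∨ c = j from by fin_cases i <;> fin_cases j <;> fin_cases c <;> simp_all) with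
      rfl | rfl
    · exact Submodule.mem_span_singleton_self _
    · rw [hj]; exact Submodule.smul_mem _ _ (Submodule.mem_span_singleton_self _)
  rcases IsLocalRing.isUnit_or_isUnit_of_isUnit_add htr with h | h
  · exact key 0 1 (by decide) h
  · exact key 1 0 (by decide) h

theorem isUnit_det_sub_one {p : ℕ} [Fact p.Prime] (hdet : ρ.DetIsCyclotomic p) {σ₀ : Gal}
    (hσ₀ : ∀ μ : AlgebraicClosure ℚ, μ ^ p = 1 → σ₀ μ = μ ^ 2) :
    IsUnit (LinearMap.det (ρ.ρ σ₀) - 1) := by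
  have h := hdet.2 1 σ₀ 2 (by simpa using hσ₀)
  have hm : LinearMap.det (ρ.ρ σ₀) - ((2 : ℕ) : A) ∈ maximalIdeal A := by
    refine (Ideal.span_singleton_le_iff_mem _).mpr ?_ h
    simpa using hdet.1
  rw [← IsLocalRing.notMem_maximalIdeal]
  intro hc
  have := Submodule.sub_mem _ hc hm
  push_cast at this
  ring_nf at this
  exact (maximalIdeal.isMaximal A).ne_top ((Ideal.eq_top_iff_one _).mpr this)

end Basis

section Cond

variable {O : Type} [CommRing O]

/-- The places over `p`. -/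
abbrev PlaceOver (p : ℕ) : Type :=
  {P : ValuationSubring (AlgebraicClosure ℚ) // P.LiesOverPrime p}

/-- The equations of ordinarity. -/
def ordEq (p : ℕ) : Cond O :=
  condForall fun P : PlaceOver p =>
    condAnd (eqCond fun _ : Unit => traceEq (squareInertia p P.1))
      (condAnd (eqCond fun g : P.1.decompositionSubgroup ℚ => stableEq (squareInertia p P.1) g.1)
        (eqCond fun g : P.1.inertiaSubgroupIn ℚ => quotEq (squareInertia p P.1) g.1))

/-- The congruences of strict ordinarity. -/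
def strictEq (p : ℕ) : Cond O :=
  condForall fun P : PlaceOver p =>
    cycCond p (fun g : P.1.decompositionSubgroup ℚ => g.1)
      (fun g => lineVal' (squareInertia p P.1) g.1) (fun g => quotVal' (squareInertia p P.1) g.1)

variable {A : Type} [CommRing A] [IsLocalRing A] [Algebra O A] {ρ : GaloisRepAdic A}
variable {p : ℕ} [Fact p.Prime]

theorem isLineBasis_of_quot {σ₀ : Gal} (b : Basis (Fin 2) A ρ.V)
    (h : ∀ v : ρ.V, ρ.ρ σ₀ v - v ∈ A ∙ b 0) : IsLineBasis σ₀ b :=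
  (quot_iff_toMatrix b σ₀ 1).mp fun v => by rw [one_smul]; exact h v

theorem ordEq_of_isOrdinaryAt (hp2 : p ≠ 2) (hdet : ρ.DetIsCyclotomic p) (h : ρ.IsOrdinaryAt p) :
    ordEq (O := O) p ρ := by
  rintro ⟨P, hP⟩
  obtain ⟨hσ, hμ⟩ := squareInertia_spec (Fact.out : p.Prime) hp2 hP
  obtain ⟨L, ⟨b, rfl⟩, hD, hI⟩ := h P hP
  have hb := isLineBasis_of_quot b (hI _ hσ)
  have hu := isUnit_det_sub_one hdet hμ
  exact ⟨fun _ => traceEq_of_isLineBasis b hb,
    fun g => (stableEq_iff b hb hu _).mpr ((stable_iff_toMatrix b _).mp (hD _ g.2)),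
    fun g => (quotEq_iff b hb hu _).mpr ((quot_iff_toMatrix b _ 1).mp fun v => by
      rw [one_smul]; exact hI _ g.2 v)⟩

omit [Fact p.Prime] in
theorem exists_lineBasis_of_traceEq {σ₀ : Gal} (h : (traceEq σ₀).val ρ = 0)
    (hu : IsUnit (LinearMap.det (ρ.ρ σ₀) - 1)) :
    ∃ b : Basis (Fin 2) A ρ.V, IsLineBasis σ₀ b := by
  simp only [traceEq, NatEnd.smul_val, NatEnd.one_val, smul_one_eq_zero_iff, NatScalar.sub_val,
    NatScalar.trace_val, NatEnd.gal_val, NatScalar.det_val, NatScalar.int_val, Int.cast_one] at h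
  have htr : LinearMap.trace A ρ.V (ρ.ρ σ₀ - 1) = LinearMap.det (ρ.ρ σ₀) - 1 := by
    rw [map_sub, LinearMap.trace_one, ρ.finrank_eq]
    push_cast
    linear_combination h
  have hdet : LinearMap.det (ρ.ρ σ₀ - 1) = 0 := by
    let b := Module.finBasisOfFinrankEq A ρ.V ρ.finrank_eq
    rw [LinearMap.trace_eq_matrix_trace A b, ← LinearMap.det_toMatrix b, Matrix.trace_fin_two,
      Matrix.det_fin_two] at h
    rw [← LinearMap.det_toMatrix b, map_sub, LinearMap.toMatrix_one, Matrix.det_fin_two]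
    simp [Matrix.one_apply]
    linear_combination -h
  obtain ⟨b, hb⟩ := exists_lineBasis hdet (htr ▸ hu)
  exact ⟨b, isLineBasis_of_quot b fun v => (mem_span_iff_repr b).mpr (by simpa using hb v)⟩

theorem isOrdinaryAt_of_ordEq (hp2 : p ≠ 2) (hdet : ρ.DetIsCyclotomic p)
    (h : ordEq (O := O) p ρ) : ρ.IsOrdinaryAt p := by
  intro P hP
  obtain ⟨hσ, hμ⟩ := squareInertia_spec (Fact.out : p.Prime) hp2 hP
  have hu := isUnit_det_sub_one hdet hμ
  obtain ⟨htr, hD, hI⟩ := h ⟨P, hP⟩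
  obtain ⟨b, hb⟩ := exists_lineBasis_of_traceEq (htr ()) hu
  refine ⟨A ∙ b 0, ⟨b, rfl⟩,
    fun g hg => (stable_iff_toMatrix b g).mpr ((stableEq_iff b hb hu g).mp (hD ⟨g, hg⟩)),
    fun g hg v => ?_⟩
  simpa using (quot_iff_toMatrix b g 1).mpr ((quotEq_iff b hb hu g).mp (hI ⟨g, hg⟩)) v

theorem isOrdinaryAt_iff_ordEq (hp2 : p ≠ 2) (hdet : ρ.DetIsCyclotomic p) :
    ρ.IsOrdinaryAt p ↔ ordEq (O := O) p ρ :=
  ⟨ordEq_of_isOrdinaryAt hp2 hdet, isOrdinaryAt_of_ordEq hp2 hdet⟩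

theorem isStrictOrdinaryAt_iff_strictEq (hp2 : p ≠ 2) (hdet : ρ.DetIsCyclotomic p) :
    ρ.IsStrictOrdinaryAt p ↔ ordEq (O := O) p ρ ∧ strictEq (O := O) p ρ := by
  refine ⟨fun h => ⟨ordEq_of_isOrdinaryAt hp2 hdet h.isOrdinaryAt, ?_⟩, fun h => ?_⟩
  · rintro ⟨P, hP⟩ ⟨g, hg⟩ n a ha
    obtain ⟨hσ, hμ⟩ := squareInertia_spec (Fact.out : p.Prime) hp2 hP
    obtain ⟨L, ⟨b, rfl⟩, hD, hI, hxz⟩ := h.2 P hP
    have hb := isLineBasis_of_quot b (hI _ hσ)
    obtain ⟨x, z, hx, hz, hc⟩ := hxz g hg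
    obtain ⟨h10, h11⟩ := (quot_iff_toMatrix b g z).mp hz
    refine (inSpan_strictEq_iff b hb (isUnit_det_sub_one hdet hμ) g h10 _ _).mpr ?_
    rw [h11, Int.cast_natCast, LinearMap.toMatrix_apply, hx _ (Submodule.mem_span_singleton_self _)]
    simpa using hc n a ha
  · refine ⟨hdet.1, fun P hP => ?_⟩
    obtain ⟨hσ, hμ⟩ := squareInertia_spec (Fact.out : p.Prime) hp2 hP
    have hu := isUnit_det_sub_one hdet hμ
    obtain ⟨htr, hD, hI⟩ := h.1 ⟨P, hP⟩
    obtain ⟨b, hb⟩ := exists_lineBasis_of_traceEq (htr ()) hu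
    have hD' : ∀ g ∈ P.decompositionSubgroup ℚ, LinearMap.toMatrix b b (ρ.ρ g) 1 0 = 0 :=
      fun g hg => (stableEq_iff b hb hu g).mp (hD ⟨g, hg⟩)
    refine ⟨A ∙ b 0, ⟨b, rfl⟩, fun g hg => (stable_iff_toMatrix b g).mpr (hD' g hg), fun g hg v => ?_,
      fun g hg => ⟨LinearMap.toMatrix b b (ρ.ρ g) 0 0, LinearMap.toMatrix b b (ρ.ρ g) 1 1,
        fun w hw => ?_, (quot_iff_toMatrix b g _).mpr ⟨hD' g hg, rfl⟩, fun n a ha => ?_⟩⟩
    · simpa using (quot_iff_toMatrix b g 1).mpr ((quotEq_iff b hb hu g).mp (hI ⟨g, hg⟩)) v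
    · obtain ⟨c, rfl⟩ := Submodule.mem_span_singleton.mp hw
      rw [map_smul, smul_comm]
      refine congrArg (c • ·) (b.ext_elem fun i => ?_)
      fin_cases i
      · simp [LinearMap.toMatrix_apply]
      · simpa [LinearMap.toMatrix_apply] using hD' g hg
    · simpa using (inSpan_strictEq_iff b hb hu g (hD' g hg) _ _).mp (h.2 ⟨P, hP⟩ ⟨g, hg⟩ n a ha)

end Cond

end Fermat.Agent.Lifting
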