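import Fermat.Agent.FiniteFlat.OfLattice
import Mathlib.GroupTheory.FiniteAbelian.Duality
import Mathlib.RingTheory.RootsOfUnity.AlgebraicallyClosed

/-!
# Galois orders from unit coboundaries

Let `M` be a finite Galois module with a subgroup `L` stable by the decomposition group such that
inertia is trivial on `M/L` and acts on the characters of `L` as on roots of unity. If the cocycles
`σ ↦ ψ (σ m - m)` are coboundaries of units, the functions with integral values which are `ψ`-eigen
on some coset form a lattice of functions, hence `M` carries a Galois order.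
-/

set_option autoImplicit false
set_option linter.style.haveILetI false
set_option linter.unusedSectionVars false

noncomputable section

open scoped Pointwise
open Fermat.Agent.Arith Fermat.Agent.FiniteFlat

namespace Fermat.Agent.Lifting.Deform

variable {M : Type} [AddCommGroup M] [DistribMulAction GQ M] [Finite M]
  {A : ValuationSubring QBar} {l : ℕ} (L : AddSubgroup M)

/-- The integral functions supported by one coset which are eigen for a character of `L`. -/
def eigenGens (A : ValuationSubring QBar) : Set (M → QBar) :=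
  {f | (∀ m, f m ∈ A) ∧ ∃ (w : M) (ψ : AddChar L QBar),
    (∀ m, m - w ∉ L → f m = 0) ∧ ∀ x : L, f (w + x) = ψ x * f w}

/-- The character value at an element of `M`, zero outside `L`. -/
def extChar (ψ : AddChar L QBar) (m : M) : QBar :=
  open Classical in if h : m ∈ L then ψ ⟨m, h⟩ else 0

/-- The eigen function with value `c` at `w`. -/
def eigenFn (w : M) (ψ : AddChar L QBar) (c : QBar) : M → QBar := fun m => extChar L ψ (m - w) * c

theorem extChar_of_mem (ψ : AddChar L QBar) {m : M} (h : m ∈ L) : extChar L ψ m = ψ ⟨m, h⟩ :=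
  dif_pos h

theorem extChar_of_notMem (ψ : AddChar L QBar) {m : M} (h : m ∉ L) : extChar L ψ m = 0 :=
  dif_neg h

theorem eigenFn_add_coe (w : M) (ψ : AddChar L QBar) (c : QBar) (x : L) :
    eigenFn L w ψ c (w + x) = ψ x * c := by
  simp only [eigenFn, add_sub_cancel_left, extChar_of_mem L ψ x.2]

theorem eigenFn_self (w : M) (ψ : AddChar L QBar) (c : QBar) : eigenFn L w ψ c w = c := by
  have := eigenFn_add_coe L w ψ c 0
  simpa using this

theorem charValue_mem (ψ : AddChar L QBar) (x : L) : ψ x ∈ A := by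
  refine mem_of_isIntegral A (IsIntegral.of_pow (Nat.card_pos (α := L)) ?_)
  rw [← AddChar.map_nsmul_eq_pow, card_nsmul_eq_zero', AddChar.map_zero_eq_one]
  exact isIntegral_one

theorem eigenFn_mem (w : M) (ψ : AddChar L QBar) {c : QBar} (hc : c ∈ A) :
    eigenFn L w ψ c ∈ eigenGens L A := by
  refine ⟨fun m => ?_, w, ψ, fun m hm => ?_, fun x => ?_⟩
  · by_cases h : m - w ∈ L
    · rw [eigenFn, extChar_of_mem L ψ h]
      exact mul_mem (charValue_mem L ψ _) hc
    · rw [eigenFn, extChar_of_notMem L ψ h, zero_mul]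
      exact zero_mem A
  · rw [eigenFn, extChar_of_notMem L ψ hm, zero_mul]
  · rw [eigenFn_add_coe, eigenFn_self]

theorem eq_eigenFn {f : M → QBar} {w : M} {ψ : AddChar L QBar}
    (hsupp : ∀ m, m - w ∉ L → f m = 0) (heig : ∀ x : L, f (w + x) = ψ x * f w) :
    f = eigenFn L w ψ (f w) := by
  funext m
  by_cases h : m - w ∈ L
  · obtain ⟨x, rfl⟩ : ∃ x : L, m = w + x := ⟨⟨m - w, h⟩, by simp⟩
    rw [eigenFn_add_coe, heig]
  · rw [hsupp m h, eigenFn, extChar_of_notMem L ψ h, zero_mul]

theorem mul_mem_eigenGens {f g : M → QBar} (hf : f ∈ eigenGens L A) (hg : g ∈ eigenGens L A) :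
    f * g ∈ eigenGens L A := by
  obtain ⟨hfA, w, ψ, hfs, hfe⟩ := hf
  obtain ⟨hgA, v, χ, hgs, hge⟩ := hg
  refine ⟨fun m => mul_mem (hfA m) (hgA m), w, ψ * χ,
    fun m hm => by rw [Pi.mul_apply, hfs m hm, zero_mul], fun x => ?_⟩
  rw [Pi.mul_apply, Pi.mul_apply, AddChar.mul_apply]
  by_cases h : w - v ∈ L
  · have e : g (w + x) = χ x * g w := by
      conv_lhs => rw [show w + x = v + ((⟨w - v, h⟩ + x : L) : M) by simp; abel]
      rw [hge, AddChar.map_add_eq_mul, show g w = g (v + ((⟨w - v, h⟩ : L) : M)) by simp, hge]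
      ring
    rw [hfe, e]
    ring
  · have h' : ∀ y : L, g (w + y) = 0 := fun y => hgs _ fun hy =>
      h (by convert sub_mem hy y.2 using 1; abel)
    have h0 := h' 0
    rw [ZeroMemClass.coe_zero, add_zero] at h0
    rw [h' x, h0]
    ring

/-- The lattice of the eigen functions. -/
def eigenAlg (A : ValuationSubring QBar) : Subalgebra A (M → QBar) :=
  Algebra.adjoin A (eigenGens L A)

theorem indicator_sum_eq_one :
    ∑ᶠ c : M ⧸ L, eigenFn L c.out (1 : AddChar L QBar) 1 = 1 := by
  classical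
  haveI := Fintype.ofFinite (M ⧸ L)
  rw [finsum_eq_sum_of_fintype]
  funext m
  rw [Finset.sum_apply, Finset.sum_eq_single (QuotientAddGroup.mk m)]
  · obtain ⟨x, hx⟩ : ∃ x : L, (QuotientAddGroup.mk m : M ⧸ L).out + x = m := by
      have h := QuotientAddGroup.out_eq' (QuotientAddGroup.mk m : M ⧸ L)
      refine ⟨⟨-(QuotientAddGroup.mk m : M ⧸ L).out + m, QuotientAddGroup.eq.mp h⟩, by simp⟩
    have h1 := eigenFn_add_coe L (QuotientAddGroup.mk m : M ⧸ L).out 1 1 x
    rw [hx] at h1
    rw [h1, AddChar.one_apply, one_mul, Pi.one_apply]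
  · intro c _ hc
    rw [eigenFn, extChar_of_notMem L _ fun h => hc ?_, zero_mul]
    rw [← QuotientAddGroup.out_eq' c, QuotientAddGroup.eq, neg_add_eq_sub]
    exact h
  · exact fun h => absurd (Finset.mem_univ _) h

theorem eigenAlg_toSubmodule :
    (eigenAlg L A).toSubmodule = Submodule.span A (eigenGens L A) := by
  classical
  refine le_antisymm ?_ (Submodule.span_le.mpr fun f hf => Algebra.subset_adjoin hf)
  rw [eigenAlg, Algebra.adjoin_eq_span, Submodule.span_le]
  intro f hf
  induction hf using Submonoid.closure_induction_left with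
  | one =>
    haveI := Fintype.ofFinite (M ⧸ L)
    rw [← indicator_sum_eq_one L, finsum_eq_sum_of_fintype]
    exact sum_mem fun c _ => Submodule.subset_span (eigenFn_mem L _ _ A.one_mem)
  | mul_left x hx y hy ih =>
    simp only [SetLike.mem_coe] at ih ⊢
    clear hy
    induction ih using Submodule.span_induction with
    | mem g hg => exact Submodule.subset_span (mul_mem_eigenGens L hx hg)
    | zero => rw [mul_zero]; exact zero_mem _
    | add g h _ _ hg hh => rw [mul_add]; exact add_mem hg hh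
    | smul a g _ hg => rw [mul_smul_comm]; exact Submodule.smul_mem _ a hg

theorem mem_eigenAlg {f : M → QBar} :
    f ∈ eigenAlg L A ↔ f ∈ Submodule.span A (eigenGens L A) := by
  rw [← Subalgebra.mem_toSubmodule, eigenAlg_toSubmodule]

theorem eigenGens_comul {f : M → QBar} (hf : f ∈ eigenGens L A) :
    ∃ (n : ℕ) (a b : Fin n → (M → QBar)), (∀ i, a i ∈ eigenAlg L A) ∧
      (∀ i, b i ∈ eigenAlg L A) ∧ ∀ x y, f (x + y) = ∑ i, a i x * b i y := by
  classical
  obtain ⟨hfA, w, ψ, hs, he⟩ := hf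
  haveI := Fintype.ofFinite (M ⧸ L)
  let e := (Fintype.equivFin (M ⧸ L)).symm
  refine ⟨_, fun i => eigenFn L (e i).out ψ 1, fun i => eigenFn L (w - (e i).out) ψ (f w),
    fun i => Algebra.subset_adjoin (eigenFn_mem L _ _ A.one_mem),
    fun i => Algebra.subset_adjoin (eigenFn_mem L _ _ (hfA w)), fun x y => ?_⟩
  rw [e.sum_comp fun c : M ⧸ L => eigenFn L c.out ψ 1 x * eigenFn L (w - c.out) ψ (f w) y,
    Finset.sum_eq_single (QuotientAddGroup.mk x)]
  · obtain ⟨s, hs'⟩ : ∃ s : L, (QuotientAddGroup.mk x : M ⧸ L).out + s = x := by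
      have h := QuotientAddGroup.out_eq' (QuotientAddGroup.mk x : M ⧸ L)
      exact ⟨⟨-(QuotientAddGroup.mk x : M ⧸ L).out + x, QuotientAddGroup.eq.mp h⟩, by simp⟩
    set r := (QuotientAddGroup.mk x : M ⧸ L).out
    rw [← hs']
    by_cases h : y - (w - r) ∈ L
    · obtain ⟨t, rfl⟩ : ∃ t : L, y = w - r + t := ⟨⟨_, h⟩, by simp⟩
      rw [eigenFn_add_coe, eigenFn_add_coe,
        show r + (s : M) + (w - r + t) = w + ((s + t : L) : M) by push_cast; abel, he,
        AddChar.map_add_eq_mul]
      ring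
    · rw [hs _ fun h' => h ?_, eigenFn, eigenFn, extChar_of_notMem L ψ h]
      · ring
      · have := sub_mem h' s.2
        convert this using 1
        abel
  · intro c _ hc
    rw [eigenFn, extChar_of_notMem L ψ fun h => hc ?_, zero_mul, zero_mul]
    rw [← QuotientAddGroup.out_eq' c, QuotientAddGroup.eq, neg_add_eq_sub]
    exact h
  · exact fun h => absurd (Finset.mem_univ _) h

theorem eigenAlg_comul {f : M → QBar} (hf : f ∈ eigenAlg L A) :
    ∃ (n : ℕ) (a b : Fin n → (M → QBar)), (∀ i, a i ∈ eigenAlg L A) ∧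
      (∀ i, b i ∈ eigenAlg L A) ∧ ∀ x y, f (x + y) = ∑ i, a i x * b i y := by
  rw [mem_eigenAlg] at hf
  induction hf using Submodule.span_induction with
  | mem g hg => exact eigenGens_comul L hg
  | zero => exact ⟨0, ![], ![], fun i => i.elim0, fun i => i.elim0, fun x y => by simp⟩
  | add g g' _ _ h h' =>
    obtain ⟨n, a, b, ha, hb, hab⟩ := h
    obtain ⟨n', a', b', ha', hb', hab'⟩ := h'
    refine ⟨n + n', Fin.append a a', Fin.append b b', Fin.addCases (fun i => by simp [ha i])
      (fun i => by simp [ha' i]), Fin.addCases (fun i => by simp [hb i]) (fun i => by simp [hb' i]),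
      fun x y => ?_⟩
    rw [Fin.sum_univ_add]
    simp [hab, hab']
  | smul c g _ h =>
    obtain ⟨n, a, b, ha, hb, hab⟩ := h
    refine ⟨n, fun i => c • a i, b, fun i => (eigenAlg L A).smul_mem (ha i) c, hb, fun x y => ?_⟩
    simp only [Pi.smul_apply, hab, valuationSubring_smul_def, Finset.mul_sum, mul_assoc]

theorem eigenAlg_neg {f : M → QBar} (hf : f ∈ eigenAlg L A) :
    (fun x => f (-x)) ∈ eigenAlg L A := by
  rw [mem_eigenAlg] at hf
  induction hf using Submodule.span_induction with
  | mem g hg =>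
    obtain ⟨hgA, w, ψ, hs, he⟩ := hg
    refine Algebra.subset_adjoin ⟨fun m => hgA _, -w, ψ⁻¹, fun m hm => hs _ fun h => hm ?_,
      fun x => ?_⟩
    · have := neg_mem h
      convert this using 1
      abel
    · show g (-(-w + x)) = ψ⁻¹ x * g (- -w)
      rw [neg_add, neg_neg, ← NegMemClass.coe_neg, he, AddChar.inv_apply]
  | zero => exact zero_mem (eigenAlg L A)
  | add g g' _ _ h h' => exact add_mem h h'
  | smul c g _ h => exact (eigenAlg L A).smul_mem h c

theorem eigenAlg_separates {m m' : M} (h : ∀ f ∈ eigenAlg L A, f m = f m') : m = m' := by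
  classical
  have h1 := h _ (Algebra.subset_adjoin (eigenFn_mem L m 1 A.one_mem))
  rw [eigenFn_self] at h1
  have hmem : m' - m ∈ L := by
    by_contra hn
    rw [eigenFn, extChar_of_notMem L _ hn, zero_mul] at h1
    exact one_ne_zero h1
  by_contra hne
  haveI : Finite (Multiplicative L) := inferInstanceAs (Finite L)
  haveI : NeZero (Monoid.exponent (Multiplicative L) : QBar) :=
    ⟨Nat.cast_ne_zero.mpr Monoid.exponent_ne_zero_of_finite⟩
  obtain ⟨φ, hφ⟩ := CommGroup.exists_apply_ne_one_of_hasEnoughRootsOfUnity (Multiplicative L) QBar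
    (a := Multiplicative.ofAdd (⟨m' - m, hmem⟩ : L)) fun e => hne
      (sub_eq_zero.mp (congrArg Subtype.val (ofAdd_eq_one.mp e))).symm
  let ψ : AddChar L QBar := AddChar.toMonoidHomEquiv.symm ((Units.coeHom QBar).comp φ)
  have h2 := h _ (Algebra.subset_adjoin (eigenFn_mem L m ψ A.one_mem))
  rw [eigenFn_self, eigenFn, extChar_of_mem L ψ hmem, mul_one] at h2
  exact hφ (Units.ext h2.symm)

theorem finite_addChar : Finite (AddChar L QBar) := by
  haveI : NeZero (Nat.card L) := ⟨Nat.card_pos.ne'⟩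
  refine Finite.of_injective (fun ψ (x : L) =>
    rootsOfUnity.mkOfPowEq (n := Nat.card L) (ψ x) (by
      rw [← AddChar.map_nsmul_eq_pow, card_nsmul_eq_zero', AddChar.map_zero_eq_one]))
    fun ψ χ h => DFunLike.ext _ _ fun x => ?_
  simpa using congrArg (fun t : rootsOfUnity (Nat.card L) QBar => ((t : QBarˣ) : QBar)) (congrFun h x)

/-- The transport of a character by a stabilising element. -/
def conjChar (d : GQ) (hd : ∀ x ∈ L, d⁻¹ • x ∈ L) (ψ : AddChar L QBar) : AddChar L QBar where
  toFun x := d (ψ ⟨d⁻¹ • (x : M), hd _ x.2⟩)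
  map_zero_eq_one' := by
    rw [show (⟨d⁻¹ • ((0 : L) : M), hd _ (0 : L).2⟩ : L) = 0 from Subtype.ext (smul_zero _),
      AddChar.map_zero_eq_one, map_one]
  map_add_eq_mul' x y := by
    rw [← map_mul, ← AddChar.map_add_eq_mul]
    exact congrArg (fun t => d (ψ t)) (Subtype.ext (smul_add _ _ _))

theorem galAct_mem_eigenAlg {d : GQ} (hd : d • A = A) (hdL : ∀ x ∈ L, d⁻¹ • x ∈ L)
    (hdL' : ∀ x ∈ L, d • x ∈ L) {f : M → QBar} (hf : f ∈ eigenAlg L A) :
    galAct d f ∈ eigenAlg L A := by
  have hdA : ∀ y ∈ A, d y ∈ A := fun y hy => hd ▸ ValuationSubring.smul_mem_pointwise_smul d y A hy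
  rw [mem_eigenAlg] at hf
  induction hf using Submodule.span_induction with
  | mem g hg =>
    obtain ⟨hgA, w, ψ, hs, he⟩ := hg
    refine Algebra.subset_adjoin ⟨fun m => hdA _ (hgA _), d • w, conjChar L d hdL ψ,
      fun m hm => ?_, fun x => ?_⟩
    · rw [galAct, hs _ fun h => hm ?_, map_zero]
      have := hdL' _ h
      rwa [smul_sub, smul_inv_smul] at this
    · show d (g (d⁻¹ • (d • w + x))) = d (ψ _) * d (g (d⁻¹ • d • w))
      rw [smul_add, inv_smul_smul, ← map_mul, ← he]
  | zero =>
    rw [show galAct d (0 : M → QBar) = 0 from funext fun m => map_zero d]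
    exact zero_mem _
  | add g g' _ _ h h' =>
    rw [show galAct d (g + g') = galAct d g + galAct d g' from funext fun m => map_add d _ _]
    exact add_mem h h'
  | smul c g _ h =>
    rw [show galAct d (c • g) = (⟨d c, hdA _ c.2⟩ : A) • galAct d g from funext fun m => by
      simp [galAct, valuationSubring_smul_def]]
    exact (eigenAlg L A).smul_mem h _

/-- A Galois order from unit coboundaries. -/
theorem exists_galOrder_of_unitCoboundary (hA : A.LiesOverPrime l) (hl : l.Prime)
    (hker : ∃ K : Subgroup GQ, IsOpen (K : Set GQ) ∧ ∀ σ ∈ K, ∀ m : M, σ • m = m)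
    (hL : ∀ d : GQ, d • A = A → ∀ x ∈ L, d • x ∈ L)
    (hquot : ∀ σ ∈ A.inertiaSubgroupIn ℚ, ∀ m : M, σ • m - m ∈ L)
    (hchar : ∀ σ ∈ A.inertiaSubgroupIn ℚ, ∀ (ψ : AddChar L QBar) (x : L) (hx : σ • (x : M) ∈ L),
      σ (ψ x) = ψ ⟨σ • (x : M), hx⟩)
    (hcob : ∀ (m : M) (ψ : AddChar L QBar), ∃ u : QBar, u ≠ 0 ∧ u ∈ A ∧ u⁻¹ ∈ A ∧
      ∀ σ (hσ : σ ∈ A.inertiaSubgroupIn ℚ), σ u = ψ ⟨σ • m - m, hquot σ hσ m⟩ * u) :
    Nonempty (GalOrder l M) := by
  classical
  have hIA : ∀ σ ∈ A.inertiaSubgroupIn ℚ, σ • A = A := by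
    rintro σ ⟨τ, -, rfl⟩
    exact τ.2
  choose u hu0 huA huA' hu using hcob
  let fx : M × AddChar L QBar → (M → QBar) := fun i => eigenFn L i.1 i.2 (u i.1 i.2)
  -- the fixed generators
  have hfix : ∀ σ ∈ A.inertiaSubgroupIn ℚ, ∀ i, galAct σ (fx i) = fx i := by
    intro σ hσ i
    obtain ⟨w, ψ⟩ := i
    have hσL := hL σ (hIA σ hσ)
    funext y
    by_cases h : y - w ∈ L
    · obtain ⟨x, rfl⟩ : ∃ x : L, y = w + x := ⟨⟨_, h⟩, by simp⟩
      have hq := hquot σ hσ w
      obtain ⟨x', hx'⟩ : ∃ x' : L, σ⁻¹ • (w + (x : M)) = w + x' := by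
        have hinv : σ⁻¹ ∈ A.inertiaSubgroupIn ℚ := inv_mem hσ
        refine ⟨⟨σ⁻¹ • (w + (x : M)) - w, ?_⟩, by simp⟩
        rw [smul_add, add_sub_right_comm]
        exact add_mem (hquot _ hinv w) (hL _ (hIA _ hinv) _ x.2)
      simp only [galAct, fx, hx', eigenFn_add_coe, map_mul, hu w ψ σ hσ,
        hchar σ hσ ψ x' (hσL _ x'.2), ← mul_assoc, ← AddChar.map_add_eq_mul]
      congr 2
      refine Subtype.ext ?_
      have e := congrArg (σ • ·) hx'
      simp only [smul_inv_smul, smul_add] at e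
      show σ • (x' : M) + (σ • w - w) = x
      rw [← add_sub_assoc, add_comm, ← e]
      abel
    · simp only [galAct, fx, eigenFn, extChar_of_notMem L ψ h]
      rw [extChar_of_notMem L ψ fun h' => h ?_]
      · simp
      · have h1 := add_mem (hL σ (hIA σ hσ) _ h') (hquot σ hσ w)
        rw [smul_sub, smul_inv_smul] at h1
        convert h1 using 1
        abel
  -- their joint stabiliser
  obtain ⟨K, hK, hKM⟩ := hker
  haveI : Finite (AddChar L QBar) := finite_addChar L
  let F : IntermediateField ℚ QBar := IntermediateField.adjoin ℚ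
    (Set.range fun i : (M × AddChar L QBar) × M => fx i.1 i.2)
  haveI : FiniteDimensional ℚ F := IntermediateField.finiteDimensional_adjoin
    fun x _ => Algebra.IsIntegral.isIntegral x
  let U : Subgroup GQ :=
    { carrier := {σ | ∀ i, galAct σ (fx i) = fx i}
      one_mem' := fun i => funext fun m => by simp [galAct]
      mul_mem' := fun {σ τ} hσ hτ i => by rw [galAct_mul, hτ i, hσ i]
      inv_mem' := fun {σ} hσ i => by
        conv_lhs => rw [← hσ i]
        rw [← galAct_mul, inv_mul_cancel]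
        exact funext fun m => by simp [galAct] }
  have hU : IsOpen (U : Set GQ) := by
    refine Subgroup.isOpen_mono (H₁ := K ⊓ F.fixingSubgroup) (fun σ hσ i => funext fun m => ?_) ?_
    · rw [galAct, hKM _ (inv_mem hσ.1)]
      exact (IntermediateField.mem_fixingSubgroup_iff _ _).mp hσ.2 _
        (IntermediateField.subset_adjoin ℚ _ ⟨(i, m), rfl⟩)
    · rw [Subgroup.coe_inf]
      exact hK.inter (IntermediateField.fixingSubgroup_isOpen F)
  have hgen : (eigenAlg L A).toSubmodule ≤
      Submodule.span A {f | f ∈ eigenAlg L A ∧ ∀ σ ∈ U, galAct σ f = f} := by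
    rw [eigenAlg_toSubmodule, Submodule.span_le]
    rintro f ⟨hfA, w, ψ, hs, he⟩
    have hc : f w * (u w ψ)⁻¹ ∈ A := mul_mem (hfA w) (huA' w ψ)
    have e : f = (⟨_, hc⟩ : A) • fx (w, ψ) := by
      conv_lhs => rw [eq_eigenFn L hs he]
      funext m
      simp only [fx, eigenFn, Pi.smul_apply, valuationSubring_smul_def]
      field_simp [hu0 w ψ]
    rw [SetLike.mem_coe, e]
    exact Submodule.smul_mem _ _ (Submodule.subset_span
      ⟨Algebra.subset_adjoin (eigenFn_mem L w ψ (huA w ψ)), fun σ hσ => hσ (w, ψ)⟩)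
  obtain ⟨O, -⟩ := exists_galOrder_of_lattice hA hl (eigenAlg L A)
    (fun f hf m => by
      rw [mem_eigenAlg] at hf
      induction hf using Submodule.span_induction with
      | mem g hg => exact hg.1 m
      | zero => exact zero_mem A
      | add g g' _ _ h h' => exact add_mem h h'
      | smul c g _ h => exact mul_mem c.2 h)
    (fun d hd f hf => galAct_mem_eigenAlg L hd
      (hL d⁻¹ (inv_smul_eq_iff.mpr hd.symm)) (hL d hd) hf)
    hU (fun σ hσ i => hfix σ hσ i) hgen (fun m m' h => eigenAlg_separates L h)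
    (fun f hf => eigenAlg_comul L hf) (fun f hf => eigenAlg_neg L hf)
  exact ⟨O⟩

end Fermat.Agent.Lifting.Deform

end
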